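/-
S37 row HI, core (helper88): the Hecke inputs hold at every level, so that `heckeOperatorBar` is
the honest correspondence `α_* β^*`.

`h88_HI_of` : `HeckeInputsAlong Qb N ℓ`, taking the generic rows FI (fundamental identity) and
NF (norm formula) for extensions of function fields over `Qb` as explicit hypotheses.
Everything else (integrality and finiteness along the two degeneracy maps, principal
divisors at level `N ℓ`) is proved here from the S24 function-field facts.
-/
import Mathlib
import Fermat.Prelude.Def_ModularCurve_HeckeOperatorTotal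
import Fermat.Agent.S24.h73_Diff
import Fermat.Agent.S24.h78_Fibres
import Fermat.Agent.S24.h24_Fibre

set_option autoImplicit false
set_option synthInstance.maxHeartbeats 400000
set_option linter.style.haveILetI false

noncomputable section

open ModularCurve AlgebraicCurve IntermediateField

namespace Fermat.Agent.S37

open Fermat.Agent.S24

local notation "Qb" => AlgebraicClosure ℚ

/-! ## Generic: finiteness and integrality along an algebra map -/

section Generic

variable {K F F' : Type*} [Field K] [Field F] [Field F'] [Algebra K F] [Algebra K F']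

/-- If `F'` is finite over `K(φ x)` for some `x : F`, then `F'` is finite over `F` along `φ`. -/
theorem h88_finiteAlong_of_finite (φ : F →ₐ[K] F') (x : F)
    (hfin : FiniteDimensional K⟮φ x⟯ F') : FiniteAlong K φ := by
  letI := algebraAlong φ
  show Module.Finite F F'
  obtain ⟨S, hS⟩ := hfin.fg_top
  have hle : K⟮φ x⟯ ≤ φ.fieldRange := by
    rw [IntermediateField.adjoin_simple_le_iff]
    exact ⟨x, rfl⟩
  have key : ∀ y : F', y ∈ Submodule.span K⟮φ x⟯ (S : Set F') →
      y ∈ Submodule.span F (S : Set F') := by
    intro y hy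
    induction hy using Submodule.span_induction with
    | mem z hz => exact Submodule.subset_span hz
    | zero => exact Submodule.zero_mem _
    | add a b _ _ ha hb => exact Submodule.add_mem _ ha hb
    | smul c a _ ha =>
      obtain ⟨d, hd⟩ := hle c.2
      have h1 : c • a = d • a := by
        show (c : F') * a = φ d * a
        rw [← hd]
        rfl
      rw [h1]
      exact Submodule.smul_mem _ d ha
  refine ⟨⟨S, ?_⟩⟩
  rw [eq_top_iff]
  intro y _
  exact key y (by rw [hS]; trivial)

/-- Finite along `φ` implies integral along `φ`. -/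
theorem h88_isIntegral_of_finiteAlong (φ : F →ₐ[K] F') (h : FiniteAlong K φ) :
    φ.toRingHom.IsIntegral := by
  letI := algebraAlong φ
  haveI : Module.Finite F F' := h
  intro y
  exact (Algebra.IsIntegral.isIntegral y : IsIntegral F y)

end Generic

/-! ## The modular function fields -/

/-- `F(M)` is a function field in one variable over `Qb`. -/
theorem h88_isFF (M : ℕ) [NeZero M] : h73_IsFF Qb (modularFunctionFieldBar M) :=
  ⟨h59_jbar M, h78_finiteDimensional M⟩

/-- `F(M)` has principal divisors (of degree `0`). -/
theorem h88_hasPrincipalDivisors (M : ℕ) [NeZero M] :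
    HasPrincipalDivisors Qb (modularFunctionFieldBar M) :=
  h24_hasPrincipalDivisors (fun _ hx => h73_finite_of_transcendental (h88_isFF M) hx)
    (h73_deg_eq_one (h88_isFF M))

section Hecke

variable (N : ℕ) [NeZero N] (ℓ : ℕ) [NeZero ℓ]

theorem h88_alpha_jbar : heckeAlphaBar Qb N ℓ (h59_jbar N) = h59_jbar (N * ℓ) :=
  Subtype.ext (by rw [coe_heckeAlphaBar]; rfl)

/-- `F(N ℓ)` is finite over `F(N)` along the inclusion `α`. -/
theorem h88_finiteAlong_alpha : FiniteAlong Qb (heckeAlphaBar Qb N ℓ) := by
  refine h88_finiteAlong_of_finite (heckeAlphaBar Qb N ℓ) (h59_jbar N) ?_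
  rw [h88_alpha_jbar]
  exact h78_finiteDimensional (N * ℓ)

omit [NeZero N] in
theorem h88_beta_jbar_transcendental :
    Transcendental Qb (heckeBetaBar Qb N ℓ (h59_jbar N)) := fun h =>
  h59_jbar_transcendental N
    ((isAlgebraic_algHom_iff (heckeBetaBar Qb N ℓ) (heckeBetaBar Qb N ℓ).toRingHom.injective).1 h)

/-- `F(N ℓ)` is finite over `F(N)` along `β : q ↦ q^ℓ`. -/
theorem h88_finiteAlong_beta : FiniteAlong Qb (heckeBetaBar Qb N ℓ) :=
  h88_finiteAlong_of_finite (heckeBetaBar Qb N ℓ) (h59_jbar N)
    (h73_finite_of_transcendental (h88_isFF (N * ℓ)) (h88_beta_jbar_transcendental N ℓ))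

theorem h88_alphaIntegral : HeckeAlphaBarIntegral Qb N ℓ :=
  h88_isIntegral_of_finiteAlong _ (h88_finiteAlong_alpha N ℓ)

theorem h88_betaIntegral : HeckeBetaBarIntegral Qb N ℓ :=
  h88_isIntegral_of_finiteAlong _ (h88_finiteAlong_beta N ℓ)

/-- **Row HI**, with the generic rows FI and NF as hypotheses. -/
theorem h88_HI_of
    (hFI : ∀ (F F' : Type) [Field F] [Field F'] [Algebra Qb F] [Algebra Qb F'] [Algebra F F']
      [IsScalarTower Qb F F'] [FiniteDimensional F F'], h73_IsFF Qb F →
      ∀ [HasPrincipalDivisors Qb F'], FundamentalIdentity Qb F F')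
    (hNF : ∀ (F F' : Type) [Field F] [Field F'] [Algebra Qb F] [Algebra Qb F'] [Algebra F F']
      [IsScalarTower Qb F F'] [FiniteDimensional F F'], h73_IsFF Qb F →
      Divisor.PushforwardNormFormula Qb F F') :
    HeckeInputsAlong Qb N ℓ := by
  haveI hP : HasPrincipalDivisors Qb (modularFunctionFieldBar (N * ℓ)) :=
    h88_hasPrincipalDivisors (N * ℓ)
  refine heckeInputsAlong_intro (h88_alphaIntegral N ℓ) (h88_betaIntegral N ℓ) ?_
    (h88_finiteAlong_alpha N ℓ) ?_
  · letI := algebraAlong (heckeBetaBar Qb N ℓ)
    haveI := isScalarTower_along (heckeBetaBar Qb N ℓ)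
    haveI : FiniteDimensional (modularFunctionFieldBar N) (modularFunctionFieldBar (N * ℓ)) :=
      h88_finiteAlong_beta N ℓ
    exact hFI _ _ (h88_isFF N)
  · letI := algebraAlong (heckeAlphaBar Qb N ℓ)
    haveI := isScalarTower_along (heckeAlphaBar Qb N ℓ)
    haveI : FiniteDimensional (modularFunctionFieldBar N) (modularFunctionFieldBar (N * ℓ)) :=
      h88_finiteAlong_alpha N ℓ
    exact hNF _ _ (h88_isFF N)

end Hecke

end Fermat.Agent.S37

end
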