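import Mathlib
import Fermat.Prelude.Def_ModularCurve_ReductionModL
import Fermat.Prelude.Def_ModularCurve_HeckeModule
import Fermat.Agent.S24.h78_Fibres
import Fermat.Agent.S24.h29_Index

/-!
# S37 row [DEG]: `[F(N q) : F(N)] = q + 1` for a prime `q ∤ N`
-/

set_option autoImplicit false
set_option synthInstance.maxHeartbeats 400000

noncomputable section

open ModularCurve AlgebraicCurve IntermediateField

namespace Fermat.Agent.S37

open Fermat.Agent.S24

local notation "Qb" => AlgebraicClosure ℚ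

/-- The inclusion `F(N) → F(N ℓ)` maps `j` to `j`. -/
theorem h19_heckeAlphaBar_jbar (N ℓ : ℕ) [NeZero N] [NeZero ℓ] :
    heckeAlphaBar Qb N ℓ (h59_jbar N) = h59_jbar (N * ℓ) :=
  Subtype.ext (by rw [coe_heckeAlphaBar, h59_coe_jbar, h59_coe_jbar])

set_option maxHeartbeats 1600000 in
/-- Tower law along the inclusion: `[F(N ℓ) : K(j)] = [F(N) : K(j)] * [F(N ℓ) : F(N)]`. -/
theorem h19_finrank_tower (N ℓ : ℕ) [NeZero N] [NeZero ℓ] :
    Module.finrank Qb⟮h59_jbar N⟯ ↥(modularFunctionFieldBar N) *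
        finrankAlong Qb (heckeAlphaBar Qb N ℓ) =
      Module.finrank Qb⟮h59_jbar (N * ℓ)⟯ ↥(modularFunctionFieldBar (N * ℓ)) := by
  set φ := heckeAlphaBar Qb N ℓ with hφ
  let _ := algebraAlong φ
  have := isScalarTower_along φ
  let alg : Algebra Qb⟮h59_jbar N⟯ ↥(modularFunctionFieldBar (N * ℓ)) :=
    ((algebraMap ↥(modularFunctionFieldBar N) ↥(modularFunctionFieldBar (N * ℓ))).comp
      (algebraMap Qb⟮h59_jbar N⟯ ↥(modularFunctionFieldBar N))).toAlgebra
  have : IsScalarTower Qb⟮h59_jbar N⟯ ↥(modularFunctionFieldBar N)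
      ↥(modularFunctionFieldBar (N * ℓ)) :=
    IsScalarTower.of_algebraMap_eq fun _ => rfl
  have h1 : Module.finrank Qb⟮h59_jbar N⟯ ↥(modularFunctionFieldBar N) *
      Module.finrank ↥(modularFunctionFieldBar N) ↥(modularFunctionFieldBar (N * ℓ)) =
      Module.finrank Qb⟮h59_jbar N⟯ ↥(modularFunctionFieldBar (N * ℓ)) :=
    Module.finrank_mul_finrank Qb⟮h59_jbar N⟯ ↥(modularFunctionFieldBar N)
      ↥(modularFunctionFieldBar (N * ℓ))
  have hmap : Qb⟮h59_jbar N⟯.map φ = Qb⟮h59_jbar (N * ℓ)⟯ := by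
    rw [IntermediateField.adjoin_map, Set.image_singleton, hφ, h19_heckeAlphaBar_jbar]
  let i : Qb⟮h59_jbar N⟯ ≃+* Qb⟮h59_jbar (N * ℓ)⟯ :=
    ((IntermediateField.equivMap Qb⟮h59_jbar N⟯ φ).trans
      (IntermediateField.equivOfEq hmap)).toRingEquiv
  have h2 : Module.finrank Qb⟮h59_jbar N⟯ ↥(modularFunctionFieldBar (N * ℓ)) =
      Module.finrank Qb⟮h59_jbar (N * ℓ)⟯ ↥(modularFunctionFieldBar (N * ℓ)) := by
    refine Algebra.finrank_eq_of_equiv_equiv i (RingEquiv.refl _) ?_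
    ext x
    rfl
  show Module.finrank Qb⟮h59_jbar N⟯ ↥(modularFunctionFieldBar N) *
      Module.finrank ↥(modularFunctionFieldBar N) ↥(modularFunctionFieldBar (N * ℓ)) = _
  rw [h1, h2]

/-- [DEG] `[F(N q) : F(N)] = q + 1` for a prime `q ∤ N` (along the inclusion). -/
theorem h19_DEG (N : ℕ) [NeZero N] (q : ℕ) [NeZero q] (hq : q.Prime) (hqN : ¬ q ∣ N) :
    finrankAlong Qb (heckeAlphaBar Qb N q) = q + 1 := by
  have h := h19_finrank_tower N q
  have hψ : ModularCurve.dedekindPsi (N * q) = (q + 1) * ModularCurve.dedekindPsi N := by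
    rw [mul_comm N q]
    exact h29_psi_mul_of_not_dvd q N hq (Nat.pos_of_ne_zero (NeZero.ne N)) hqN
  rw [h78_finrank N, h78_finrank (N * q), h29_card_quotient_Gamma0 N,
    h29_card_quotient_Gamma0 (N * q), hψ, mul_comm] at h
  have hpos : 0 < ModularCurve.dedekindPsi N := by
    rw [← h29_card_quotient_Gamma0 N, ← h78_finrank N]
    have := h78_finiteDimensional N
    exact Module.finrank_pos
  exact Nat.eq_of_mul_eq_mul_right hpos h

end Fermat.Agent.S37
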