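/-
helper85: S37 row NF (row 360) - the generic norm formula
`ord_v (N_{F'/F} f) = Σ_{w | v} f(w|v) ord_w f` for a finite extension `F'/F` of function fields
in one variable over an algebraically closed field of characteristic zero, in the prelude shape
`Divisor.PushforwardNormFormula K F F'`.
-/
import Mathlib
import Fermat.Prelude.Def_AlgebraicCurve_DivisorPushPull
import Fermat.Agent.S24.h73_Diff
import Fermat.Agent.S24.h73_Wrap
import Fermat.Agent.S24.h24_Fibre

set_option autoImplicit false
set_option synthInstance.maxHeartbeats 400000
set_option linter.style.haveILetI false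

noncomputable section

open AlgebraicCurve IntermediateField IsDedekindDomain WithZero

namespace Fermat.Agent.S37

open Fermat.Agent.S24

section Basics

variable {K F : Type*} [Field K] [Field F] [Algebra K F]

/-- A place is determined by any place whose valuation ring it contains: valuation rings of
places are maximal proper subrings among valuation rings. -/
theorem h85_place_eq_of_le (v w : Place K F)
    (h : v.toValuationSubring ≤ w.toValuationSubring) : w = v := by
  apply Place.ext
  refine le_antisymm ?_ h
  intro x hx
  by_contra hxv
  have hx0 : x ≠ 0 := fun h0 => hxv (h0 ▸ zero_mem _)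
  have hneg : v.ord x < 0 := by
    by_contra hge
    exact hxv (h73_mem_of_ord_nonneg v (not_lt.mp hge))
  apply w.ne_top'
  refine SetLike.ext fun y => ⟨fun _ => ValuationSubring.mem_top y, fun _ => ?_⟩
  rcases eq_or_ne y 0 with rfl | hy
  · exact zero_mem _
  set k : ℕ := (-(v.ord y)).toNat with hk
  have hmem : y * x⁻¹ ^ k ∈ v.toValuationSubring := by
    apply h73_mem_of_ord_nonneg
    rw [v.ord_mul hy (pow_ne_zero _ (inv_ne_zero hx0)), ← zpow_natCast, v.ord_zpow, v.ord_inv]
    have h1 : -(v.ord y) ≤ (k : ℤ) := Int.self_le_toNat _
    nlinarith
  have hy' : y = (y * x⁻¹ ^ k) * x ^ k := by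
    rw [mul_assoc, ← mul_pow, inv_mul_cancel₀ hx0, one_pow, mul_one]
  rw [hy']
  exact mul_mem (h hmem) (pow_mem hx k)

/-- The order of an element of the valuation ring generating the `n`-th power of the maximal
ideal is `n`. -/
theorem h85_ord_of_span_eq (v : Place K F) (x : v.toValuationSubring) (n : ℕ)
    (hx : Ideal.span {x} = IsLocalRing.maximalIdeal v.toValuationSubring ^ n) :
    v.ord (x : F) = n := by
  obtain ⟨π, hπ⟩ := IsDiscreteValuationRing.exists_irreducible v.toValuationSubring
  rw [hπ.maximalIdeal_eq, Ideal.span_singleton_pow, Ideal.span_singleton_eq_span_singleton] at hx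
  obtain ⟨u, hu⟩ := hx.symm
  have hcoe : (x : F) = ((u : v.toValuationSubring) : F) * (π : F) ^ (n : ℤ) := by
    rw [zpow_natCast, ← hu]
    push_cast
    ring
  rw [hcoe, v.ord_unit_smul_zpow u hπ (n : ℤ)]

end Basics

section IsFF

variable {K F F' : Type*} [Field K] [Field F] [Field F'] [Algebra K F] [Algebra K F']
  [Algebra F F'] [IsScalarTower K F F'] [FiniteDimensional F F']

/-- A finite extension of a function field in one variable is a function field in one
variable. -/
theorem h85_isFF_of_finite (hF : h73_IsFF K F) : h73_IsFF K F' := by
  obtain ⟨t, ht⟩ := hF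
  refine ⟨algebraMap F F' t, ?_⟩
  let f : F →ₐ[K] F' := IsScalarTower.toAlgHom K F F'
  have hmap : (K⟮t⟯).map f = K⟮algebraMap F F' t⟯ := by
    rw [IntermediateField.adjoin_map, Set.image_singleton]
    rfl
  let φ : K⟮t⟯ →+* K⟮algebraMap F F' t⟯ :=
    { toFun := fun a => ⟨f a, by rw [← hmap]; exact ⟨a, a.2, rfl⟩⟩
      map_one' := Subtype.ext (map_one f)
      map_mul' := fun a b => Subtype.ext (map_mul f (a : F) (b : F))
      map_zero' := Subtype.ext (map_zero f)
      map_add' := fun a b => Subtype.ext (map_add f (a : F) (b : F)) }
  let _ : Algebra K⟮t⟯ K⟮algebraMap F F' t⟯ := φ.toAlgebra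
  have : IsScalarTower K⟮t⟯ K⟮algebraMap F F' t⟯ F' :=
    IsScalarTower.of_algebraMap_eq (fun a => rfl)
  have : Module.Finite K⟮t⟯ F' := Module.Finite.trans F F'
  exact Module.Finite.of_restrictScalars_finite K⟮t⟯ K⟮algebraMap F F' t⟯ F'

end IsFF

section Abstract

variable {K : Type*} [Field K]

/-- Every nonzero prime of a finite torsion-free Dedekind extension `B` of a discrete valuation
ring `A` lies over the maximal ideal of `A`. -/
theorem h85_liesOver {A B : Type*} [CommRing A] [IsDomain A] [IsDiscreteValuationRing A]
    [CommRing B] [IsDedekindDomain B] [Algebra A B] [Module.IsTorsionFree A B]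
    [Module.Finite A B] (P : HeightOneSpectrum B) :
    P.asIdeal.LiesOver (IsLocalRing.maximalIdeal A) := by
  have hint : Algebra.IsIntegral A B := Algebra.IsIntegral.of_finite A B
  obtain ⟨x, hxP, hx0⟩ := Submodule.exists_mem_ne_zero_of_ne_bot P.ne_bot
  have hne : P.asIdeal.comap (algebraMap A B) ≠ ⊥ :=
    Ideal.comap_ne_bot_of_integral_mem hx0 hxP (Algebra.IsIntegral.isIntegral x)
  have hprime : (P.asIdeal.comap (algebraMap A B)).IsPrime := Ideal.comap_isPrime _ _
  have hmax : (P.asIdeal.comap (algebraMap A B)).IsMaximal := hprime.isMaximal hne
  exact ⟨(IsLocalRing.eq_maximalIdeal hmax).symm⟩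

/-- A finite torsion-free Dedekind extension of a discrete valuation ring is semilocal. -/
theorem h85_finite_spectrum {A B : Type*} [CommRing A] [IsDomain A] [IsDiscreteValuationRing A]
    [CommRing B] [IsDedekindDomain B] [Algebra A B] [Module.IsTorsionFree A B]
    [Module.Finite A B] : Finite (HeightOneSpectrum B) := by
  obtain ⟨π, hπ⟩ := IsDiscreteValuationRing.exists_irreducible A
  have hinj : Function.Injective (algebraMap A B) :=
    Module.isTorsionFree_iff_algebraMap_injective.mp inferInstance
  have hπ0 : algebraMap A B π ≠ 0 := (map_ne_zero_iff _ hinj).mpr hπ.ne_zero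
  have hI : (Ideal.span {algebraMap A B π} : Ideal B) ≠ 0 := by
    rw [Ne, Ideal.zero_eq_bot, Ideal.span_singleton_eq_bot]
    exact hπ0
  have hfin := Ideal.finite_factors hI
  have huniv : (Set.univ : Set (HeightOneSpectrum B)) ⊆
      {v | v.asIdeal ∣ Ideal.span {algebraMap A B π}} := by
    intro P _
    have hlo := h85_liesOver (A := A) P
    show P.asIdeal ∣ Ideal.span {algebraMap A B π}
    rw [Ideal.dvd_span_singleton]
    have hmem : π ∈ IsLocalRing.maximalIdeal A :=
      (IsLocalRing.mem_maximalIdeal π).mpr hπ.not_isUnit
    rw [hlo.over] at hmem
    exact Ideal.mem_comap.mp hmem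
  exact Set.finite_univ_iff.mp (hfin.subset huniv)

/-- The integral norm of `b` generates the power of the maximal ideal whose exponent is the total
number of prime factors of `(b)` (all inertia degrees are one over an algebraically closed
residue field). -/
theorem h85_span_intNorm [IsAlgClosed K]
    {A B : Type*} [CommRing A] [IsDomain A] [IsDiscreteValuationRing A] [CommRing B]
    [IsDedekindDomain B] [Algebra A B] [Module.IsTorsionFree A B] [Module.Finite A B]
    [Algebra K A] [Algebra K B] [IsScalarTower K A B] [PerfectField (FractionRing A)]
    (hres : Function.Surjective (algebraMap K (A ⧸ IsLocalRing.maximalIdeal A)))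
    [Fintype (HeightOneSpectrum B)] (b : B) (hb : b ≠ 0) :
    Ideal.span {Algebra.intNorm A B b} = IsLocalRing.maximalIdeal A ^
      (∑ P : HeightOneSpectrum B,
        (Associates.mk P.asIdeal).count (Associates.mk (Ideal.span {b} : Ideal B)).factors) := by
  classical
  have hI : (Ideal.span {b} : Ideal B) ≠ 0 := by
    rw [Ne, Ideal.zero_eq_bot, Ideal.span_singleton_eq_bot]
    exact hb
  rw [← Ideal.relNorm_singleton]
  conv_lhs => rw [← Ideal.finprod_heightOneSpectrum_factorization hI,
    finprod_eq_prod_of_fintype, map_prod]
  rw [← Finset.prod_pow_eq_pow_sum]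
  refine Finset.prod_congr rfl fun P _ => ?_
  have hlo := h85_liesOver (A := A) P
  have hPmax : P.asIdeal.IsMaximal := P.isMaximal
  rw [HeightOneSpectrum.maxPowDividing, map_pow,
    Ideal.relNorm_eq_pow_of_isMaximal P.asIdeal (IsLocalRing.maximalIdeal A),
    h24_inertiaDeg_eq_one (K := K) (IsLocalRing.maximalIdeal A) P.asIdeal hres, pow_one]

end Abstract

section Main

variable {K F F' : Type*} [Field K] [Field F] [Field F'] [Algebra K F] [Algebra K F']
  [IsAlgClosed K] [CharZero K] [Algebra F F'] [IsScalarTower K F F'] [FiniteDimensional F F']

/-- **Row NF** of the S37 plan: the norm formula `ord_v (N f) = Σ_{w | v} f(w|v) ord_w f`. -/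
theorem h85_NF (hF : h73_IsFF K F) : Divisor.PushforwardNormFormula K F F' := by
  classical
  intro f hf D hD v
  have hF' : h73_IsFF K F' := h85_isFF_of_finite hF
  haveI : CharZero F := charZero_of_injective_algebraMap (algebraMap K F).injective
  letI algAF' : Algebra v.toValuationSubring F' :=
    ((algebraMap F F').comp (algebraMap v.toValuationSubring F)).toAlgebra
  haveI : IsScalarTower v.toValuationSubring F F' :=
    IsScalarTower.of_algebraMap_eq (fun _ => rfl)
  haveI : Module.IsTorsionFree v.toValuationSubring F' :=
    Module.isTorsionFree_iff_algebraMap_injective.mpr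
      ((algebraMap F F').injective.comp (IsFractionRing.injective v.toValuationSubring F))
  haveI : IsDedekindDomain (integralClosure v.toValuationSubring F') :=
    integralClosure.isDedekindDomain v.toValuationSubring F F'
  haveI : Module.Finite v.toValuationSubring (integralClosure v.toValuationSubring F') :=
    IsIntegralClosure.finite v.toValuationSubring F F' (integralClosure v.toValuationSubring F')
  haveI : IsFractionRing (integralClosure v.toValuationSubring F') F' :=
    integralClosure.isFractionRing_of_finite_extension F F'
  letI algKB : Algebra K (integralClosure v.toValuationSubring F') :=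
    ((algebraMap v.toValuationSubring (integralClosure v.toValuationSubring F')).comp
      (algebraMap K v.toValuationSubring)).toAlgebra
  haveI : IsScalarTower K v.toValuationSubring (integralClosure v.toValuationSubring F') :=
    IsScalarTower.of_algebraMap_eq (fun _ => rfl)
  haveI : IsScalarTower K (integralClosure v.toValuationSubring F') F' :=
    IsScalarTower.of_algebraMap_eq (fun a => IsScalarTower.algebraMap_apply K F F' a)
  haveI : Finite (HeightOneSpectrum (integralClosure v.toValuationSubring F')) :=
    h85_finite_spectrum (A := v.toValuationSubring)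
  letI : Fintype (HeightOneSpectrum (integralClosure v.toValuationSubring F')) :=
    Fintype.ofFinite _
  -- (A) the places over `v` are exactly the places of the primes of the integral closure
  have hA1 : ∀ P : HeightOneSpectrum (integralClosure v.toValuationSubring F'),
      (Place.ofHeightOneSpectrum (K := K) (F := F') P).restrict F = v := by
    intro P
    apply h85_place_eq_of_le
    intro a ha
    rw [Place.mem_restrict_iff, Place.ofHeightOneSpectrum_toValuationSubring,
      Valuation.mem_valuationSubring_iff]
    have h1 : algebraMap F F' a = algebraMap (integralClosure v.toValuationSubring F') F'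
        (algebraMap v.toValuationSubring (integralClosure v.toValuationSubring F') ⟨a, ha⟩) := by
      rw [← IsScalarTower.algebraMap_apply v.toValuationSubring
        (integralClosure v.toValuationSubring F') F']
      rfl
    rw [h1]
    exact P.valuation_le_one _
  have hA2 : ∀ w : Place K F', w.restrict F = v →
      ∃ P : HeightOneSpectrum (integralClosure v.toValuationSubring F'),
        w = Place.ofHeightOneSpectrum (K := K) (F := F') P := by
    intro w hw
    apply h24_exists_heightOneSpectrum
    intro r
    have hAw : ∀ a : v.toValuationSubring,
        algebraMap v.toValuationSubring F' a ∈ w.toValuationSubring.toSubring := by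
      intro a
      have h1 : (a : F) ∈ (w.restrict F).toValuationSubring := by
        rw [hw]
        exact a.2
      exact (Place.mem_restrict_iff (w := w)).mp h1
    let φ : v.toValuationSubring →+* w.toValuationSubring :=
      (algebraMap v.toValuationSubring F').codRestrict w.toValuationSubring.toSubring hAw
    letI : Algebra v.toValuationSubring w.toValuationSubring := φ.toAlgebra
    haveI : IsScalarTower v.toValuationSubring w.toValuationSubring F' :=
      IsScalarTower.of_algebraMap_eq (fun _ => rfl)
    have hint : IsIntegral w.toValuationSubring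
        (algebraMap (integralClosure v.toValuationSubring F') F' r) :=
      (r.2 : IsIntegral v.toValuationSubring (r : F')).tower_top
    obtain ⟨y, hy⟩ := IsIntegrallyClosed.isIntegral_iff.mp hint
    exact hy ▸ y.2
  -- (B) all inertia degrees are one
  have hB : ∀ w : Place K F', w.inertiaDeg F = 1 := by
    intro w
    have h1 := w.deg_restrict_mul_inertiaDeg (F := F)
    rw [h73_deg_eq_one hF (w.restrict F), h73_deg_eq_one hF' w, one_mul] at h1
    exact h1
  -- (C) the push-forward at `v` is the sum of the orders over the primes
  have hC : ∀ (g : F') (E : Divisor K F'), (∀ w, E w = w.ord g) →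
      Divisor.pushforward F E v =
        ∑ P : HeightOneSpectrum (integralClosure v.toValuationSubring F'),
          (Place.ofHeightOneSpectrum (K := K) (F := F') P).ord g := by
    intro g E hE
    have hinj : Function.Injective
        (fun P : HeightOneSpectrum (integralClosure v.toValuationSubring F') =>
          Place.ofHeightOneSpectrum (K := K) (F := F') P) :=
      h24_ofHeightOneSpectrum_injective
    rw [Divisor.pushforward_apply, ← Finset.sum_filter,
      ← Finset.sum_image (s := Finset.univ)
        (g := fun P : HeightOneSpectrum (integralClosure v.toValuationSubring F') =>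
          Place.ofHeightOneSpectrum (K := K) (F := F') P)
        (f := fun w : Place K F' => w.ord g) (fun _ _ _ _ h => hinj h)]
    have hsummand : ∀ w ∈ E.support.filter (fun w => w.restrict F = v),
        E w * (w.inertiaDeg F : ℤ) = w.ord g := by
      intro w _
      rw [hE w, hB w, Nat.cast_one, mul_one]
    rw [Finset.sum_congr rfl hsummand]
    refine Finset.sum_subset ?_ ?_
    · intro w hw
      rw [Finset.mem_filter] at hw
      obtain ⟨P, rfl⟩ := hA2 w hw.2
      exact Finset.mem_image_of_mem _ (Finset.mem_univ P)
    · intro w hw hw'
      rw [Finset.mem_image] at hw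
      obtain ⟨P, -, rfl⟩ := hw
      rw [Finset.mem_filter, not_and_or] at hw'
      rcases hw' with hw' | hw'
      · rw [Finsupp.mem_support_iff, not_not] at hw'
        rw [← hE, hw']
      · exact absurd (hA1 P) hw'
  -- (D) the formula for integral elements
  have hD' : ∀ b : integralClosure v.toValuationSubring F', b ≠ 0 →
      ∑ P : HeightOneSpectrum (integralClosure v.toValuationSubring F'),
        (Place.ofHeightOneSpectrum (K := K) (F := F') P).ord
          (algebraMap (integralClosure v.toValuationSubring F') F' b) =
      v.ord (Algebra.norm F (algebraMap (integralClosure v.toValuationSubring F') F' b)) := by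
    intro b hb
    have hres : Function.Surjective (algebraMap K
        (v.toValuationSubring ⧸ IsLocalRing.maximalIdeal v.toValuationSubring)) := h73_hres hF v
    have hspan := h85_span_intNorm (K := K) (A := v.toValuationSubring) hres b hb
    have hord := h85_ord_of_span_eq v
      (Algebra.intNorm v.toValuationSubring (integralClosure v.toValuationSubring F') b) _ hspan
    have hnorm : ((Algebra.intNorm v.toValuationSubring
        (integralClosure v.toValuationSubring F') b : v.toValuationSubring) : F) =
        Algebra.norm F (algebraMap (integralClosure v.toValuationSubring F') F' b) :=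
      Algebra.algebraMap_intNorm (A := v.toValuationSubring) (K := F) (L := F')
        (B := integralClosure v.toValuationSubring F') b
    rw [← hnorm, hord]
    push_cast
    refine Finset.sum_congr rfl fun P _ => ?_
    rw [h24_ofHeightOneSpectrum_ord, HeightOneSpectrum.valuation_of_algebraMap,
      P.intValuation_if_neg hb, log_exp, neg_neg]
  -- (E) the general case: `f` is a quotient of integral elements
  rw [hC f D hD]
  obtain ⟨b₁, b₂, hb₂, rfl⟩ :=
    IsFractionRing.div_surjective (A := integralClosure v.toValuationSubring F') f
  have hb₂0 : b₂ ≠ 0 := nonZeroDivisors.ne_zero hb₂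
  have hinjB : Function.Injective (algebraMap (integralClosure v.toValuationSubring F') F') :=
    IsFractionRing.injective _ _
  have h2 : algebraMap (integralClosure v.toValuationSubring F') F' b₂ ≠ 0 :=
    (map_ne_zero_iff _ hinjB).mpr hb₂0
  have h1 : algebraMap (integralClosure v.toValuationSubring F') F' b₁ ≠ 0 := by
    intro h0
    rw [h0, zero_div] at hf
    exact hf rfl
  have hb₁0 : b₁ ≠ 0 := by
    rintro rfl
    exact h1 (map_zero _)
  have hquot : ∀ w : Place K F',
      w.ord (algebraMap (integralClosure v.toValuationSubring F') F' b₁ /
        algebraMap (integralClosure v.toValuationSubring F') F' b₂) =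
      w.ord (algebraMap (integralClosure v.toValuationSubring F') F' b₁) -
        w.ord (algebraMap (integralClosure v.toValuationSubring F') F' b₂) := by
    intro w
    rw [div_eq_mul_inv, w.ord_mul h1 (inv_ne_zero h2), w.ord_inv]
    ring
  have hN : Algebra.norm F (algebraMap (integralClosure v.toValuationSubring F') F' b₁) =
      Algebra.norm F (algebraMap (integralClosure v.toValuationSubring F') F' b₁ /
        algebraMap (integralClosure v.toValuationSubring F') F' b₂) *
      Algebra.norm F (algebraMap (integralClosure v.toValuationSubring F') F' b₂) := by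
    rw [← map_mul, div_mul_cancel₀ _ h2]
  have hNq : Algebra.norm F (algebraMap (integralClosure v.toValuationSubring F') F' b₁ /
        algebraMap (integralClosure v.toValuationSubring F') F' b₂) ≠ 0 :=
    Algebra.norm_ne_zero_iff.mpr (div_ne_zero h1 h2)
  have hN2 : Algebra.norm F (algebraMap (integralClosure v.toValuationSubring F') F' b₂) ≠ 0 :=
    Algebra.norm_ne_zero_iff.mpr h2
  have hordN := v.ord_mul hNq hN2
  rw [← hN] at hordN
  simp_rw [hquot]
  rw [Finset.sum_sub_distrib, hD' b₁ hb₁0, hD' b₂ hb₂0, hordN]
  ring

end Main

end Fermat.Agent.S37

end
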