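/-
S37 row HI (helper88): the Hecke inputs hold at every level, so that `heckeOperatorBar` is
the honest correspondence `α_* β^*`.

`h88_HI` (verbatim row statement) = `h88_HI_of` (`h88_HICore.lean`) applied to the generic rows
FI (`h82_FI`) and NF (`h85_NF`).
-/
import Fermat.Agent.S37.h88_HICore
import Fermat.Agent.S37.h82_FI
import Fermat.Agent.S37.h85_NormFormula

set_option autoImplicit false
set_option synthInstance.maxHeartbeats 400000

noncomputable section

open ModularCurve AlgebraicCurve IntermediateField

namespace Fermat.Agent.S37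

open Fermat.Agent.S24

local notation "Qb" => AlgebraicClosure ℚ

/-- **Row HI**: the Hecke inputs hold at every level. -/
theorem h88_HI (N : ℕ) [NeZero N] (ℓ : ℕ) [NeZero ℓ] :
    HeckeInputsAlong Qb N ℓ :=
  h88_HI_of N ℓ (fun _ _ _ _ _ _ _ _ _ hF _ => h82_FI hF) (fun _ _ _ _ _ _ _ _ _ hF => h85_NF hF)

end Fermat.Agent.S37

end
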