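/-
S37 / formal packaging (helper87): `SpecializationExists` from a reduction homomorphism
`red : J →+ Jbar` with a Frobenius automorphism `φ` of `Jbar` such that
* `red (ι • x) = red x` for inertia,
* `red (σ • x) = φ (red x)` for Frobenius elements,
* `red (T_ℓ x) = φ (red x) + ℓ • φ⁻¹ (red x)` (Eichler–Shimura congruence),
* `red` is injective on `p`-power torsion.
The specialization is the universal one: `J' = (J ⊕ J·X) / Rel`, `X² = T_ℓ X - ℓ`,
`F = multiplication by X`.  No existence of Frobenius elements and no normality of inertia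
is needed.
-/
import Fermat.Prelude.Def_HeckeGalois_EichlerShimura

set_option autoImplicit false

noncomputable section

namespace Fermat.Agent.S37

open ModularCurve

section Package

variable {K L : Type*} [Field K] [Field L] [Algebra K L]
variable (J : Type) [AddCommGroup J] [Module HeckeAlg J]
  [DistribMulAction (L ≃ₐ[K] L) J] [SMulCommClass (L ≃ₐ[K] L) HeckeAlg J]

/-- Multiplication by `X` on `J ⊕ J·X`, where `X² = t X - ℓ`. -/
def h87_mulX (t : HeckeAlg) (ℓ : ℕ) : (J × J) →ₗ[HeckeAlg] (J × J) where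
  toFun z := (-((ℓ : HeckeAlg) • z.2), z.1 + t • z.2)
  map_add' z w := by
    ext
    · simp only [Prod.snd_add, smul_add, neg_add_rev, Prod.mk_add_mk]
      abel
    · simp only [Prod.fst_add, Prod.snd_add, smul_add, Prod.mk_add_mk]
      abel
  map_smul' c z := by
    ext
    · simp only [Prod.smul_snd, RingHom.id_apply, Prod.smul_mk, smul_neg]
      rw [smul_comm]
    · simp only [Prod.smul_fst, Prod.smul_snd, RingHom.id_apply, Prod.smul_mk, smul_add]
      rw [smul_comm]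

theorem h87_mulX_apply (t : HeckeAlg) (ℓ : ℕ) (z : J × J) :
    h87_mulX J t ℓ z = (-((ℓ : HeckeAlg) • z.2), z.1 + t • z.2) := rfl

theorem h87_mulX_quadratic (t : HeckeAlg) (ℓ : ℕ) (z : J × J) :
    h87_mulX J t ℓ (h87_mulX J t ℓ z) - t • h87_mulX J t ℓ z + (ℓ : HeckeAlg) • z = 0 := by
  ext
  · simp only [h87_mulX_apply, Prod.fst_sub, Prod.fst_add, Prod.smul_fst, Prod.fst_zero,
      smul_add, smul_neg]
    rw [smul_comm t (ℓ : HeckeAlg) z.2]
    abel
  · simp only [h87_mulX_apply, Prod.snd_sub, Prod.snd_add, Prod.smul_snd, Prod.snd_zero,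
      smul_add]
    abel

/-- The generating relations: `(ι x - x, 0)` for inertia, `(σ x, -x)` for Frobenius. -/
def h87_gens (A : ValuationSubring L) (ℓ : ℕ) : Set (J × J) :=
  {z | (∃ σ ∈ A.inertiaSubgroupIn K, ∃ x : J, z = (σ • x - x, 0)) ∨
       (∃ σ : L ≃ₐ[K] L, A.IsFrobeniusAt σ ℓ ∧ ∃ x : J, z = (σ • x, -x))}

theorem h87_gens_smul (A : ValuationSubring L) (ℓ : ℕ) (c : HeckeAlg) {z : J × J}
    (hz : z ∈ h87_gens (K := K) J A ℓ) : c • z ∈ h87_gens (K := K) J A ℓ := by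
  rcases hz with ⟨σ, hσ, x, rfl⟩ | ⟨σ, hσ, x, rfl⟩
  · refine Or.inl ⟨σ, hσ, c • x, ?_⟩
    rw [Prod.smul_mk, smul_sub, smul_zero, smul_comm σ c x]
  · refine Or.inr ⟨σ, hσ, c • x, ?_⟩
    rw [Prod.smul_mk, smul_neg, smul_comm σ c x]

/-- The relation submodule: generated by the relations and their `X`-multiples. -/
def h87_rel (A : ValuationSubring L) (t : HeckeAlg) (ℓ : ℕ) : Submodule HeckeAlg (J × J) :=
  Submodule.span HeckeAlg (h87_gens (K := K) J A ℓ ∪ h87_mulX J t ℓ '' h87_gens (K := K) J A ℓ)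

omit [SMulCommClass (L ≃ₐ[K] L) HeckeAlg J] in
theorem h87_mulX_mem_rel (A : ValuationSubring L) (t : HeckeAlg) (ℓ : ℕ) {z : J × J}
    (hz : z ∈ h87_rel (K := K) J A t ℓ) : h87_mulX J t ℓ z ∈ h87_rel (K := K) J A t ℓ := by
  induction hz using Submodule.span_induction with
  | mem z hz =>
    rcases hz with hz | ⟨w, hw, rfl⟩
    · exact Submodule.subset_span (Or.inr ⟨z, hz, rfl⟩)
    · have h := h87_mulX_quadratic J t ℓ w
      have h' : h87_mulX J t ℓ (h87_mulX J t ℓ w)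
          = t • h87_mulX J t ℓ w - (ℓ : HeckeAlg) • w := by
        rw [← sub_eq_zero]
        rw [← h]
        abel
      rw [h']
      exact Submodule.sub_mem _
        (Submodule.smul_mem _ _ (Submodule.subset_span (Or.inr ⟨w, hw, rfl⟩)))
        (Submodule.smul_mem _ _ (Submodule.subset_span (Or.inl hw)))
  | zero => rw [map_zero]; exact Submodule.zero_mem _
  | add z w _ _ hz hw => rw [map_add]; exact Submodule.add_mem _ hz hw
  | smul c z _ hz => rw [map_smul]; exact Submodule.smul_mem _ _ hz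

/-- An additive map killing the generators and their `X`-multiples kills the relation
submodule (the generating set is stable under Hecke scalars). -/
theorem h87_rel_le_ker (A : ValuationSubring L) (t : HeckeAlg) (ℓ : ℕ) {Jbar : Type*}
    [AddCommGroup Jbar] (ρ : (J × J) →+ Jbar)
    (h1 : ∀ z ∈ h87_gens (K := K) J A ℓ, ρ z = 0)
    (h2 : ∀ z ∈ h87_gens (K := K) J A ℓ, ρ (h87_mulX J t ℓ z) = 0)
    {z : J × J} (hz : z ∈ h87_rel (K := K) J A t ℓ) : ρ z = 0 := by
  have key : ∀ z ∈ h87_rel (K := K) J A t ℓ, ∀ c : HeckeAlg, ρ (c • z) = 0 := by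
    intro z hz
    induction hz using Submodule.span_induction with
    | mem z hz =>
      intro c
      rcases hz with hz | ⟨w, hw, rfl⟩
      · exact h1 _ (h87_gens_smul J A ℓ c hz)
      · rw [← map_smul]
        exact h2 _ (h87_gens_smul J A ℓ c hw)
    | zero => intro c; rw [smul_zero, map_zero]
    | add z w _ _ hz hw => intro c; rw [smul_add, map_add, hz c, hw c, add_zero]
    | smul d z _ hz => intro c; rw [smul_smul]; exact hz (c * d)
  have := key z hz 1
  rwa [one_smul] at this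

/-- **S37, formal packaging.** -/
theorem h87_exists_specialization (p : ℕ) (A : ValuationSubring L) (ℓ : ℕ) (hℓ : ℓ.Prime)
    {Jbar : Type*} [AddCommGroup Jbar] (red : J →+ Jbar) (φ : Jbar ≃+ Jbar)
    (hI : ∀ σ ∈ A.inertiaSubgroupIn K, ∀ x : J, red (σ • x) = red x)
    (hF : ∀ σ : L ≃ₐ[K] L, A.IsFrobeniusAt σ ℓ → ∀ x : J, red (σ • x) = φ (red x))
    (hT : ∀ x : J, red (heckeGen ⟨ℓ, hℓ⟩ • x) = φ (red x) + ℓ • φ.symm (red x))
    (hinj : ∀ x : J, (∃ n : ℕ, p ^ n • x = 0) → red x = 0 → x = 0) :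
    ∃ (J' : Type) (_ : AddCommGroup J') (_ : Module HeckeAlg J') (sp : J →+ J')
      (F : J' →+ J'),
      IsSpecialization (K := K) p J J' A ℓ sp F ∧ SpecialFibreRelation J' ℓ hℓ F := by
  classical
  set t : HeckeAlg := heckeGen ⟨ℓ, hℓ⟩ with ht
  set R : Submodule HeckeAlg (J × J) := h87_rel (K := K) J A t ℓ with hR
  let sp : J →+ (J × J) ⧸ R :=
    (R.mkQ.toAddMonoidHom).comp (AddMonoidHom.inl J J)
  let F : (J × J) ⧸ R →ₗ[HeckeAlg] (J × J) ⧸ R :=
    R.mapQ R (h87_mulX J t ℓ) (fun z hz => h87_mulX_mem_rel J A t ℓ hz)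
  have hsp : ∀ x : J, sp x = R.mkQ (x, 0) := fun x => rfl
  have hFmk : ∀ z : J × J, F (R.mkQ z) = R.mkQ (h87_mulX J t ℓ z) := fun z => rfl
  -- the test map
  let ρ : (J × J) →+ Jbar :=
    (red.comp (AddMonoidHom.fst J J)) + ((φ.toAddMonoidHom.comp red).comp (AddMonoidHom.snd J J))
  have hρ : ∀ z : J × J, ρ z = red z.1 + φ (red z.2) := fun z => rfl
  have hℓsmul : ∀ x : J, red ((ℓ : HeckeAlg) • x) = ℓ • red x := by
    intro x
    rw [Nat.cast_smul_eq_nsmul, map_nsmul]
  have hρ1 : ∀ z ∈ h87_gens (K := K) J A ℓ, ρ z = 0 := by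
    rintro z (⟨σ, hσ, x, rfl⟩ | ⟨σ, hσ, x, rfl⟩)
    · rw [hρ]
      simp only [map_sub, map_zero, add_zero]
      rw [hI σ hσ x, sub_self]
    · rw [hρ]
      simp only [map_neg]
      rw [hF σ hσ x, add_neg_cancel]
  have hρ2 : ∀ z ∈ h87_gens (K := K) J A ℓ, ρ (h87_mulX J t ℓ z) = 0 := by
    rintro z (⟨σ, hσ, x, rfl⟩ | ⟨σ, hσ, x, rfl⟩)
    · rw [hρ, h87_mulX_apply]
      simp only [smul_zero, neg_zero, map_zero, zero_add, add_zero, map_sub]
      rw [hI σ hσ x, sub_self]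
      try simp
    · rw [hρ, h87_mulX_apply]
      simp only [smul_neg, neg_neg, map_add, map_neg]
      rw [hℓsmul, hF σ hσ x, hT x]
      simp only [map_add, map_nsmul, AddEquiv.apply_symm_apply]
      abel
  refine ⟨(J × J) ⧸ R, inferInstance, inferInstance, sp, F.toAddMonoidHom, ⟨?_, ?_, ?_, ?_⟩, ?_⟩
  · intro T x
    rw [hsp, hsp, ← map_smul, Prod.smul_mk, smul_zero]
  · intro σ hσ x
    rw [hsp, hsp, ← sub_eq_zero, ← map_sub, Prod.mk_sub_mk, sub_zero]
    exact (Submodule.Quotient.mk_eq_zero R).mpr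
      (Submodule.subset_span (Or.inl (Or.inl ⟨σ, hσ, x, rfl⟩)))
  · intro σ hσ x
    rw [hsp, hsp]
    show R.mkQ (σ • x, 0) = F (R.mkQ (x, 0))
    rw [hFmk, h87_mulX_apply, ← sub_eq_zero, ← map_sub]
    refine (Submodule.Quotient.mk_eq_zero R).mpr
      (Submodule.subset_span (Or.inl (Or.inr ⟨σ, hσ, x, ?_⟩)))
    simp
  · intro x hx h0
    refine hinj x hx ?_
    have hmem : ((x, 0) : J × J) ∈ R := (Submodule.Quotient.mk_eq_zero R).mp h0
    have := h87_rel_le_ker J A t ℓ ρ hρ1 hρ2 hmem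
    rw [hρ] at this
    simpa using this
  · intro y
    obtain ⟨z, rfl⟩ := R.mkQ_surjective y
    show F (F (R.mkQ z)) - heckeGen ⟨ℓ, hℓ⟩ • F (R.mkQ z) + ℓ • R.mkQ z = 0
    rw [hFmk, hFmk, ← map_smul, ← map_sub, ← map_nsmul, ← map_add]
    rw [← Nat.cast_smul_eq_nsmul HeckeAlg, h87_mulX_quadratic, map_zero]

end Package

end Fermat.Agent.S37

end
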