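/-
S37 / top-level assembly (helper87): the frozen statement from the reduction interface
`h87_RedData` (a reduction homomorphism on `J₀(N)` with inertia / Frobenius / Eichler–Shimura
compatibility and injectivity on `p`-power torsion), stated in prelude terms only.
-/
import Fermat.Agent.S37.h87_Package
import Fermat.Prelude.Def_ModularCurve_HeckeModule

set_option autoImplicit false

noncomputable section

namespace Fermat.Agent.S37

open ModularCurve

/-- The reduction interface for `S37` at a prime `ℓ` and a valuation subring `A` over `ℓ`: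
an abelian group `Jbar` with an automorphism `φ` ("Frobenius") and a homomorphism
`red : J₀(N) → Jbar` such that inertia acts trivially after `red`, Frobenius elements act
through `φ`, `red ∘ T_ℓ = (φ + ℓ φ⁻¹) ∘ red`, and `red` is injective on `p`-power torsion. -/
def h87_RedData (N p : ℕ) [NeZero N] (ℓ : ℕ) (hℓ : ℓ.Prime)
    (A : ValuationSubring (AlgebraicClosure ℚ)) : Prop :=
  ∃ (Jbar : Type) (_ : AddCommGroup Jbar) (red : JZero N →+ Jbar) (φ : Jbar ≃+ Jbar),
    (∀ σ ∈ A.inertiaSubgroupIn ℚ, ∀ x : JZero N, red (σ • x) = red x) ∧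
    (∀ σ : AlgebraicClosure ℚ ≃ₐ[ℚ] AlgebraicClosure ℚ, A.IsFrobeniusAt σ ℓ →
      ∀ x : JZero N, red (σ • x) = φ (red x)) ∧
    (∀ x : JZero N, red (heckeOperatorBar N ⟨ℓ, hℓ⟩ x) = φ (red x) + ℓ • φ.symm (red x)) ∧
    (∀ x : JZero N, (∃ n : ℕ, p ^ n • x = 0) → red x = 0 → x = 0)

/-- **S37 from the reduction interface.** -/
theorem h87_S37_of_redData (N p : ℕ) [NeZero N] (hcomm : HeckeOperatorsCommuteBar N)
    (hred : ∀ (ℓ : ℕ) (hℓ : ℓ.Prime), ¬ ℓ ∣ N * p →
      ∀ A : ValuationSubring (AlgebraicClosure ℚ), A.LiesOverPrime ℓ → h87_RedData N p ℓ hℓ A) :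
    letI := heckeModuleBar N
    ∀ (_ : SMulCommClass (AlgebraicClosure ℚ ≃ₐ[ℚ] AlgebraicClosure ℚ) HeckeAlg (JZero N)),
      SpecializationExists (K := ℚ) (L := AlgebraicClosure ℚ) N p (JZero N) := by
  letI := heckeModuleBar N
  intro _ ℓ hℓ hℓNp A hA
  obtain ⟨Jbar, _, red, φ, hI, hF, hT, hinj⟩ := hred ℓ hℓ hℓNp A hA
  refine h87_exists_specialization (K := ℚ) (JZero N) p A ℓ hℓ red φ hI hF ?_ hinj
  intro x
  have h := heckeModuleBar_heckeGen_smul hcomm ⟨ℓ, hℓ⟩ x
  rw [h]
  exact hT x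

end Fermat.Agent.S37

end
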