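/-
S37, row 364 [PGI] (helper62): principal divisors of `X₀(N)` over `Q̄` are generated by the
divisors of integral functions with nonzero reduction.

Proof: by the characteristic-zero power basis (`h69_exists_repr`) every `f` satisfies
`q(j) f = ∑_{i<n} p_i(j) j_N^i`.  Both sides, after scaling by a constant making the coefficient
family primitive w.r.t. the valuation ring `A`, are integral with nonzero reduction
(`h84_igusa_field`: `1, j_N, …, j_N^(n-1)` stay independent over `k(j)` in characteristic `ℓ ∤ N`).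
-/
import Mathlib
import Fermat.Prelude.Def_ModularCurve_ReductionModL
import Fermat.Agent.S18.h69_PowerBasis
import Fermat.Agent.S18.h84_IgusaField
import Fermat.Agent.S18.h19_ResField
import Fermat.Agent.S24.h35_Places

set_option autoImplicit false
set_option synthInstance.maxHeartbeats 400000

noncomputable section

open ModularCurve AlgebraicCurve IntermediateField CongruenceSubgroup
open scoped MatrixGroups

namespace Fermat.Agent.S37

open Fermat.Agent.S24 Fermat.Agent.S18

local notation "Qb" => AlgebraicClosure ℚ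

/-- The structure map of Laurent series over a commutative ring. -/
theorem h62_algebraMap_laurent {R : Type*} [CommRing R] (c : R) :
    algebraMap R (LaurentSeries R) c = HahnSeries.single 0 c := by
  have h1 : algebraMap R (PowerSeries R) c = PowerSeries.C c := by simp
  rw [HahnSeries.algebraMap_apply', h1, HahnSeries.ofPowerSeries_C]
  rfl

/-- `coeffMap` commutes with the structure maps. -/
theorem h62_coeffMap_comp_algebraMap {R S : Type*} [CommRing R] [CommRing S] (φ : R →+* S) :
    (coeffMap φ).comp (algebraMap R (LaurentSeries R))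
      = (algebraMap S (LaurentSeries S)).comp φ := by
  ext1 r
  rw [RingHom.comp_apply, RingHom.comp_apply, h62_algebraMap_laurent, h62_algebraMap_laurent]
  exact coeffMap_single φ 0 r

/-- `coeffMap` commutes with polynomial evaluation. -/
theorem h62_coeffMap_aeval {R S : Type*} [CommRing R] [CommRing S] (φ : R →+* S)
    (x : LaurentSeries R) (P : Polynomial R) :
    coeffMap φ (Polynomial.aeval x P) = Polynomial.aeval (coeffMap φ x) (P.map φ) := by
  rw [Polynomial.aeval_def, Polynomial.aeval_def, Polynomial.hom_eval₂, Polynomial.eval₂_map,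
    h62_coeffMap_comp_algebraMap]

/-- Scaling lemma: a nonzero family `p : Fin (Nat.card (SL(2, ℤ) ⧸ Gamma0 N)) → Q̄[X]` can be scaled by a nonzero constant so
that `∑ p_i(j) j_N^i` becomes `A`-integral with nonzero reduction in the function field of
characteristic `ℓ`. -/
theorem h62_pgi_scale (N : ℕ) [NeZero N] {ℓ : ℕ} [Fact ℓ.Prime] (hℓN : ¬ ℓ ∣ N)
    (A : ValuationSubring Qb) (hA : A.LiesOverPrime ℓ)
    (p : Fin (Nat.card (SL(2, ℤ) ⧸ Gamma0 N)) → Polynomial Qb) (hp : p ≠ 0) :
    ∃ (c : Qb) (y : LaurentSeries A), c ≠ 0 ∧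
      coeffMap A.subtype y = algebraMap Qb (LaurentSeries Qb) c *
        ∑ i, Polynomial.aeval (jqModC Qb) (p i) * qExpand Qb N (jqModC Qb) ^ (i : ℕ) ∧
      coeffMap (IsLocalRing.residue A) y
        ∈ modularFunctionFieldFullC (IsLocalRing.ResidueField A) N ∧
      coeffMap (IsLocalRing.residue A) y ≠ 0 := by
  classical
  have : CharP (IsLocalRing.ResidueField ↥A) ℓ := h19_residueField_charP A ℓ hA
  -- the index set of nonzero coefficients
  let S : Finset (Σ _ : Fin (Nat.card (SL(2, ℤ) ⧸ Gamma0 N)), ℕ) := (Finset.univ : Finset (Fin (Nat.card (SL(2, ℤ) ⧸ Gamma0 N)))).sigma fun i => (p i).support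
  have hS : S.Nonempty := by
    have : ∃ i, p i ≠ 0 := by
      by_contra hcon
      exact hp (funext fun i => not_not.mp (not_exists.mp hcon i))
    obtain ⟨i, hi⟩ := this
    obtain ⟨m, hm⟩ := Polynomial.nonempty_support_iff.mpr hi
    exact ⟨⟨i, m⟩, Finset.mem_sigma.mpr ⟨Finset.mem_univ _, hm⟩⟩
  obtain ⟨⟨i₀, m₀⟩, hmem, hmax⟩ :=
    Finset.exists_max_image S (fun x => A.valuation ((p x.1).coeff x.2)) hS
  have hm₀ : m₀ ∈ (p i₀).support := (Finset.mem_sigma.mp hmem).2
  have hc₀ : (p i₀).coeff m₀ ≠ 0 := Polynomial.mem_support_iff.mp hm₀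
  set c : Qb := ((p i₀).coeff m₀)⁻¹ with hc
  have hc0 : c ≠ 0 := inv_ne_zero hc₀
  -- all scaled coefficients are integral
  have hint : ∀ (i : Fin (Nat.card (SL(2, ℤ) ⧸ Gamma0 N))) (m : ℕ), c * (p i).coeff m ∈ A := by
    intro i m
    by_cases h0 : (p i).coeff m = 0
    · rw [h0, mul_zero]; exact A.zero_mem
    · have hmem' : (⟨i, m⟩ : Σ _ : Fin (Nat.card (SL(2, ℤ) ⧸ Gamma0 N)), ℕ) ∈ S :=
        Finset.mem_sigma.mpr ⟨Finset.mem_univ _, Polynomial.mem_support_iff.mpr h0⟩
      have hle := hmax ⟨i, m⟩ hmem'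
      rw [← ValuationSubring.valuation_le_one_iff, map_mul, hc, map_inv₀]
      have hpos : 0 < A.valuation ((p i₀).coeff m₀) := by
        rw [zero_lt_iff]
        exact (Valuation.ne_zero_iff _).mpr hc₀
      rw [inv_mul_le_iff₀ hpos, mul_one]
      exact hle
  -- lift the scaled polynomials to `A[X]`
  have hlift : ∀ i : Fin (Nat.card (SL(2, ℤ) ⧸ Gamma0 N)), ∃ P : Polynomial A, P.map A.subtype = Polynomial.C c * p i := by
    intro i
    rw [← Polynomial.mem_lifts, Polynomial.lifts_iff_coeff_lifts]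
    intro m
    rw [Polynomial.coeff_C_mul]
    exact ⟨⟨_, hint i m⟩, rfl⟩
  choose P hP using hlift
  have hP₀ : (P i₀).coeff m₀ = 1 := by
    apply Subtype.ext
    have h1 := congrArg (fun Q => Q.coeff m₀) (hP i₀)
    simp only [Polynomial.coeff_map, Polynomial.coeff_C_mul] at h1
    rw [show (A.subtype ((P i₀).coeff m₀) : Qb) = (((P i₀).coeff m₀ : A) : Qb) from rfl] at h1
    rw [h1, hc, inv_mul_cancel₀ hc₀]
    rfl
  -- the integral function
  set y : LaurentSeries A :=
    ∑ i, Polynomial.aeval (jqModC A) (P i) * qExpand A N (jqModC A) ^ (i : ℕ) with hy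
  have hmap : ∀ {S' : Type} [CommRing S'] (φ : ↥A →+* S'),
      coeffMap φ y = ∑ i, Polynomial.aeval (jqModC S') ((P i).map φ)
        * qExpand S' N (jqModC S') ^ (i : ℕ) := by
    intro S' _ φ
    rw [hy, map_sum]
    refine Finset.sum_congr rfl fun i _ => ?_
    rw [map_mul, map_pow, h62_coeffMap_aeval, coeffMap_qExpand, coeffMap_jqModC]
  refine ⟨c, y, hc0, ?_, ?_, ?_⟩
  · rw [hmap A.subtype, Finset.mul_sum]
    refine Finset.sum_congr rfl fun i _ => ?_
    rw [hP i, map_mul, Polynomial.aeval_C, mul_assoc]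
  · rw [hmap (IsLocalRing.residue A)]
    refine sum_mem fun i _ => mul_mem ?_ (pow_mem (jqModCd_mem_full _ N dvd_rfl) _)
    rw [Polynomial.aeval_eq_sum_range]
    exact sum_mem fun m _ => IntermediateField.smul_mem _ (pow_mem (jqModC_mem_full _ N) m)
  · rw [hmap (IsLocalRing.residue A)]
    -- the two-variable polynomial
    set H : Polynomial (Polynomial (IsLocalRing.ResidueField ↥A)) :=
      ∑ i : Fin (Nat.card (SL(2, ℤ) ⧸ Gamma0 N)), Polynomial.monomial (i : ℕ) ((P i).map (IsLocalRing.residue A)) with hH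
    have hH0 : H ≠ 0 := by
      intro h0
      have h1 : (H.coeff (i₀ : ℕ)).coeff m₀ = 0 := by rw [h0]; simp
      rw [hH, Polynomial.finsetSum_coeff] at h1
      rw [Finset.sum_eq_single i₀] at h1
      · rw [Polynomial.coeff_monomial, if_pos rfl, Polynomial.coeff_map, hP₀, map_one] at h1
        exact one_ne_zero h1
      · intro b _ hb
        rw [Polynomial.coeff_monomial, if_neg]
        exact fun h => hb (Fin.ext h)
      · intro h; exact absurd (Finset.mem_univ _) h
    have hdeg : H.natDegree < Nat.card (SL(2, ℤ) ⧸ Gamma0 N) := by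
      have hn0 : 0 < Nat.card (SL(2, ℤ) ⧸ Gamma0 N) := Fin.pos i₀
      have h1 : H.natDegree ≤ Nat.card (SL(2, ℤ) ⧸ Gamma0 N) - 1 := by
        rw [hH]
        refine Polynomial.natDegree_sum_le_of_forall_le _ _ fun i _ => ?_
        refine (Polynomial.natDegree_monomial_le _).trans ?_
        have := i.2
        omega
      omega
    have key := h84_igusa_field N ℓ hℓN (IsLocalRing.ResidueField ↥A) H hH0 hdeg
    convert key using 1
    rw [hH, Polynomial.map_sum, Polynomial.eval_finsetSum]
    refine Finset.sum_congr rfl fun i _ => ?_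
    rw [Polynomial.map_monomial, Polynomial.eval_monomial]
    rfl

/-- **[PGI]** principal divisors are generated by integral principal divisors. -/
theorem h62_PGI (N : ℕ) [NeZero N] {ℓ : ℕ} [Fact ℓ.Prime] (hℓN : ¬ ℓ ∣ N)
    (A : ValuationSubring Qb) (hA : A.LiesOverPrime ℓ) :
    PrincipalGeneratedByIntegral A (IsLocalRing.residue A) N := by
  classical
  intro D hD
  obtain ⟨f, hf0, hfD⟩ := hD
  have := h78_finiteDimensional N
  have htr := h59_jbar_transcendental N
  obtain ⟨p, q, hq, hpq⟩ := h69_exists_repr N f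
  -- the denominator as an element of the function field
  set G2 : ↥(modularFunctionFieldBar N) := Polynomial.aeval (h59_jbar N) q with hG2
  have hG2coe : ((G2 : ↥(modularFunctionFieldBar N)) : LaurentSeries Qb)
      = Polynomial.aeval (jqModC Qb) q := by
    rw [hG2, ← IntermediateField.aeval_coe, h69_coe_jbar]
  have hG2ne : G2 ≠ 0 := by
    intro h0
    exact hq ((transcendental_iff.mp htr) q h0)
  have hG1coe : (((G2 * f : ↥(modularFunctionFieldBar N))) : LaurentSeries Qb)
      = ∑ i, Polynomial.aeval (jqModC Qb) (p i) * qExpand Qb N (jqModC Qb) ^ (i : ℕ) := by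
    rw [← hpq, ← hG2coe]
    rfl
  have hG1ne : G2 * f ≠ 0 := mul_ne_zero hG2ne hf0
  have hp0 : p ≠ 0 := by
    intro h0
    apply hG1ne
    apply Subtype.ext
    rw [hG1coe, h0]
    simp
  have hn0 : 0 < Nat.card (SL(2, ℤ) ⧸ Gamma0 N) := by
    by_contra hcon
    have hn' : Nat.card (SL(2, ℤ) ⧸ Gamma0 N) = 0 := by omega
    apply hp0
    funext i
    exact absurd i.2 (by omega)
  -- numerator
  obtain ⟨c1, y1, hc1, hy1, hm1, hne1⟩ := h62_pgi_scale N hℓN A hA p hp0
  -- denominator, as a family concentrated in degree `0`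
  let p' : Fin (Nat.card (SL(2, ℤ) ⧸ Gamma0 N)) → Polynomial Qb := fun i => if (i : ℕ) = 0 then q else 0
  have hp'0 : p' ≠ 0 := by
    intro h0
    have := congrFun h0 ⟨0, hn0⟩
    simp only [p', if_pos, Pi.zero_apply] at this
    exact hq this
  obtain ⟨c2, y2, hc2, hy2, hm2, hne2⟩ := h62_pgi_scale N hℓN A hA p' hp'0
  have hsum2 : ∑ i, Polynomial.aeval (jqModC Qb) (p' i) * qExpand Qb N (jqModC Qb) ^ (i : ℕ)
      = Polynomial.aeval (jqModC Qb) q := by
    rw [Finset.sum_eq_single (⟨0, hn0⟩ : Fin (Nat.card (SL(2, ℤ) ⧸ Gamma0 N)))]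
    · show Polynomial.aeval (jqModC Qb) (if (0 : ℕ) = 0 then q else 0)
          * qExpand Qb N (jqModC Qb) ^ (0 : ℕ) = _
      rw [if_pos rfl, pow_zero, mul_one]
    · intro b _ hb
      have hb' : (b : ℕ) ≠ 0 := fun h => hb (Fin.ext h)
      show Polynomial.aeval (jqModC Qb) (if (b : ℕ) = 0 then q else 0)
          * qExpand Qb N (jqModC Qb) ^ (b : ℕ) = 0
      rw [if_neg hb', map_zero, zero_mul]
    · intro h; exact absurd (Finset.mem_univ _) h
  rw [hsum2] at hy2
  -- elements of the function field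
  have hcoe1 : coeffMap A.subtype y1
      = ((algebraMap Qb ↥(modularFunctionFieldBar N) c1 * (G2 * f) :
          ↥(modularFunctionFieldBar N)) : LaurentSeries Qb) := by
    rw [hy1, ← hG1coe]
    rfl
  have hcoe2 : coeffMap A.subtype y2
      = ((algebraMap Qb ↥(modularFunctionFieldBar N) c2 * G2 :
          ↥(modularFunctionFieldBar N)) : LaurentSeries Qb) := by
    rw [hy2, ← hG2coe]
    rfl
  have hmem1 : coeffMap A.subtype y1 ∈ laurentBaseChange Qb (modularFunctionFieldFull N) := by
    rw [hcoe1]; exact SetLike.coe_mem _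
  have hmem2 : coeffMap A.subtype y2 ∈ laurentBaseChange Qb (modularFunctionFieldFull N) := by
    rw [hcoe2]; exact SetLike.coe_mem _
  have hg1 : (⟨coeffMap A.subtype y1, hmem1⟩ : ↥(modularFunctionFieldBar N))
      = algebraMap Qb ↥(modularFunctionFieldBar N) c1 * (G2 * f) := Subtype.ext hcoe1
  have hg2 : (⟨coeffMap A.subtype y2, hmem2⟩ : ↥(modularFunctionFieldBar N))
      = algebraMap Qb ↥(modularFunctionFieldBar N) c2 * G2 := Subtype.ext hcoe2
  have hk1 : algebraMap Qb ↥(modularFunctionFieldBar N) c1 ≠ 0 := by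
    rw [Ne, map_eq_zero]; exact hc1
  have hk2 : algebraMap Qb ↥(modularFunctionFieldBar N) c2 ≠ 0 := by
    rw [Ne, map_eq_zero]; exact hc2
  -- the two divisors
  obtain ⟨hfin1, -⟩ := h35_principal htr
    (⟨coeffMap A.subtype y1, hmem1⟩ : ↥(modularFunctionFieldBar N))
  obtain ⟨hfin2, -⟩ := h35_principal htr
    (⟨coeffMap A.subtype y2, hmem2⟩ : ↥(modularFunctionFieldBar N))
  let D1 : Divisor Qb ↥(modularFunctionFieldBar N) :=
    Finsupp.ofSupportFinite (fun P : Place Qb ↥(modularFunctionFieldBar N) =>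
      P.ord (⟨coeffMap A.subtype y1, hmem1⟩ : ↥(modularFunctionFieldBar N))) hfin1
  let D2 : Divisor Qb ↥(modularFunctionFieldBar N) :=
    Finsupp.ofSupportFinite (fun P : Place Qb ↥(modularFunctionFieldBar N) =>
      P.ord (⟨coeffMap A.subtype y2, hmem2⟩ : ↥(modularFunctionFieldBar N))) hfin2
  have hD1 : D1 ∈ integralPrincipalDivisors A (IsLocalRing.residue A) N :=
    ⟨y1, hmem1, hm1, hne1, fun P => rfl⟩
  have hD2 : D2 ∈ integralPrincipalDivisors A (IsLocalRing.residue A) N :=
    ⟨y2, hmem2, hm2, hne2, fun P => rfl⟩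
  have hDeq : D = D1 - D2 := by
    apply Finsupp.ext
    intro P
    rw [Finsupp.sub_apply, hfD P]
    show P.ord f = P.ord (⟨coeffMap A.subtype y1, hmem1⟩ : ↥(modularFunctionFieldBar N))
      - P.ord (⟨coeffMap A.subtype y2, hmem2⟩ : ↥(modularFunctionFieldBar N))
    rw [hg1, hg2, Place.ord_mul P hk1 hG1ne, Place.ord_mul P hG2ne hf0,
      Place.ord_mul P hk2 hG2ne, h35_ord_algebraMap, h35_ord_algebraMap]
    ring
  rw [hDeq]
  exact AddSubgroup.sub_mem _ (AddSubgroup.subset_closure hD1) (AddSubgroup.subset_closure hD2)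

end Fermat.Agent.S37
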