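import Fermat.Agent.S18.h39_Mod
import Fermat.Agent.S18.h39_PlaceRedOfChart
import Fermat.Agent.S18.RR_Riemann
import Fermat.Agent.S37.h62_PGI

/-!
# S37 adapter (helper39): the prelude's `ReductionInputsModL A M` is TRUE at chart levels

From the S18 layers: for `ℓ ∤ M` and a chart `x` of the reduction datum `h39_modRed M hℓM A hA`
(`j` for `ℓ ≥ 5`, `h₂` for `2 ∣ M`, `h₃` for `3 ∣ M`) the map `S.r0` of a place reduction
`S : h39_PlaceRed _` is an `IsPlaceReductionModL A M`, and `PrincipalGeneratedByIntegral` holds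
(`h62_PGI`).  Hence `reductionModL A M` is the genuine reduction map at such levels.
-/

set_option autoImplicit false
set_option synthInstance.maxHeartbeats 400000

noncomputable section

open ModularCurve AlgebraicCurve IntermediateField CongruenceSubgroup
open scoped MatrixGroups

namespace Fermat.Agent.S37

open Fermat.Agent.S24 Fermat.Agent.S18

local notation "Qb" => AlgebraicClosure ℚ

/-- The map on places of a place reduction of the modular reduction datum is a place reduction
in the sense of the prelude. -/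
theorem h39_isPlaceReductionModL_of_placeRed (M : ℕ) [NeZero M] (A : ValuationSubring Qb)
    {R : h39_RedDatum Qb ↥(modularFunctionFieldBar M) (IsLocalRing.ResidueField A)
      ↥(modularFunctionFieldFullC (IsLocalRing.ResidueField A) M)}
    (hR : h54_IsModRed M A R) (S : h39_PlaceRed R)
    (hdegK : ∀ P : Place Qb ↥(modularFunctionFieldBar M), P.deg = 1)
    (hdegk : ∀ Q : Place (IsLocalRing.ResidueField A)
      ↥(modularFunctionFieldFullC (IsLocalRing.ResidueField A) M), Q.deg = 1) :
    IsPlaceReductionModL A M S.r0 := by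
  refine ⟨fun P => by rw [hdegK, hdegk], ?_⟩
  intro y hy hyk hne D hD Q
  have hmem : (⟨coeffMap A.subtype y, hy⟩ : ↥(modularFunctionFieldBar M)) ∈ R.O :=
    hR.mem_of_integral _ y rfl
  have hred : R.red ⟨⟨coeffMap A.subtype y, hy⟩, hmem⟩ =
      (⟨coeffMap (IsLocalRing.residue A) y, hyk⟩ :
        ↥(modularFunctionFieldFullC (IsLocalRing.ResidueField A) M)) :=
    Subtype.ext (hR.red_of_integral _ y rfl hmem)
  have hne' : R.red ⟨⟨coeffMap A.subtype y, hy⟩, hmem⟩ ≠ 0 := by
    rw [hred]
    intro h0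
    exact hne (congrArg Subtype.val h0)
  have := S.compat _ hmem hne' D hD Q
  rw [this, hred]

/-- `ReductionInputsModL A M` holds at every level `M` prime to `ℓ` carrying a chart. -/
theorem h39_reductionInputsModL_of_chart (M : ℕ) [NeZero M] {ℓ : ℕ} [Fact ℓ.Prime]
    (hℓM : ¬ ℓ ∣ M) (A : ValuationSubring Qb) (hA : A.LiesOverPrime ℓ)
    {x : ↥(modularFunctionFieldBar M)} (hx : h39_Chart (h39_modRed M hℓM A hA) x) :
    ReductionInputsModL A M := by
  have hk : IsAlgClosed (IsLocalRing.ResidueField A) := h19_residueField_isAlgClosed A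
  obtain ⟨S⟩ := h39_nonempty_placeRed_of_chart (h39_modRed M hℓM A hA) hx
  have hxK := h39_weakChart_isChart (h39_modRed M hℓM A hA) hx.toh39_WeakChart
  have hxk := h39_weakChart_isChart_red (h39_modRed M hℓM A hA) hx.toh39_WeakChart
  exact ⟨S.r0, h39_isPlaceReductionModL_of_placeRed M A (h39_modRed_spec M hℓM A hA) S
    (h75_deg_eq_one hxK) (h75_deg_eq_one hxk), h62_PGI M hℓM A hA⟩

/-- `ReductionInputsModL A M` for `ℓ ∤ M` when `ℓ ≥ 5`, or `2 ∣ M`, or `3 ∣ M`. -/
theorem h39_reductionInputsModL (M : ℕ) [NeZero M] {ℓ : ℕ} [Fact ℓ.Prime]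
    (hℓM : ¬ ℓ ∣ M) (A : ValuationSubring Qb) (hA : A.LiesOverPrime ℓ)
    (hc : 5 ≤ ℓ ∨ 2 ∣ M ∨ 3 ∣ M) : ReductionInputsModL A M := by
  rcases hc with h5 | h2 | h3
  · exact h39_reductionInputsModL_of_chart M hℓM A hA (h39_modRed_chart_j M hℓM A hA h5)
  · obtain ⟨x, hx⟩ := h39_modRed_chart_h2 M hℓM A hA h2
    exact h39_reductionInputsModL_of_chart M hℓM A hA hx
  · obtain ⟨x, hx⟩ := h39_modRed_chart_h3 M hℓM A hA h3
    exact h39_reductionInputsModL_of_chart M hℓM A hA hx

/-- at every level `M` prime to `ℓ` (weak chart `j`): principal divisors exist in characteristic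
zero and all places have degree one on both sides. -/
theorem h39_level_facts (M : ℕ) [NeZero M] {ℓ : ℕ} [Fact ℓ.Prime]
    (hℓM : ¬ ℓ ∣ M) (A : ValuationSubring Qb) (hA : A.LiesOverPrime ℓ) :
    HasPrincipalDivisors Qb ↥(modularFunctionFieldBar M) ∧
    (∀ P : Place Qb ↥(modularFunctionFieldBar M), P.deg = 1) ∧
    (∀ Q : Place (IsLocalRing.ResidueField A)
      ↥(modularFunctionFieldFullC (IsLocalRing.ResidueField A) M), Q.deg = 1) := by
  have hk : IsAlgClosed (IsLocalRing.ResidueField A) := h19_residueField_isAlgClosed A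
  have key : ∀ x : ↥(modularFunctionFieldBar M), h39_WeakChart (h39_modRed M hℓM A hA) x →
      HasPrincipalDivisors Qb ↥(modularFunctionFieldBar M) ∧
      (∀ P : Place Qb ↥(modularFunctionFieldBar M), P.deg = 1) ∧
      (∀ Q : Place (IsLocalRing.ResidueField A)
        ↥(modularFunctionFieldFullC (IsLocalRing.ResidueField A) M), Q.deg = 1) := by
    intro x hx
    have hxK := h39_weakChart_isChart (h39_modRed M hℓM A hA) hx
    have hxk := h39_weakChart_isChart_red (h39_modRed M hℓM A hA) hx
    exact ⟨h75_hasPrincipalDivisors hxK, h75_deg_eq_one hxK, h75_deg_eq_one hxk⟩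
  exact key _ (h39_modRed_weakChart_j M hℓM A hA)

end Fermat.Agent.S37

end
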