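import Mathlib
import Fermat.Prelude.Def_ModularCurve_HeckeOperator
import Fermat.Prelude.Thm_ModularCurve_coeffMap_qExpand
import Fermat.Agent.S24.h54_Point

/-!
# S37, row K1, step (1): the Atkin–Lehner swap on the function field of level `N ℓ`

For coprime `N`, `ℓ` we construct a ring endomorphism `h49_swapF` of
`laurentBaseChange K (modularFunctionFieldFull (N * ℓ))` with
`h49_swapF ∘ heckeAlphaBar = heckeBetaBar` and `h49_swapF ∘ heckeBetaBar = heckeAlphaBar`.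

Analytically it is `f ↦ f ∘ W`, `W τ = γ₀ • (ℓ τ)` with `γ₀ = [[a, b], [N, ℓ]] ∈ SL₂(ℤ)`.
-/

set_option autoImplicit false

noncomputable section

open ModularCurve UpperHalfPlane
open scoped MatrixGroups

namespace Fermat.Agent.S37

open Fermat.Agent.S24

/-! ## The map `W` on the upper half plane -/

theorem h49_exists_bezout {N ℓ : ℕ} (h : Nat.Coprime ℓ N) :
    ∃ a b : ℤ, (ℓ : ℤ) * a - (N : ℤ) * b = 1 := by
  have h1 : IsCoprime (ℓ : ℤ) (N : ℤ) := Nat.isCoprime_iff_coprime.mpr h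
  obtain ⟨u, v, huv⟩ := h1
  exact ⟨u, -v, by linarith⟩

/-- `γ₀ = [[a, b], [N, ℓ]]`. -/
def h49_g0 (N ℓ : ℕ) (a b : ℤ) (h : (ℓ : ℤ) * a - (N : ℤ) * b = 1) : SL(2, ℤ) :=
  ⟨!![a, b; (N : ℤ), (ℓ : ℤ)], by rw [Matrix.det_fin_two_of]; linarith⟩

/-- `γ₁ = [[ℓ a, b], [N, 1]]`. -/
def h49_g1 (N ℓ : ℕ) (a b : ℤ) (h : (ℓ : ℤ) * a - (N : ℤ) * b = 1) : SL(2, ℤ) :=
  ⟨!![(ℓ : ℤ) * a, b; (N : ℤ), 1], by rw [Matrix.det_fin_two_of]; linarith⟩

/-- The Atkin–Lehner map `W τ = γ₀ • (ℓ τ)`. -/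
def h49_W (N ℓ : ℕ) (a b : ℤ) (h : (ℓ : ℤ) * a - (N : ℤ) * b = 1) (τ : ℍ) : ℍ :=
  h49_g0 N ℓ a b h • ofComplex ((ℓ : ℂ) * τ)

variable {N ℓ : ℕ} [NeZero ℓ] {a b : ℤ} (h : (ℓ : ℤ) * a - (N : ℤ) * b = 1)

theorem h49_ofComplex_mul_W (τ : ℍ) :
    ofComplex ((ℓ : ℂ) * (h49_W N ℓ a b h τ : ℂ)) = h49_g1 N ℓ a b h • τ := by
  have hℓ : 0 < ℓ := Nat.pos_of_ne_zero (NeZero.ne ℓ)
  have hmat : !![(ℓ : ℤ), 0; 0, 1] * (h49_g0 N ℓ a b h : Matrix (Fin 2) (Fin 2) ℤ)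
      = (h49_g1 N ℓ a b h : Matrix (Fin 2) (Fin 2) ℤ) * !![((1 : ℕ) : ℤ), (0 : ℤ); 0, (ℓ : ℤ)] := by
    ext i j
    fin_cases i <;> fin_cases j <;>
      simp [h49_g0, h49_g1, Matrix.mul_apply, Fin.sum_univ_two] <;> ring
  have hτ' : (τ : ℂ) = (((1 : ℕ) : ℂ) * ((ofComplex ((ℓ : ℂ) * τ) : ℍ) : ℂ) + ((0 : ℤ) : ℂ)) / ℓ := by
    rw [h77_coe_ofComplex_mul]
    have hℓ' : (ℓ : ℂ) ≠ 0 := by exact_mod_cast hℓ.ne'
    push_cast
    field_simp
    ring
  have key := h64_hermite_coe_smul (d := ℓ) hℓ hmat (ofComplex ((ℓ : ℂ) * τ)) τ hτ'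
  have : (ℓ : ℂ) * (h49_W N ℓ a b h τ : ℂ) = ((h49_g1 N ℓ a b h • τ : ℍ) : ℂ) := key
  rw [this, ofComplex_apply]

theorem h49_W_surjective : Function.Surjective (h49_W N ℓ a b h) := by
  intro τ'
  have hℓ : 0 < ℓ := Nat.pos_of_ne_zero (NeZero.ne ℓ)
  set z : ℍ := (h49_g0 N ℓ a b h)⁻¹ • τ' with hz
  have him : 0 < ((z : ℂ) / (ℓ : ℂ)).im := by
    have : ((z : ℂ) / (ℓ : ℂ)).im = z.im / ℓ := by
      rw [show (ℓ : ℂ) = ((ℓ : ℝ) : ℂ) by push_cast; rfl, Complex.div_ofReal_im]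
      rfl
    rw [this]
    exact div_pos z.im_pos (by exact_mod_cast hℓ)
  refine ⟨ofComplex ((z : ℂ) / (ℓ : ℂ)), ?_⟩
  unfold h49_W
  have hℓ' : (ℓ : ℂ) ≠ 0 := by exact_mod_cast hℓ.ne'
  rw [ofComplex_apply_of_im_pos him]
  have : (ℓ : ℂ) * ((⟨(z : ℂ) / (ℓ : ℂ), him⟩ : ℍ) : ℂ) = (z : ℂ) := by
    show (ℓ : ℂ) * ((z : ℂ) / (ℓ : ℂ)) = z
    field_simp
  rw [this, ofComplex_apply, hz, smul_inv_smul]

/-- `j (d · W τ) = j (ℓ d · τ)` for `d ∣ N`. -/
theorem h49_j_W_of_dvd {d : ℕ} [NeZero d] (hd : d ∣ N) (τ : ℍ) :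
    h77_j (ofComplex ((d : ℂ) * (h49_W N ℓ a b h τ : ℂ)))
      = h77_j (ofComplex (((ℓ * d : ℕ) : ℂ) * τ)) := by
  have hd0 : 0 < d := Nat.pos_of_ne_zero (NeZero.ne d)
  have hdvd : (d : ℤ) ∣ (h49_g0 N ℓ a b h) 1 0 := by
    have : (h49_g0 N ℓ a b h) 1 0 = (N : ℤ) := by simp [h49_g0]
    rw [this]
    exact Int.natCast_dvd_natCast.mpr hd
  have key := (h64_conj_eq_iff h54_j_smul h54_j_leadOne hd0 (h49_g0 N ℓ a b h)).mpr hdvd
    (ofComplex ((ℓ : ℂ) * τ))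
  unfold h49_W
  rw [key, h77_coe_ofComplex_mul]
  congr 2
  push_cast
  ring

/-- `j (ℓ d · W τ) = j (d · τ)` for `d ∣ N`. -/
theorem h49_j_W_of_mul {d : ℕ} [NeZero d] (hd : d ∣ N) (τ : ℍ) :
    h77_j (ofComplex (((ℓ * d : ℕ) : ℂ) * (h49_W N ℓ a b h τ : ℂ)))
      = h77_j (ofComplex ((d : ℂ) * τ)) := by
  have hd0 : 0 < d := Nat.pos_of_ne_zero (NeZero.ne d)
  have hdvd : (d : ℤ) ∣ (h49_g1 N ℓ a b h) 1 0 := by
    have : (h49_g1 N ℓ a b h) 1 0 = (N : ℤ) := by simp [h49_g1]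
    rw [this]
    exact Int.natCast_dvd_natCast.mpr hd
  have key := (h64_conj_eq_iff h54_j_smul h54_j_leadOne hd0 (h49_g1 N ℓ a b h)).mpr hdvd τ
  rw [← key, ← h49_ofComplex_mul_W h, h77_coe_ofComplex_mul]
  congr 2
  push_cast
  ring

/-! ## The swap on `A_{Nℓ}` -/

section Alg

variable {K : Type*} [Field K] [Algebra ℚ K] (ι : K →+* ℂ)

theorem h49_swap_exists (hℓp : ℓ.Prime) (x : h78_AN K (N * ℓ)) :
    ∃ x' : h78_AN K (N * ℓ), ∀ τ : ℍ,
      h54_ev ι (N * ℓ) x' τ = h54_ev ι (N * ℓ) x (h49_W N ℓ a b h τ) := by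
  obtain ⟨x, hx⟩ := x
  induction hx using Algebra.adjoin_induction with
  | mem x hx =>
    obtain ⟨d, hd, hdN, rfl⟩ := hx
    have := hd
    by_cases hdN' : d ∣ N
    · have : NeZero (ℓ * d) := ⟨Nat.mul_ne_zero (NeZero.ne ℓ) (NeZero.ne d)⟩
      have hmem : coeffEmb K (qExpand ℚ (ℓ * d) jq) ∈ h78_AN K (N * ℓ) :=
        h78_gens_subset_AN K _ (h78_mem_gens K
          (by rw [mul_comm N ℓ]; exact Nat.mul_dvd_mul_left ℓ hdN'))
      have hmem0 : coeffEmb K (qExpand ℚ d jq) ∈ h78_AN K (N * ℓ) :=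
        h78_gens_subset_AN K _ (h78_mem_gens K hdN)
      refine ⟨⟨_, hmem⟩, fun τ => ?_⟩
      have e1 := congrFun (h54_ev_gen ι (N * ℓ) (ℓ * d) hmem) τ
      have e2 := congrFun (h54_ev_gen ι (N * ℓ) d hmem0) (h49_W N ℓ a b h τ)
      exact e1.trans ((h49_j_W_of_dvd h hdN' τ).symm.trans e2.symm)
    · have hℓd : ℓ ∣ d := by
        rcases Nat.coprime_or_dvd_of_prime hℓp d with hc | hc
        · exact absurd (Nat.Coprime.dvd_of_dvd_mul_right hc.symm hdN) hdN'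
        · exact hc
      obtain ⟨d', rfl⟩ := hℓd
      have hd'N : d' ∣ N :=
        Nat.dvd_of_mul_dvd_mul_left hℓp.pos (by rwa [mul_comm N ℓ] at hdN)
      have : NeZero d' := ⟨fun h0 => by subst h0; exact NeZero.ne (ℓ * 0) (by simp)⟩
      have hmem : coeffEmb K (qExpand ℚ d' jq) ∈ h78_AN K (N * ℓ) :=
        h78_gens_subset_AN K _ (h78_mem_gens K (hd'N.trans (dvd_mul_right N ℓ)))
      have hmem0 : coeffEmb K (qExpand ℚ (ℓ * d') jq) ∈ h78_AN K (N * ℓ) :=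
        h78_gens_subset_AN K _ (h78_mem_gens K hdN)
      refine ⟨⟨_, hmem⟩, fun τ => ?_⟩
      have e1 := congrFun (h54_ev_gen ι (N * ℓ) d' hmem) τ
      have e2 := congrFun (h54_ev_gen ι (N * ℓ) (ℓ * d') hmem0) (h49_W N ℓ a b h τ)
      exact e1.trans ((h49_j_W_of_mul h hd'N τ).symm.trans e2.symm)
  | algebraMap c =>
    refine ⟨algebraMap K _ c, fun τ => ?_⟩
    have e : (⟨algebraMap K (LaurentSeries K) c, Subalgebra.algebraMap_mem _ c⟩ :
        h78_AN K (N * ℓ)) = algebraMap K (h78_AN K (N * ℓ)) c := rfl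
    rw [e, h54_ev_const]
  | add x y hx hy ihx ihy =>
    obtain ⟨x', hx'⟩ := ihx
    obtain ⟨y', hy'⟩ := ihy
    refine ⟨x' + y', fun τ => ?_⟩
    have e : (⟨x + y, add_mem hx hy⟩ : h78_AN K (N * ℓ)) = ⟨x, hx⟩ + ⟨y, hy⟩ := rfl
    rw [e, map_add, map_add, Pi.add_apply, Pi.add_apply, hx', hy']
  | mul x y hx hy ihx ihy =>
    obtain ⟨x', hx'⟩ := ihx
    obtain ⟨y', hy'⟩ := ihy
    refine ⟨x' * y', fun τ => ?_⟩
    have e : (⟨x * y, mul_mem hx hy⟩ : h78_AN K (N * ℓ)) = ⟨x, hx⟩ * ⟨y, hy⟩ := rfl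
    rw [e, map_mul, map_mul, Pi.mul_apply, Pi.mul_apply, hx', hy']

/-- The swap on `A_{Nℓ}`, as a function. -/
def h49_swapFun (hℓp : ℓ.Prime) (x : h78_AN K (N * ℓ)) : h78_AN K (N * ℓ) :=
  (h49_swap_exists h ι hℓp x).choose

theorem h49_swapFun_spec (hℓp : ℓ.Prime) (x : h78_AN K (N * ℓ)) (τ : ℍ) :
    h54_ev ι (N * ℓ) (h49_swapFun h ι hℓp x) τ
      = h54_ev ι (N * ℓ) x (h49_W N ℓ a b h τ) :=
  (h49_swap_exists h ι hℓp x).choose_spec τ

theorem h49_swapFun_eq (hℓp : ℓ.Prime) {x x' : h78_AN K (N * ℓ)}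
    (hx : ∀ τ : ℍ, h54_ev ι (N * ℓ) x' τ = h54_ev ι (N * ℓ) x (h49_W N ℓ a b h τ)) :
    h49_swapFun h ι hℓp x = x' :=
  h54_ev_injective ι _ (funext fun τ => by rw [h49_swapFun_spec, hx])

/-- The swap on `A_{Nℓ}`, as a ring homomorphism. -/
def h49_swapA (hℓp : ℓ.Prime) : h78_AN K (N * ℓ) →+* h78_AN K (N * ℓ) where
  toFun := h49_swapFun h ι hℓp
  map_one' := h49_swapFun_eq h ι hℓp fun τ => by rw [map_one]; rfl
  map_mul' x y := h49_swapFun_eq h ι hℓp fun τ => by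
    rw [map_mul, map_mul, Pi.mul_apply, Pi.mul_apply, h49_swapFun_spec, h49_swapFun_spec]
  map_zero' := h49_swapFun_eq h ι hℓp fun τ => by rw [map_zero]; rfl
  map_add' x y := h49_swapFun_eq h ι hℓp fun τ => by
    rw [map_add, map_add, Pi.add_apply, Pi.add_apply, h49_swapFun_spec, h49_swapFun_spec]

theorem h49_swapA_spec (hℓp : ℓ.Prime) (x : h78_AN K (N * ℓ)) (τ : ℍ) :
    h54_ev ι (N * ℓ) (h49_swapA h ι hℓp x) τ
      = h54_ev ι (N * ℓ) x (h49_W N ℓ a b h τ) :=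
  h49_swapFun_spec h ι hℓp x τ

theorem h49_swapA_eq (hℓp : ℓ.Prime) {x x' : h78_AN K (N * ℓ)}
    (hx : ∀ τ : ℍ, h54_ev ι (N * ℓ) x' τ = h54_ev ι (N * ℓ) x (h49_W N ℓ a b h τ)) :
    h49_swapA h ι hℓp x = x' :=
  h49_swapFun_eq h ι hℓp hx

theorem h49_swapA_injective (hℓp : ℓ.Prime) : Function.Injective (h49_swapA h ι hℓp) := by
  intro x y hxy
  apply h54_ev_injective ι (N * ℓ)
  funext τ'
  obtain ⟨τ, rfl⟩ := h49_W_surjective h τ'
  rw [← h49_swapA_spec h ι hℓp x τ, ← h49_swapA_spec h ι hℓp y τ, hxy]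

theorem h49_swapA_algebraMap (hℓp : ℓ.Prime) (c : K) :
    h49_swapA h ι hℓp (algebraMap K _ c) = algebraMap K _ c :=
  h49_swapA_eq h ι hℓp fun τ => by rw [h54_ev_const]

theorem h49_swapA_gen_of_dvd (hℓp : ℓ.Prime) {d : ℕ} [NeZero d] [NeZero (ℓ * d)] (hd : d ∣ N)
    (hx : coeffEmb K (qExpand ℚ d jq) ∈ h78_AN K (N * ℓ))
    (hx' : coeffEmb K (qExpand ℚ (ℓ * d) jq) ∈ h78_AN K (N * ℓ)) :
    h49_swapA h ι hℓp ⟨_, hx⟩ = ⟨_, hx'⟩ :=
  h49_swapA_eq h ι hℓp fun τ => by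
    rw [h54_ev_gen, h54_ev_gen]
    exact (h49_j_W_of_dvd h hd τ).symm

theorem h49_swapA_gen_of_mul (hℓp : ℓ.Prime) {d : ℕ} [NeZero d] [NeZero (ℓ * d)] (hd : d ∣ N)
    (hx : coeffEmb K (qExpand ℚ (ℓ * d) jq) ∈ h78_AN K (N * ℓ))
    (hx' : coeffEmb K (qExpand ℚ d jq) ∈ h78_AN K (N * ℓ)) :
    h49_swapA h ι hℓp ⟨_, hx⟩ = ⟨_, hx'⟩ :=
  h49_swapA_eq h ι hℓp fun τ => by
    rw [h54_ev_gen, h54_ev_gen]
    exact (h49_j_W_of_mul h hd τ).symm

end Alg

/-! ## The swap on the function field -/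

section Frac

variable {K : Type*} [Field K] [Algebra ℚ K] (ι : K →+* ℂ) [NeZero N]

/-- The swap on the function field of level `N ℓ`. -/
def h49_swapF (hℓp : ℓ.Prime) :
    laurentBaseChange K (modularFunctionFieldFull (N * ℓ)) →+*
      laurentBaseChange K (modularFunctionFieldFull (N * ℓ)) :=
  IsFractionRing.lift (A := h78_AN K (N * ℓ))
    (g := (algebraMap (h78_AN K (N * ℓ))
      (laurentBaseChange K (modularFunctionFieldFull (N * ℓ)))).comp (h49_swapA h ι hℓp))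
    ((FaithfulSMul.algebraMap_injective _ _).comp (h49_swapA_injective h ι hℓp))

theorem h49_swapF_algebraMap (hℓp : ℓ.Prime) (x : h78_AN K (N * ℓ)) :
    h49_swapF h ι hℓp (algebraMap (h78_AN K (N * ℓ))
        (laurentBaseChange K (modularFunctionFieldFull (N * ℓ))) x)
      = algebraMap (h78_AN K (N * ℓ))
        (laurentBaseChange K (modularFunctionFieldFull (N * ℓ))) (h49_swapA h ι hℓp x) :=
  IsFractionRing.lift_algebraMap _ x

theorem h49_swapF_alpha (hℓp : ℓ.Prime) (y : laurentBaseChange K (modularFunctionFieldFull N)) :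
    h49_swapF h ι hℓp (heckeAlphaBar K N ℓ y) = heckeBetaBar K N ℓ y := by
  have key : (h49_swapF h ι hℓp).comp (heckeAlphaBar K N ℓ).toRingHom
      = (heckeBetaBar K N ℓ).toRingHom := by
    apply IsFractionRing.ringHom_ext (A := h78_AN K N)
    rintro ⟨x, hx⟩
    induction hx using Algebra.adjoin_induction with
    | mem x hx =>
      obtain ⟨d, hd, hdN, rfl⟩ := hx
      have := hd
      have : NeZero (ℓ * d) := ⟨Nat.mul_ne_zero (NeZero.ne ℓ) (NeZero.ne d)⟩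
      have hx2 : coeffEmb K (qExpand ℚ d jq) ∈ h78_AN K (N * ℓ) :=
        h78_gens_subset_AN K _ (h78_mem_gens K (hdN.trans (dvd_mul_right N ℓ)))
      have hx3 : coeffEmb K (qExpand ℚ (ℓ * d) jq) ∈ h78_AN K (N * ℓ) :=
        h78_gens_subset_AN K _ (h78_mem_gens K
          (by rw [mul_comm N ℓ]; exact Nat.mul_dvd_mul_left ℓ hdN))
      have e1 : (heckeAlphaBar K N ℓ).toRingHom (algebraMap (h78_AN K N)
          (laurentBaseChange K (modularFunctionFieldFull N))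
            ⟨coeffEmb K (qExpand ℚ d jq), Algebra.subset_adjoin ⟨d, hd, hdN, rfl⟩⟩)
          = algebraMap (h78_AN K (N * ℓ))
            (laurentBaseChange K (modularFunctionFieldFull (N * ℓ))) ⟨_, hx2⟩ :=
        Subtype.ext rfl
      have e2 : (heckeBetaBar K N ℓ).toRingHom (algebraMap (h78_AN K N)
          (laurentBaseChange K (modularFunctionFieldFull N))
            ⟨coeffEmb K (qExpand ℚ d jq), Algebra.subset_adjoin ⟨d, hd, hdN, rfl⟩⟩)
          = algebraMap (h78_AN K (N * ℓ))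
            (laurentBaseChange K (modularFunctionFieldFull (N * ℓ))) ⟨_, hx3⟩ := by
        apply Subtype.ext
        show qExpand K ℓ (coeffEmb K (qExpand ℚ d jq)) = coeffEmb K (qExpand ℚ (ℓ * d) jq)
        rw [← qExpand_qExpand d ℓ jq]
        exact (coeffMap_qExpand _ ℓ _).symm
      rw [RingHom.comp_apply, e1, e2, h49_swapF_algebraMap,
        h49_swapA_gen_of_dvd h ι hℓp hdN hx2 hx3]
    | algebraMap c =>
      have e1 : (heckeAlphaBar K N ℓ).toRingHom (algebraMap (h78_AN K N)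
          (laurentBaseChange K (modularFunctionFieldFull N))
            ⟨algebraMap K (LaurentSeries K) c, Subalgebra.algebraMap_mem _ c⟩)
          = algebraMap (h78_AN K (N * ℓ))
            (laurentBaseChange K (modularFunctionFieldFull (N * ℓ)))
              (algebraMap K (h78_AN K (N * ℓ)) c) :=
        Subtype.ext rfl
      have e2 : (heckeBetaBar K N ℓ).toRingHom (algebraMap (h78_AN K N)
          (laurentBaseChange K (modularFunctionFieldFull N))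
            ⟨algebraMap K (LaurentSeries K) c, Subalgebra.algebraMap_mem _ c⟩)
          = algebraMap (h78_AN K (N * ℓ))
            (laurentBaseChange K (modularFunctionFieldFull (N * ℓ)))
              (algebraMap K (h78_AN K (N * ℓ)) c) := by
        apply Subtype.ext
        show qExpand K ℓ (algebraMap K (LaurentSeries K) c) = algebraMap K (LaurentSeries K) c
        rw [algebraMap_laurentSeries_eq_single, qExpand_single, mul_zero]
      rw [RingHom.comp_apply, e1, e2, h49_swapF_algebraMap, h49_swapA_algebraMap]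
    | add x y hx hy ihx ihy =>
      have e : (⟨x + y, add_mem hx hy⟩ : h78_AN K N) = ⟨x, hx⟩ + ⟨y, hy⟩ := rfl
      rw [e, map_add, map_add, map_add, ihx, ihy]
    | mul x y hx hy ihx ihy =>
      have e : (⟨x * y, mul_mem hx hy⟩ : h78_AN K N) = ⟨x, hx⟩ * ⟨y, hy⟩ := rfl
      rw [e, map_mul, map_mul, map_mul, ihx, ihy]
  exact DFunLike.congr_fun key y

theorem h49_swapF_beta (hℓp : ℓ.Prime) (y : laurentBaseChange K (modularFunctionFieldFull N)) :
    h49_swapF h ι hℓp (heckeBetaBar K N ℓ y) = heckeAlphaBar K N ℓ y := by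
  have key : (h49_swapF h ι hℓp).comp (heckeBetaBar K N ℓ).toRingHom
      = (heckeAlphaBar K N ℓ).toRingHom := by
    apply IsFractionRing.ringHom_ext (A := h78_AN K N)
    rintro ⟨x, hx⟩
    induction hx using Algebra.adjoin_induction with
    | mem x hx =>
      obtain ⟨d, hd, hdN, rfl⟩ := hx
      have := hd
      have : NeZero (ℓ * d) := ⟨Nat.mul_ne_zero (NeZero.ne ℓ) (NeZero.ne d)⟩
      have hx2 : coeffEmb K (qExpand ℚ d jq) ∈ h78_AN K (N * ℓ) :=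
        h78_gens_subset_AN K _ (h78_mem_gens K (hdN.trans (dvd_mul_right N ℓ)))
      have hx3 : coeffEmb K (qExpand ℚ (ℓ * d) jq) ∈ h78_AN K (N * ℓ) :=
        h78_gens_subset_AN K _ (h78_mem_gens K
          (by rw [mul_comm N ℓ]; exact Nat.mul_dvd_mul_left ℓ hdN))
      have e1 : (heckeAlphaBar K N ℓ).toRingHom (algebraMap (h78_AN K N)
          (laurentBaseChange K (modularFunctionFieldFull N))
            ⟨coeffEmb K (qExpand ℚ d jq), Algebra.subset_adjoin ⟨d, hd, hdN, rfl⟩⟩)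
          = algebraMap (h78_AN K (N * ℓ))
            (laurentBaseChange K (modularFunctionFieldFull (N * ℓ))) ⟨_, hx2⟩ :=
        Subtype.ext rfl
      have e2 : (heckeBetaBar K N ℓ).toRingHom (algebraMap (h78_AN K N)
          (laurentBaseChange K (modularFunctionFieldFull N))
            ⟨coeffEmb K (qExpand ℚ d jq), Algebra.subset_adjoin ⟨d, hd, hdN, rfl⟩⟩)
          = algebraMap (h78_AN K (N * ℓ))
            (laurentBaseChange K (modularFunctionFieldFull (N * ℓ))) ⟨_, hx3⟩ := by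
        apply Subtype.ext
        show qExpand K ℓ (coeffEmb K (qExpand ℚ d jq)) = coeffEmb K (qExpand ℚ (ℓ * d) jq)
        rw [← qExpand_qExpand d ℓ jq]
        exact (coeffMap_qExpand _ ℓ _).symm
      rw [RingHom.comp_apply, e1, e2, h49_swapF_algebraMap,
        h49_swapA_gen_of_mul h ι hℓp hdN hx3 hx2]
    | algebraMap c =>
      have e1 : (heckeAlphaBar K N ℓ).toRingHom (algebraMap (h78_AN K N)
          (laurentBaseChange K (modularFunctionFieldFull N))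
            ⟨algebraMap K (LaurentSeries K) c, Subalgebra.algebraMap_mem _ c⟩)
          = algebraMap (h78_AN K (N * ℓ))
            (laurentBaseChange K (modularFunctionFieldFull (N * ℓ)))
              (algebraMap K (h78_AN K (N * ℓ)) c) :=
        Subtype.ext rfl
      have e2 : (heckeBetaBar K N ℓ).toRingHom (algebraMap (h78_AN K N)
          (laurentBaseChange K (modularFunctionFieldFull N))
            ⟨algebraMap K (LaurentSeries K) c, Subalgebra.algebraMap_mem _ c⟩)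
          = algebraMap (h78_AN K (N * ℓ))
            (laurentBaseChange K (modularFunctionFieldFull (N * ℓ)))
              (algebraMap K (h78_AN K (N * ℓ)) c) := by
        apply Subtype.ext
        show qExpand K ℓ (algebraMap K (LaurentSeries K) c) = algebraMap K (LaurentSeries K) c
        rw [algebraMap_laurentSeries_eq_single, qExpand_single, mul_zero]
      rw [RingHom.comp_apply, e1, e2, h49_swapF_algebraMap, h49_swapA_algebraMap]
    | add x y hx hy ihx ihy =>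
      have e : (⟨x + y, add_mem hx hy⟩ : h78_AN K N) = ⟨x, hx⟩ + ⟨y, hy⟩ := rfl
      rw [e, map_add, map_add, map_add, ihx, ihy]
    | mul x y hx hy ihx ihy =>
      have e : (⟨x * y, mul_mem hx hy⟩ : h78_AN K N) = ⟨x, hx⟩ * ⟨y, hy⟩ := rfl
      rw [e, map_mul, map_mul, map_mul, ihx, ihy]
  exact DFunLike.congr_fun key y

end Frac

end Fermat.Agent.S37
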