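import Mathlib
import Fermat.Prelude.Def_ModularCurve_X0ModL

/-!
# S37: the coefficient twist `q ↦ c q` on Laurent series and the formal Kronecker congruence

* `h87_twist c : LaurentSeries R →+* LaurentSeries R`, `(h87_twist c f).coeff n = c ^ n * f.coeff n`
  for a unit `c`;
* `h87_coeffMap_prod_twist` : modulo a prime `ℓ` (i.e. after a ring hom `π` into a field of
  characteristic `ℓ`), `∏_{b < ℓ} f(ζ^b q)` reduces to `(π f)^ℓ` for `ζ ^ ℓ = 1`;
* `h87_pow_char` : in characteristic `ℓ`, `f ^ ℓ = (Frob f)(q^ℓ)`.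
-/

set_option autoImplicit false

noncomputable section

open ModularCurve HahnSeries

namespace Fermat.Agent.S37

section Twist

variable {R S : Type*} [CommRing R] [CommRing S]

/-- The coefficient twist `q ↦ c q` on Laurent series, as a function. -/
def h87_twistFun (c : Rˣ) (f : LaurentSeries R) : LaurentSeries R where
  coeff n := ((c ^ n : Rˣ) : R) * f.coeff n
  isPWO_support' := f.isPWO_support.mono (fun n hn => by
    simp only [Function.mem_support, ne_eq, HahnSeries.mem_support] at hn ⊢
    intro h0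
    exact hn (by rw [h0, mul_zero]))

@[simp]
theorem h87_twistFun_coeff (c : Rˣ) (f : LaurentSeries R) (n : ℤ) :
    (h87_twistFun c f).coeff n = ((c ^ n : Rˣ) : R) * f.coeff n := rfl

theorem h87_twistFun_support (c : Rˣ) (f : LaurentSeries R) :
    (h87_twistFun c f).support = f.support := by
  ext n
  simp only [HahnSeries.mem_support, h87_twistFun_coeff, ne_eq]
  exact not_congr (Units.mul_right_eq_zero _)

theorem h87_twistFun_mul (c : Rˣ) (f g : LaurentSeries R) :
    h87_twistFun c (f * g) = h87_twistFun c f * h87_twistFun c g := by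
  ext n
  rw [h87_twistFun_coeff, HahnSeries.coeff_mul, HahnSeries.coeff_mul, Finset.mul_sum]
  have hset : Finset.antidiagonal (h87_twistFun c f).isPWO_support
      (h87_twistFun c g).isPWO_support n = Finset.antidiagonal f.isPWO_support
      g.isPWO_support n := by
    ext ij
    simp only [Finset.mem_antidiagonal, h87_twistFun_support]
  rw [hset]
  refine Finset.sum_congr rfl fun ij hij => ?_
  have hsum : ij.1 + ij.2 = n := (Finset.mem_antidiagonal.mp hij).2.2
  rw [h87_twistFun_coeff, h87_twistFun_coeff, ← hsum, zpow_add, Units.val_mul]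
  ring

/-- The coefficient twist `q ↦ c q` on Laurent series, as a ring homomorphism. -/
def h87_twist (c : Rˣ) : LaurentSeries R →+* LaurentSeries R where
  toFun := h87_twistFun c
  map_zero' := by
    ext n
    simp
  map_one' := by
    ext n
    rw [h87_twistFun_coeff, HahnSeries.coeff_one]
    split_ifs with h
    · subst h
      simp
    · simp
  map_add' f g := by
    ext n
    simp [mul_add]
  map_mul' := h87_twistFun_mul c

@[simp]
theorem h87_twist_coeff (c : Rˣ) (f : LaurentSeries R) (n : ℤ) :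
    (h87_twist c f).coeff n = ((c ^ n : Rˣ) : R) * f.coeff n := rfl

@[simp]
theorem h87_twist_one (f : LaurentSeries R) : h87_twist (1 : Rˣ) f = f := by
  ext n
  simp

theorem h87_twist_mul (c d : Rˣ) (f : LaurentSeries R) :
    h87_twist (c * d) f = h87_twist c (h87_twist d f) := by
  ext n
  simp [mul_zpow, mul_assoc]

theorem h87_coeffMap_twist (φ : R →+* S) (c : Rˣ) (f : LaurentSeries R) :
    coeffMap φ (h87_twist c f) = h87_twist (Units.map (φ : R →* S) c) (coeffMap φ f) := by
  ext n
  rw [coeffMap_coeff, h87_twist_coeff, h87_twist_coeff, coeffMap_coeff, map_mul, ← map_zpow]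
  rfl

theorem h87_twist_single (c : Rˣ) (n : ℤ) (r : R) :
    h87_twist c (HahnSeries.single n r) = HahnSeries.single n (((c ^ n : Rˣ) : R) * r) := by
  ext m
  rw [h87_twist_coeff]
  rcases eq_or_ne m n with rfl | hm
  · simp [HahnSeries.coeff_single_same]
  · simp [HahnSeries.coeff_single_of_ne hm]

/-- A series fixed by the twist by `c` is supported on the `n` with `c ^ n = 1`: if `c ^ n - 1` is
a non-zero-divisor for `ℓ ∤ n`, the series is a series in `q^ℓ`. -/
theorem h87_exists_qExpand_of_twist_eq (ℓ : ℕ) [NeZero ℓ] (c : Rˣ)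
    (hc : ∀ n : ℤ, ¬ (ℓ : ℤ) ∣ n → ∀ r : R, (((c ^ n : Rˣ) : R) - 1) * r = 0 → r = 0)
    (f : LaurentSeries R) (hf : h87_twist c f = f) :
    ∃ g : LaurentSeries R, qExpand R ℓ g = f := by
  have hℓ : (0 : ℤ) < ℓ := by exact_mod_cast Nat.pos_of_ne_zero (NeZero.ne ℓ)
  have hzero : ∀ n : ℤ, ¬ (ℓ : ℤ) ∣ n → f.coeff n = 0 := by
    intro n hn
    apply hc n hn
    have h := congrArg (fun x => x.coeff n) hf
    simp only [h87_twist_coeff] at h
    rw [sub_mul, one_mul, h, sub_self]
  let g : LaurentSeries R :=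
    { coeff := fun m => f.coeff ((ℓ : ℤ) * m)
      isPWO_support' := by
        have hbdd : BddBelow (Function.support fun m : ℤ => f.coeff ((ℓ : ℤ) * m)) := by
          refine ⟨f.order / (ℓ : ℤ) - 1, fun m hm => ?_⟩
          have h1 : f.order ≤ (ℓ : ℤ) * m := HahnSeries.order_le_of_coeff_ne_zero hm
          set b := f.order with hb
          have h2 : b / (ℓ : ℤ) ≤ m := by
            have := Int.ediv_le_ediv hℓ h1
            rwa [Int.mul_ediv_cancel_left _ hℓ.ne'] at this
          omega
        exact hbdd.isWF.isPWO }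
  refine ⟨g, ?_⟩
  ext n
  by_cases hn : (ℓ : ℤ) ∣ n
  · obtain ⟨m, rfl⟩ := hn
    rw [qExpand_coeff_mul]
  · rw [qExpand_coeff_of_not_dvd ℓ _ hn, hzero n hn]

end Twist

section Kronecker

variable {A k : Type*} [CommRing A] [Field k]

/-- **Formal Kronecker congruence.**  If `π : A → k` with `k` of characteristic `ℓ` and
`ζ ^ ℓ = 1`, then `∏_{b < ℓ} f(ζ^b q)` reduces to `(π f)^ℓ`. -/
theorem h87_coeffMap_prod_twist (π : A →+* k) (ℓ : ℕ) [Fact ℓ.Prime] [CharP k ℓ] (ζ : Aˣ)
    (hζ : ζ ^ ℓ = 1) (f : LaurentSeries A) :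
    coeffMap π (∏ b ∈ Finset.range ℓ, h87_twist (ζ ^ b) f) = coeffMap π f ^ ℓ := by
  have h1 : Units.map (π : A →* k) ζ = 1 := by
    have h2 : (Units.map (π : A →* k) ζ) ^ ℓ = 1 := by rw [← map_pow, hζ, map_one]
    have h3 : (((Units.map (π : A →* k) ζ : kˣ) : k) - 1) ^ ℓ = 0 := by
      rw [sub_pow_char, one_pow, ← Units.val_pow_eq_pow_val, h2, Units.val_one, sub_self]
    exact Units.ext (by simpa using sub_eq_zero.mp (pow_eq_zero_iff (Fact.out : ℓ.Prime).ne_zero |>.mp h3))
  rw [map_prod]
  have h4 : ∀ b ∈ Finset.range ℓ, coeffMap π (h87_twist (ζ ^ b) f) = coeffMap π f := by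
    intro b _
    rw [h87_coeffMap_twist, map_pow, h1, one_pow, h87_twist_one]
  rw [Finset.prod_congr rfl h4, Finset.prod_const, Finset.card_range]

end Kronecker

end Fermat.Agent.S37

end
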