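import Mathlib
import Fermat.Prelude.Def_ModularCurve_HeckeOperator
import Fermat.Agent.S24.h85_Galois
import Fermat.Agent.S37.h87_Twist
import Fermat.Agent.S37.h49_Swap

/-!
# S37, row K1: the `q`-expansion of the norm of `y(q^ℓ)` from level `N ℓ` to level `N`

`N_{F(Nℓ)/F(N)}(y(q^ℓ))` evaluated at `q^ℓ` equals `y(q^(ℓ²)) ∏_{b<ℓ} y(ζ^b q)`.

The degree `[F(Nℓ) : F(N)] = ℓ + 1` (row DEG) is an explicit hypothesis of `h49_K1_of_deg`.
-/

set_option autoImplicit false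
set_option synthInstance.maxHeartbeats 400000

noncomputable section

open ModularCurve AlgebraicCurve IntermediateField

namespace Fermat.Agent.S37

open Fermat.Agent.S24

local notation "Qb" => AlgebraicClosure ℚ

/-- The twist by an `ℓ`-th root of unity fixes series in `q^ℓ`. -/
theorem h49_twist_qExpand {R : Type*} [CommRing R] (ℓ : ℕ) [NeZero ℓ] (c : Rˣ) (hc : c ^ ℓ = 1)
    (f : LaurentSeries R) : h87_twist c (qExpand R ℓ f) = qExpand R ℓ f := by
  ext n
  rw [h87_twist_coeff]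
  by_cases hn : (ℓ : ℤ) ∣ n
  · obtain ⟨m, rfl⟩ := hn
    have : c ^ ((ℓ : ℤ) * m) = 1 := by
      rw [zpow_mul, zpow_natCast, hc, one_zpow]
    rw [this, Units.val_one, one_mul]
  · rw [qExpand_coeff_of_not_dvd ℓ f hn, mul_zero]

/-- The norm along an algebra hom of degree `n + 1` as a product over `n + 1` embeddings that
agree on the base. -/
theorem h49_norm_along {K E F Ω : Type*} [Field K] [Field E] [Field F] [Field Ω] [Algebra K E]
    [Algebra K F] [CharZero E] (α : E →ₐ[K] F) {n : ℕ} (hdeg : finrankAlong K α = n + 1)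
    (σ : Option (Fin n) → F →+* Ω) (hσ : Function.Injective σ)
    (hE : ∀ x x' e, σ x (α e) = σ x' (α e)) (f : F) :
    letI := algebraAlong α
    σ none (α (Algebra.norm E f)) = σ none f * ∏ b : Fin n, σ (some b) f := by
  letI := algebraAlong α
  have hfr : Module.finrank E F = n + 1 := hdeg
  haveI : FiniteDimensional E F := Module.finite_of_finrank_pos (by rw [hfr]; omega)
  have hcard : Fintype.card (Option (Fin n)) = Module.finrank E F := by
    rw [hfr, Fintype.card_option, Fintype.card_fin]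
  have key := (h85_norm_of_embeddings (E := E) (F := F) σ hσ hE).2 hcard none f
  rw [Fintype.prod_option] at key
  exact key

section Sigma

variable {N ℓ : ℕ} [NeZero N] [NeZero ℓ] {a b : ℤ} (hab : (ℓ : ℤ) * a - (N : ℤ) * b = 1)
  (hℓ : ℓ.Prime) (ζ : Qbˣ)

/-- The `ℓ + 1` expansion homomorphisms of the function field of level `N ℓ`. -/
def h49_sigma : Option (Fin ℓ) → modularFunctionFieldBar (N * ℓ) →+* LaurentSeries Qb
  | none => (qExpand Qb ℓ).comp (modularFunctionFieldBar (N * ℓ)).val.toRingHom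
  | some c => (h87_twist (ζ ^ (c : ℕ))).comp
      ((modularFunctionFieldBar (N * ℓ)).val.toRingHom.comp (h49_swapF hab h78_iota hℓ))

theorem h49_sigma_none (f : modularFunctionFieldBar (N * ℓ)) :
    h49_sigma hab hℓ ζ none f = qExpand Qb ℓ (f : LaurentSeries Qb) := rfl

theorem h49_sigma_some (c : Fin ℓ) (f : modularFunctionFieldBar (N * ℓ)) :
    h49_sigma hab hℓ ζ (some c) f
      = h87_twist (ζ ^ (c : ℕ)) ((h49_swapF hab h78_iota hℓ f : _) : LaurentSeries Qb) := rfl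

theorem h49_sigma_alpha (hζ : ζ ^ ℓ = 1) (x : Option (Fin ℓ)) (e : modularFunctionFieldBar N) :
    h49_sigma hab hℓ ζ x (heckeAlphaBar Qb N ℓ e) = qExpand Qb ℓ (e : LaurentSeries Qb) := by
  cases x with
  | none => rw [h49_sigma_none, coe_heckeAlphaBar]
  | some c =>
    have hc : (ζ ^ (c : ℕ)) ^ ℓ = 1 := by
      rw [← pow_mul, mul_comm, pow_mul, hζ, one_pow]
    rw [h49_sigma_some, h49_swapF_alpha, coe_heckeBetaBar, h49_twist_qExpand ℓ _ hc]

theorem h49_sigma_beta_none (e : modularFunctionFieldBar N) :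
    h49_sigma hab hℓ ζ none (heckeBetaBar Qb N ℓ e)
      = qExpand Qb ℓ (qExpand Qb ℓ (e : LaurentSeries Qb)) := by
  rw [h49_sigma_none, coe_heckeBetaBar]

theorem h49_sigma_beta_some (c : Fin ℓ) (e : modularFunctionFieldBar N) :
    h49_sigma hab hℓ ζ (some c) (heckeBetaBar Qb N ℓ e)
      = h87_twist (ζ ^ (c : ℕ)) (e : LaurentSeries Qb) := by
  rw [h49_sigma_some, h49_swapF_beta, coe_heckeAlphaBar]

theorem h49_sigma_injective (hζ : IsPrimitiveRoot ζ ℓ) :
    Function.Injective (h49_sigma (N := N) hab hℓ ζ) := by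
  have hj1 : (coeffEmb Qb jq).coeff (-1 : ℤ) = 1 := by
    rw [coeffEmb_coeff, coeff_jq_neg_one, map_one]
  have hℓ2 : ¬ (ℓ : ℤ) ∣ (-1 : ℤ) := by
    intro hdvd
    have h1 : (ℓ : ℤ) ∣ 1 := (dvd_neg.mp hdvd)
    have h2 : ℓ ∣ 1 := by exact_mod_cast h1
    exact hℓ.one_lt.ne' (Nat.dvd_one.mp h2)
  have hval0 : (h49_sigma hab hℓ ζ none (heckeBetaBar Qb N ℓ (h78_j Qb N))).coeff (-1 : ℤ) = 0 := by
    rw [h49_sigma_beta_none]
    exact qExpand_coeff_of_not_dvd ℓ _ hℓ2
  have hvalb : ∀ c : Fin ℓ,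
      (h49_sigma hab hℓ ζ (some c) (heckeBetaBar Qb N ℓ (h78_j Qb N))).coeff (-1 : ℤ)
      = (((ζ ^ (c : ℕ)) ^ (-1 : ℤ) : Qbˣ) : Qb) := by
    intro c
    rw [h49_sigma_beta_some, h87_twist_coeff, h78_coe_j, hj1, mul_one]
  intro x x' hxx'
  have hc : (h49_sigma hab hℓ ζ x (heckeBetaBar Qb N ℓ (h78_j Qb N))).coeff (-1 : ℤ)
      = (h49_sigma hab hℓ ζ x' (heckeBetaBar Qb N ℓ (h78_j Qb N))).coeff (-1 : ℤ) := by
    rw [hxx']
  cases x with
  | none =>
    cases x' with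
    | none => rfl
    | some c' =>
      rw [hval0, hvalb] at hc
      exact absurd hc.symm (Units.ne_zero _)
  | some c =>
    cases x' with
    | none =>
      rw [hval0, hvalb] at hc
      exact absurd hc (Units.ne_zero _)
    | some c' =>
      rw [hvalb, hvalb] at hc
      have h1 : (ζ ^ (c : ℕ)) ^ (-1 : ℤ) = (ζ ^ (c' : ℕ)) ^ (-1 : ℤ) := Units.ext hc
      have h2 : ζ ^ (c : ℕ) = ζ ^ (c' : ℕ) := by
        rw [zpow_neg_one, zpow_neg_one] at h1
        exact inv_injective h1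
      have h3 : (c : ℕ) = (c' : ℕ) := hζ.pow_inj c.2 c'.2 h2
      rw [Fin.ext h3]

end Sigma

/-- **Row K1**, with the degree `[F(Nℓ) : F(N)] = ℓ + 1` as a hypothesis. -/
theorem h49_K1_of_deg (N : ℕ) [NeZero N] (ℓ : ℕ) [NeZero ℓ] (hℓ : ℓ.Prime) (hℓN : ¬ ℓ ∣ N)
    (hdeg : finrankAlong Qb (heckeAlphaBar Qb N ℓ) = ℓ + 1)
    (ζ : Qbˣ) (hζ : IsPrimitiveRoot ζ ℓ) (y : modularFunctionFieldBar N) :
    letI := algebraAlong (heckeAlphaBar Qb N ℓ)
    qExpand Qb ℓ
        ((Algebra.norm (modularFunctionFieldBar N) (heckeBetaBar Qb N ℓ y) :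
          modularFunctionFieldBar N) : LaurentSeries Qb)
      = qExpand Qb ℓ (qExpand Qb ℓ (y : LaurentSeries Qb)) *
          ∏ b ∈ Finset.range ℓ, h87_twist (ζ ^ b) (y : LaurentSeries Qb) := by
  obtain ⟨a, b, hab⟩ := h49_exists_bezout ((Nat.Prime.coprime_iff_not_dvd hℓ).mpr hℓN)
  have key := h49_norm_along (heckeAlphaBar Qb N ℓ) hdeg (h49_sigma hab hℓ ζ)
    (h49_sigma_injective hab hℓ ζ hζ)
    (fun x x' e => (h49_sigma_alpha hab hℓ ζ hζ.pow_eq_one x e).trans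
      (h49_sigma_alpha hab hℓ ζ hζ.pow_eq_one x' e).symm) (heckeBetaBar Qb N ℓ y)
  rw [h49_sigma_alpha hab hℓ ζ hζ.pow_eq_one, h49_sigma_beta_none] at key
  rw [key]
  congr 1
  rw [← Fin.prod_univ_eq_prod_range (fun b => h87_twist (ζ ^ b) (y : LaurentSeries Qb)) ℓ]
  exact Finset.prod_congr rfl fun c _ => h49_sigma_beta_some hab hℓ ζ c y

end Fermat.Agent.S37
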