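import Mathlib
import Fermat.Agent.S37.h19_DEG
import Fermat.Agent.S37.h49_K1

/-!
# S37, row K1 (final, unconditional): `N(y(q^ℓ))(q^ℓ) = y(q^(ℓ²)) ∏_{b<ℓ} y(ζ^b q)`
-/

set_option autoImplicit false
set_option synthInstance.maxHeartbeats 400000

noncomputable section

open ModularCurve AlgebraicCurve IntermediateField

namespace Fermat.Agent.S37

open Fermat.Agent.S24

local notation "Qb" => AlgebraicClosure ℚ

/-- **Row K1** (statement verbatim from the S37 skeleton `h87_row_K1`). -/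
theorem h49_K1 (N : ℕ) [NeZero N] (ℓ : ℕ) [NeZero ℓ] (hℓ : ℓ.Prime) (hℓN : ¬ ℓ ∣ N)
    (ζ : Qbˣ) (hζ : IsPrimitiveRoot ζ ℓ) (y : modularFunctionFieldBar N) :
    letI := algebraAlong (heckeAlphaBar Qb N ℓ)
    qExpand Qb ℓ
        ((Algebra.norm (modularFunctionFieldBar N) (heckeBetaBar Qb N ℓ y) :
          modularFunctionFieldBar N) : LaurentSeries Qb)
      = qExpand Qb ℓ (qExpand Qb ℓ (y : LaurentSeries Qb)) *
          ∏ b ∈ Finset.range ℓ, h87_twist (ζ ^ b) (y : LaurentSeries Qb) :=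
  h49_K1_of_deg N ℓ hℓ hℓN (h19_DEG N ℓ hℓ hℓN) ζ hζ y

/-- The swap, packaged existentially (for consumers of `h76_K1_of_swap`). -/
theorem h49_exists_swap (N : ℕ) [NeZero N] (ℓ : ℕ) [NeZero ℓ] (hℓ : ℓ.Prime) (hℓN : ¬ ℓ ∣ N) :
    ∃ w : ↥(modularFunctionFieldBar (N * ℓ)) →+* ↥(modularFunctionFieldBar (N * ℓ)),
      (∀ y : ↥(modularFunctionFieldBar N), w (heckeAlphaBar Qb N ℓ y) = heckeBetaBar Qb N ℓ y) ∧
      (∀ y : ↥(modularFunctionFieldBar N), w (heckeBetaBar Qb N ℓ y) = heckeAlphaBar Qb N ℓ y) := by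
  obtain ⟨a, b, hab⟩ := h49_exists_bezout ((Nat.Prime.coprime_iff_not_dvd hℓ).mpr hℓN)
  exact ⟨h49_swapF hab h78_iota hℓ, h49_swapF_alpha hab h78_iota hℓ,
    h49_swapF_beta hab h78_iota hℓ⟩

end Fermat.Agent.S37
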