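import Mathlib
import Fermat.Prelude.Def_ModularCurve_ReductionModL
import Fermat.Agent.S18.h39_Mod
import Fermat.Agent.S18.h39_PlaceRedOfChart
import Fermat.Agent.S18.GR_RedAPI
import Fermat.Agent.S37.h62_PGI

/-!
# S37, row 367 slice (AD) (helper60): the adapter from the S18 good-reduction layer to the
prelude's `ReductionInputsModL`

For a prime `ℓ ∤ M` and a valuation ring `A` of `Q̄` over `ℓ`, as soon as level `M` carries a chart
(`ℓ ≥ 5`, or `2 ∣ M`, or `3 ∣ M`), the prelude's reduction inputs hold at level `M`: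

* `h60_isPlaceRed_of_placeRed` : the map `r0` of any `h39_PlaceRed` of a modular reduction datum
  is an `IsPlaceReductionModL`;
* `h60_exists_chart` : the chart at level `M`;
* `h60_exists_placeReduction` : `∃ r, IsPlaceReductionModL A M r`;
* `h60_redInputs` : `ReductionInputsModL A M`.
-/

set_option autoImplicit false
set_option synthInstance.maxHeartbeats 400000

noncomputable section

open ModularCurve AlgebraicCurve IntermediateField CongruenceSubgroup
open scoped MatrixGroups

namespace Fermat.Agent.S37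

open Fermat.Agent.S24 Fermat.Agent.S18

local notation "Qb" => AlgebraicClosure ℚ

/-- The place map of a place reduction of a modular reduction datum (with a weak chart, to
know that all places have degree one on both sides) is a place reduction in the prelude's
sense. -/
theorem h60_isPlaceRed_of_placeRed (M : ℕ) [NeZero M] (A : ValuationSubring Qb)
    [IsAlgClosed (IsLocalRing.ResidueField A)]
    {R : h39_RedDatum Qb ↥(modularFunctionFieldBar M) (IsLocalRing.ResidueField A)
      ↥(modularFunctionFieldFullC (IsLocalRing.ResidueField A) M)}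
    (h : h54_IsModRed M A R) {x : ↥(modularFunctionFieldBar M)} (hx : h39_WeakChart R x)
    (S : h39_PlaceRed R) : IsPlaceReductionModL A M S.r0 := by
  have hK : h75_IsChart Qb x := h39_weakChart_isChart R hx
  have hk : h75_IsChart (IsLocalRing.ResidueField A) (R.redF x) := h39_weakChart_isChart_red R hx
  refine ⟨fun P => ?_, ?_⟩
  · rw [h75_deg_eq_one hk, h75_deg_eq_one hK]
  · intro y hy hyk hne D hD Q
    have hint : ((⟨coeffMap A.subtype y, hy⟩ : ↥(modularFunctionFieldBar M)) : LaurentSeries Qb)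
        = coeffMap A.subtype y := rfl
    have hmem : (⟨coeffMap A.subtype y, hy⟩ : ↥(modularFunctionFieldBar M)) ∈ R.O :=
      h.mem_of_integral _ y hint
    have hred : R.red ⟨⟨coeffMap A.subtype y, hy⟩, hmem⟩
        = (⟨coeffMap (IsLocalRing.residue A) y, hyk⟩ :
            ↥(modularFunctionFieldFullC (IsLocalRing.ResidueField A) M)) :=
      Subtype.ext (h.red_of_integral _ y hint hmem)
    have hne' : R.red ⟨⟨coeffMap A.subtype y, hy⟩, hmem⟩ ≠ 0 := by
      rw [hred]
      intro h0
      exact hne (congrArg Subtype.val h0)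
    have := S.compat _ hmem hne' D hD Q
    rw [hred] at this
    exact this

/-- Level `M` carries a chart as soon as `ℓ ≥ 5`, or `2 ∣ M`, or `3 ∣ M`. -/
theorem h60_exists_chart (M : ℕ) [NeZero M] {ℓ : ℕ} [Fact ℓ.Prime] (hℓM : ¬ ℓ ∣ M)
    (A : ValuationSubring Qb) (hA : A.LiesOverPrime ℓ) (hch : 5 ≤ ℓ ∨ 2 ∣ M ∨ 3 ∣ M) :
    ∃ x : ↥(modularFunctionFieldBar M), h39_Chart (h39_modRed M hℓM A hA) x := by
  rcases hch with h5 | h2 | h3
  · exact ⟨_, h39_modRed_chart_j M hℓM A hA h5⟩
  · exact h39_modRed_chart_h2 M hℓM A hA h2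
  · exact h39_modRed_chart_h3 M hℓM A hA h3

/-- A place reduction at a level carrying a chart. -/
theorem h60_exists_placeReduction (M : ℕ) [NeZero M] {ℓ : ℕ} [Fact ℓ.Prime] (hℓM : ¬ ℓ ∣ M)
    (A : ValuationSubring Qb) (hA : A.LiesOverPrime ℓ) (hch : 5 ≤ ℓ ∨ 2 ∣ M ∨ 3 ∣ M) :
    ∃ r, IsPlaceReductionModL A M r := by
  have hk : IsAlgClosed (IsLocalRing.ResidueField A) := h19_residueField_isAlgClosed A
  obtain ⟨x, hx⟩ := h60_exists_chart M hℓM A hA hch
  obtain ⟨S⟩ := h39_nonempty_placeRed_of_chart (h39_modRed M hℓM A hA) hx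
  exact ⟨S.r0, h60_isPlaceRed_of_placeRed M A (h39_modRed_spec M hℓM A hA)
    (h39_modRed_weakChart_j M hℓM A hA) S⟩

/-- **(AD)** the prelude's reduction inputs hold at every level `M` prime to `ℓ` carrying a
chart (`ℓ ≥ 5`, or `2 ∣ M`, or `3 ∣ M`). -/
theorem h60_redInputs (M : ℕ) [NeZero M] {ℓ : ℕ} [Fact ℓ.Prime] (hℓM : ¬ ℓ ∣ M)
    (A : ValuationSubring Qb) (hA : A.LiesOverPrime ℓ) (hch : 5 ≤ ℓ ∨ 2 ∣ M ∨ 3 ∣ M) :
    ReductionInputsModL A M := by
  obtain ⟨r, hr⟩ := h60_exists_placeReduction M hℓM A hA hch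
  exact ⟨r, hr, h62_PGI M hℓM A hA⟩

end Fermat.Agent.S37

end
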