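import Mathlib
import Fermat.Prelude.Def_AlgebraicCurve_Correspondence
import Fermat.Prelude.Def_ModularCurve_HeckeOperator
import Fermat.Agent.S24.h73_Diff
import Fermat.Agent.S24.h24_Fibre
import Fermat.Agent.S24.h78_Fibres

/-!
# S37, row LVL: the pull-back `J₀(N) → J₀(N c)` is injective on torsion prime to the degree

* `h70_const_of_ord_zero`: in a function field over an algebraically closed field of
  characteristic zero, a nonzero function without zeros and poles is constant;
* `h70_exists_place_restrict`: when `F → F'` is bijective every place of `F` is a restriction;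
* `h70_lvl_alg`: the generic statement for an integral extension `F'/F` of function fields;
* `h70_lvl_along`: the same along an algebra homomorphism;
* `h70_LVL`: the row statement for `heckeAlphaBar`.
-/

set_option autoImplicit false
set_option synthInstance.maxHeartbeats 400000

noncomputable section

open ModularCurve AlgebraicCurve IntermediateField

namespace Fermat.Agent.S37

open Fermat.Agent.S24

local notation "Qb" => AlgebraicClosure ℚ

section Generic

variable {K F F' : Type*} [Field K] [Field F] [Field F'] [Algebra K F] [Algebra K F']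

/-- A nonzero function without zeros and poles is constant. -/
theorem h70_const_of_ord_zero [IsAlgClosed K] [CharZero K] (hF : h73_IsFF K F) (h : F)
    (hord : ∀ v : Place K F, v.ord h = 0) : h ∈ Set.range (algebraMap K F) := by
  by_contra hmem
  have ht : Transcendental K h := h24_transcendental_of_not_mem h hmem
  have : FiniteDimensional K⟮h⟯ F := h73_finite_of_transcendental hF ht
  obtain ⟨s, hs, hsum⟩ := h24_fibre_main h ht (0 : K)
  simp only [map_zero, sub_zero] at hs hsum
  have h0 : ∑ v ∈ s, v.ord h = 0 := Finset.sum_eq_zero (fun v _ => hord v)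
  rw [h0] at hsum
  have hpos : 0 < Module.finrank K⟮h⟯ F := Module.finrank_pos
  have : (0 : ℤ) < (Module.finrank K⟮h⟯ F : ℤ) := by exact_mod_cast hpos
  omega

variable [Algebra F F'] [IsScalarTower K F F'] [Algebra.IsIntegral F F']

/-- When `F → F'` is surjective, every place of `F` is the restriction of a place of `F'`. -/
theorem h70_exists_place_restrict (hsurj : Function.Surjective (algebraMap F F'))
    (v : Place K F) : ∃ w : Place K F', w.restrict F = v := by
  have hinj : Function.Injective (algebraMap F F') := (algebraMap F F').injective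
  let e : F ≃+* F' := RingEquiv.ofBijective (algebraMap F F') ⟨hinj, hsurj⟩
  have he : ∀ x : F, e x = algebraMap F F' x := fun _ => rfl
  have hes : ∀ x : F, e.symm (algebraMap F F' x) = x := fun x => e.symm_apply_apply x
  let A : ValuationSubring F' := v.toValuationSubring.comap (e.symm : F' →+* F)
  have hA : ∀ y : F', y ∈ A ↔ e.symm y ∈ v.toValuationSubring := fun _ => Iff.rfl
  let ψ : v.toValuationSubring →+* A :=
    { toFun := fun x => ⟨algebraMap F F' (x : F), by rw [hA, hes]; exact x.2⟩
      map_one' := Subtype.ext (map_one _)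
      map_mul' := fun x y => Subtype.ext (map_mul _ _ _)
      map_zero' := Subtype.ext (map_zero _)
      map_add' := fun x y => Subtype.ext (map_add _ _ _) }
  have hψ : Function.Surjective ψ := by
    intro y
    refine ⟨⟨e.symm (y : F'), (hA _).mp y.2⟩, Subtype.ext ?_⟩
    show algebraMap F F' (e.symm (y : F')) = (y : F')
    rw [← he, e.apply_symm_apply]
  let w : Place K F' :=
    { toValuationSubring := A
      algebraMap_mem' := fun a => by
        rw [hA, IsScalarTower.algebraMap_apply K F F', hes]
        exact v.algebraMap_mem' a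
      ne_top' := by
        intro htop
        apply v.ne_top'
        refine SetLike.ext fun x => ⟨fun _ => ValuationSubring.mem_top x, fun _ => ?_⟩
        have h1 : algebraMap F F' x ∈ A := by rw [htop]; exact ValuationSubring.mem_top _
        rw [hA, hes] at h1
        exact h1
      isPrincipalIdealRing' := IsPrincipalIdealRing.of_surjective ψ hψ }
  refine ⟨w, Place.ext ?_⟩
  refine SetLike.ext fun x => ?_
  rw [Place.restrict_toValuationSubring, ValuationSubring.mem_comap]
  show algebraMap F F' x ∈ A ↔ x ∈ v.toValuationSubring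
  rw [hA, hes]

/-- **LVL, generic form.** If `m • D` and the pull-back of `D` to `F'` are principal and `m` is
prime to `[F' : F]`, then `D` is principal. -/
theorem h70_lvl_alg [IsAlgClosed K] [CharZero K] [HasPrincipalDivisors K F']
    (hF' : h73_IsFF K F') (D : Divisor K F) (m : ℕ)
    (hm : Nat.Coprime m (Module.finrank F F')) (hmD : (m • D).IsPrincipal)
    (hD : (Divisor.pullback F' D).IsPrincipal) : D.IsPrincipal := by
  obtain ⟨g, hg, hDg⟩ := hD
  rcases Nat.eq_zero_or_pos m with rfl | hmpos
  · -- `[F' : F] = 1`
    have hd : Module.finrank F F' = 1 := (Nat.coprime_zero_left _).mp hm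
    have hsurj : Function.Surjective (algebraMap F F') := by
      intro y
      have h1 : (⊥ : Subalgebra F F') = ⊤ := Subalgebra.bot_eq_top_of_finrank_eq_one hd
      have h2 : y ∈ (⊥ : Subalgebra F F') := by rw [h1]; exact Algebra.mem_top
      exact Algebra.mem_bot.mp h2
    obtain ⟨g', rfl⟩ := hsurj g
    have hg' : g' ≠ 0 := fun h0 => hg (by rw [h0, map_zero])
    refine ⟨g', hg', fun v => ?_⟩
    obtain ⟨w, rfl⟩ := h70_exists_place_restrict hsurj v
    have h1 := hDg w
    rw [Divisor.pullback_apply, Place.ord_restrict] at h1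
    have hepos : 0 < Place.ramificationIndex (F := F) w := w.ramificationIndex_pos (F := F)
    have hne : ((Place.ramificationIndex (F := F) w : ℕ) : ℤ) ≠ 0 := by exact_mod_cast hepos.ne'
    exact mul_left_cancel₀ hne h1
  · obtain ⟨u, hu, hDu⟩ := hmD
    have hDu' : ∀ v : Place K F, (m : ℤ) * D v = v.ord u := by
      intro v
      rw [← hDu v, Finsupp.smul_apply, nsmul_eq_mul]
    -- `u = κ g^m` in `F'`
    have hu' : algebraMap F F' u ≠ 0 := fun h0 => hu ((map_eq_zero _).mp h0)
    have hgm : g ^ m ≠ 0 := pow_ne_zero m hg
    have hord : ∀ w : Place K F', w.ord (algebraMap F F' u * (g ^ m)⁻¹) = 0 := by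
      intro w
      rw [w.ord_mul hu' (inv_ne_zero hgm), w.ord_inv, ← zpow_natCast, w.ord_zpow,
        Place.ord_restrict, ← hDu', ← hDg w, Divisor.pullback_apply]
      ring
    obtain ⟨κ, hκ⟩ := h70_const_of_ord_zero hF' _ hord
    obtain ⟨κ₀, hκ₀⟩ := IsAlgClosed.exists_pow_nat_eq κ hmpos
    have hαu : algebraMap F F' u = (algebraMap K F' κ₀ * g) ^ m := by
      rw [mul_pow, ← map_pow, hκ₀, hκ, inv_mul_cancel_right₀ hgm]
    -- norm down
    have hnorm : u ^ Module.finrank F F' = (Algebra.norm F (algebraMap K F' κ₀ * g)) ^ m := by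
      rw [← map_pow, ← hαu, Algebra.norm_algebraMap]
    set G : F := Algebra.norm F (algebraMap K F' κ₀ * g) with hG
    have hG0 : G ≠ 0 := by
      intro h0
      rw [h0, zero_pow hmpos.ne'] at hnorm
      exact pow_ne_zero _ hu hnorm
    have hdD : ∀ v : Place K F, (Module.finrank F F' : ℤ) * D v = v.ord G := by
      intro v
      have h1 : v.ord (u ^ Module.finrank F F') = v.ord (G ^ m) := by rw [hnorm]
      rw [← zpow_natCast, ← zpow_natCast, v.ord_zpow, v.ord_zpow, ← hDu'] at h1
      have hm0 : (m : ℤ) ≠ 0 := by exact_mod_cast hmpos.ne'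
      apply mul_left_cancel₀ hm0
      rw [← h1]
      ring
    -- Bézout
    have hbez : (m : ℤ) * Nat.gcdA m (Module.finrank F F')
        + (Module.finrank F F' : ℤ) * Nat.gcdB m (Module.finrank F F') = 1 := by
      have h1 := Nat.gcd_eq_gcd_ab m (Module.finrank F F')
      rw [hm.gcd_eq_one] at h1
      exact_mod_cast h1.symm
    refine ⟨u ^ Nat.gcdA m (Module.finrank F F') * G ^ Nat.gcdB m (Module.finrank F F'),
      mul_ne_zero (zpow_ne_zero _ hu) (zpow_ne_zero _ hG0), fun v => ?_⟩
    rw [v.ord_mul (zpow_ne_zero _ hu) (zpow_ne_zero _ hG0), v.ord_zpow, v.ord_zpow, ← hDu',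
      ← hdD]
    calc D v = ((m : ℤ) * Nat.gcdA m (Module.finrank F F')
          + (Module.finrank F F' : ℤ) * Nat.gcdB m (Module.finrank F F')) * D v := by
          rw [hbez, one_mul]
      _ = _ := by ring

end Generic

section Along

variable {K F F' : Type*} [Field K] [Field F] [Field F'] [Algebra K F] [Algebra K F']

/-- **LVL along an algebra homomorphism.** -/
theorem h70_lvl_along [IsAlgClosed K] [CharZero K] [HasPrincipalDivisors K F']
    (hF' : h73_IsFF K F') (φ : F →ₐ[K] F') (hφ : φ.toRingHom.IsIntegral)
    (D : Divisor K F) (m : ℕ) (hm : Nat.Coprime m (finrankAlong K φ))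
    (hmD : (m • D).IsPrincipal) (hD : (Divisor.pullbackAlong φ hφ D).IsPrincipal) :
    D.IsPrincipal := by
  let _ := algebraAlong φ
  have := isScalarTower_along φ
  have := isIntegral_along φ hφ
  exact h70_lvl_alg hF' D m hm hmD hD

end Along

/-- **[LVL]** injectivity of the pull-back `J₀(N) → J₀(N c)` on torsion prime to the degree. -/
theorem h70_LVL (N : ℕ) [NeZero N] (c : ℕ) [NeZero c]
    [HasPrincipalDivisors Qb (modularFunctionFieldBar (N * c))]
    (hα : (heckeAlphaBar Qb N c).toRingHom.IsIntegral)
    (D : Divisor Qb (modularFunctionFieldBar N)) (m : ℕ)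
    (hm : Nat.Coprime m (finrankAlong Qb (heckeAlphaBar Qb N c)))
    (hmD : (m • D).IsPrincipal)
    (hD : (Divisor.pullbackAlong (heckeAlphaBar Qb N c) hα D).IsPrincipal) :
    D.IsPrincipal :=
  h70_lvl_along ⟨h59_jbar (N * c), h78_finiteDimensional (N * c)⟩
    (heckeAlphaBar Qb N c) hα D m hm hmD hD

end Fermat.Agent.S37

end
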