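import Mathlib
import Fermat.Prelude.Def_AlgebraicCurve_DivisorClassGroup

/-!
# S37: the bounded-homomorphism lemma

Two additive maps `Div F → Div Fb` which are positive and multiply degrees by a constant, and
which agree on principal divisors, agree on all divisors of degree zero - provided every divisor
of large degree on `F` is linearly equivalent to an effective one (weak Riemann inequality).

This replaces divisibility of `Pic⁰` in uniqueness arguments for reduction maps.
-/

set_option autoImplicit false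

open AlgebraicCurve

namespace Fermat.Agent.S37

variable {K F k Fb : Type*} [Field K] [Field F] [Algebra K F] [Field k] [Field Fb] [Algebra k Fb]

/-- Positive additive maps between divisor groups multiplying degrees by `c`. -/
structure h87_PosHom (δ : Divisor K F →+ Divisor k Fb) (c : ℤ) : Prop where
  nonneg : ∀ (P : Place K F) (Q : Place k Fb), 0 ≤ δ (Finsupp.single P 1) Q
  degree : ∀ D : Divisor K F, Divisor.degree (δ D) = c * Divisor.degree D

theorem h87_degree_eq_sum (hdeg : ∀ v : Place K F, v.deg = 1) (D : Divisor K F) :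
    Divisor.degree D = D.sum (fun _ n => n) := by
  induction D using Finsupp.induction with
  | zero => simp
  | single_add v n D hv hn ih =>
      rw [map_add, ih, Divisor.degree_single, hdeg v, Finsupp.sum_add_index' (by simp)
        (by intros; rfl), Finsupp.sum_single_index (by rfl)]
      simp

theorem h87_apply_le_degree (hdeg : ∀ v : Place K F, v.deg = 1) (D : Divisor K F)
    (hD : ∀ P, 0 ≤ D P) (P : Place K F) : D P ≤ Divisor.degree D := by
  rw [h87_degree_eq_sum hdeg, Finsupp.sum]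
  by_cases hP : P ∈ D.support
  · exact Finset.single_le_sum (f := fun v => D v) (fun v _ => hD v) hP
  · rw [Finsupp.notMem_support_iff.mp hP]
    exact Finset.sum_nonneg fun v _ => hD v

namespace h87_PosHom

variable {δ : Divisor K F →+ Divisor k Fb} {c : ℤ}

theorem nonneg_of_nonneg (h : h87_PosHom δ c) (D : Divisor K F) (hD : ∀ P, 0 ≤ D P)
    (Q : Place k Fb) : 0 ≤ δ D Q := by
  induction D using Finsupp.induction with
  | zero => simp
  | single_add v n D hv hn ih =>
      have hDv : D v = 0 := Finsupp.notMem_support_iff.mp hv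
      have hn0 : 0 ≤ n := by
        have := hD v
        rw [Finsupp.add_apply, Finsupp.single_eq_same, hDv, add_zero] at this
        exact this
      have hD' : ∀ P, 0 ≤ D P := by
        intro P
        by_cases hP : P = v
        · rw [hP, hDv]
        · have := hD P
          rwa [Finsupp.add_apply, Finsupp.single_eq_of_ne hP, zero_add] at this
      have h1 : δ (Finsupp.single v n) = n • δ (Finsupp.single v 1) := by
        rw [← map_zsmul, Finsupp.smul_single, smul_eq_mul, mul_one]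
      rw [map_add, Finsupp.add_apply, h1, Finsupp.smul_apply, smul_eq_mul]
      exact add_nonneg (mul_nonneg hn0 (h.nonneg v Q)) (ih hD')

theorem le_of_nonneg (h : h87_PosHom δ c) (hdeg : ∀ Q : Place k Fb, Q.deg = 1)
    (D : Divisor K F) (hD : ∀ P, 0 ≤ D P) (Q : Place k Fb) :
    δ D Q ≤ c * Divisor.degree D := by
  rw [← h.degree D]
  exact h87_apply_le_degree hdeg (δ D) (fun Q' => h.nonneg_of_nonneg D hD Q') Q

end h87_PosHom

/-- **Bounded-homomorphism lemma.** -/
theorem h87_bounded_hom [HasPrincipalDivisors K F]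
    (hdegF : ∀ P : Place K F, P.deg = 1) (hdegFb : ∀ Q : Place k Fb, Q.deg = 1)
    (heff : ∃ n₀ : ℤ, ∀ D : Divisor K F, n₀ ≤ Divisor.degree D →
      ∃ f : F, f ≠ 0 ∧ ∀ P : Place K F, 0 ≤ D P + P.ord f)
    (δ₁ δ₂ : Divisor K F →+ Divisor k Fb) (c₁ c₂ : ℤ) (h₁ : h87_PosHom δ₁ c₁)
    (h₂ : h87_PosHom δ₂ c₂)
    (hprin : ∀ D ∈ Divisor.principal (K := K) (F := F), δ₁ D = δ₂ D)
    (D : Divisor K F) (hD : Divisor.degree D = 0) : δ₁ D = δ₂ D := by
  classical
  rcases isEmpty_or_nonempty (Place K F) with hemp | ⟨⟨P₀⟩⟩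
  · have : D = 0 := Finsupp.ext fun P => (hemp.false P).elim
    rw [this, map_zero, map_zero]
  obtain ⟨n₀, hn₀⟩ := heff
  set n₁ : ℕ := n₀.toNat with hn₁
  set E₀ : Divisor K F := Finsupp.single P₀ (n₁ : ℤ) with hE₀
  have hE₀deg : Divisor.degree E₀ = n₁ := by
    rw [hE₀, Divisor.degree_single, hdegF]
    simp
  have hn₀le : n₀ ≤ (n₁ : ℤ) := by
    rw [hn₁]
    exact Int.self_le_toNat n₀
  ext Q
  -- the bound
  have key : ∀ m : ℕ, |(m : ℤ) * (δ₁ D Q - δ₂ D Q) + (δ₁ E₀ Q - δ₂ E₀ Q)|
      ≤ |c₁ * n₁| + |c₂ * n₁| := by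
    intro m
    set Dm : Divisor K F := m • D + E₀ with hDm
    have hDmdeg : Divisor.degree Dm = n₁ := by
      rw [hDm, map_add, map_nsmul, hD, smul_zero, zero_add, hE₀deg]
    obtain ⟨f, hf, hfpos⟩ := hn₀ Dm (by rw [hDmdeg]; exact hn₀le)
    obtain ⟨G, hG, hGdeg⟩ := HasPrincipalDivisors.exists_divisor (K := K) f hf
    have hGprin : G ∈ Divisor.principal (K := K) (F := F) := ⟨f, hf, hG⟩
    set Em : Divisor K F := Dm + G with hEm
    have hEmpos : ∀ P, 0 ≤ Em P := by
      intro P
      rw [hEm, Finsupp.add_apply, hG P]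
      exact hfpos P
    have hEmdeg : Divisor.degree Em = n₁ := by
      rw [hEm, map_add, hDmdeg, hGdeg, add_zero]
    have hb1 := h₁.le_of_nonneg hdegFb Em hEmpos Q
    have hb2 := h₂.le_of_nonneg hdegFb Em hEmpos Q
    have hp1 := h₁.nonneg_of_nonneg Em hEmpos Q
    have hp2 := h₂.nonneg_of_nonneg Em hEmpos Q
    rw [hEmdeg] at hb1 hb2
    have hexp : ∀ δ : Divisor K F →+ Divisor k Fb,
        δ Em Q = (m : ℤ) * δ D Q + δ E₀ Q + δ G Q := by
      intro δ
      rw [hEm, hDm, map_add, map_add, map_nsmul, Finsupp.add_apply, Finsupp.add_apply,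
        Finsupp.smul_apply, nsmul_eq_mul]
    have hdiff : (m : ℤ) * (δ₁ D Q - δ₂ D Q) + (δ₁ E₀ Q - δ₂ E₀ Q) = δ₁ Em Q - δ₂ Em Q := by
      rw [hexp δ₁, hexp δ₂, hprin G hGprin]
      ring
    rw [hdiff]
    have h1 : |δ₁ Em Q - δ₂ Em Q| ≤ |δ₁ Em Q| + |δ₂ Em Q| := abs_sub _ _
    have h2 : |δ₁ Em Q| ≤ |c₁ * n₁| := by
      rw [abs_of_nonneg hp1]
      exact hb1.trans (le_abs_self _)
    have h3 : |δ₂ Em Q| ≤ |c₂ * n₁| := by
      rw [abs_of_nonneg hp2]
      exact hb2.trans (le_abs_self _)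
    linarith
  -- conclude
  by_contra hne
  have hx : δ₁ D Q - δ₂ D Q ≠ 0 := sub_ne_zero.mpr hne
  set x : ℤ := δ₁ D Q - δ₂ D Q with hxdef
  set y : ℤ := δ₁ E₀ Q - δ₂ E₀ Q with hydef
  set B : ℤ := |c₁ * n₁| + |c₂ * n₁| with hB
  have hx1 : 1 ≤ |x| := Int.one_le_abs hx
  have hB0 : 0 ≤ B := by positivity
  have hkey := key (B + |y| + 1).toNat
  have hcast : (((B + |y| + 1).toNat : ℕ) : ℤ) = B + |y| + 1 :=
    Int.toNat_of_nonneg (by positivity)
  rw [hcast] at hkey
  have h4 : |(B + |y| + 1) * x| ≤ |(B + |y| + 1) * x + y| + |y| := by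
    have := abs_sub ((B + |y| + 1) * x + y) y
    simpa using this
  have h5 : |(B + |y| + 1) * x| = (B + |y| + 1) * |x| := by
    rw [abs_mul, abs_of_nonneg (by positivity : (0 : ℤ) ≤ B + |y| + 1)]
  have h6 : (B + |y| + 1) * 1 ≤ (B + |y| + 1) * |x| :=
    mul_le_mul_of_nonneg_left hx1 (by positivity)
  linarith

end Fermat.Agent.S37
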