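import Mathlib
import Fermat.Prelude.Def_AlgebraicCurve_Correspondence
import Fermat.Agent.S37.h87_BH

/-!
# S37: generic API around the bounded-homomorphism lemma

* closure properties of `h87_PosHom` (composition, sums, multiples) and the basic examples
  (semilinear automorphisms, push-forward of places along a degree-preserving map, pull-back and
  push-forward along a finite extension);
* `h87_bounded_hom_gen` : the bounded-homomorphism lemma with a generating set of principal
  divisors;
* `h87_pullPic0` : the pull-back on `Pic⁰` along an algebra homomorphism.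
-/

set_option autoImplicit false

noncomputable section

open AlgebraicCurve

namespace Fermat.Agent.S37

section PosHomAPI

variable {K F : Type*} [Field K] [Field F] [Algebra K F]
variable {K' F' : Type*} [Field K'] [Field F'] [Algebra K' F']
variable {K'' F'' : Type*} [Field K''] [Field F''] [Algebra K'' F'']

theorem h87_PosHom.comp {δ : Divisor K F →+ Divisor K' F'}
    {δ' : Divisor K' F' →+ Divisor K'' F''} {c c' : ℤ} (h : h87_PosHom δ c)
    (h' : h87_PosHom δ' c') : h87_PosHom (δ'.comp δ) (c' * c) where
  nonneg P Q := h'.nonneg_of_nonneg (δ (Finsupp.single P 1)) (h.nonneg P) Q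
  degree D := by
    rw [AddMonoidHom.comp_apply, h'.degree, h.degree, mul_assoc]

theorem h87_PosHom.add {δ δ' : Divisor K F →+ Divisor K' F'} {c c' : ℤ} (h : h87_PosHom δ c)
    (h' : h87_PosHom δ' c') : h87_PosHom (δ + δ') (c + c') where
  nonneg P Q := by
    rw [AddMonoidHom.add_apply, Finsupp.add_apply]
    exact add_nonneg (h.nonneg P Q) (h'.nonneg P Q)
  degree D := by
    rw [AddMonoidHom.add_apply, map_add, h.degree, h'.degree, add_mul]

theorem h87_PosHom.nsmul {δ : Divisor K F →+ Divisor K' F'} {c : ℤ} (h : h87_PosHom δ c)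
    (n : ℕ) : h87_PosHom (n • δ) (n * c) where
  nonneg P Q := by
    rw [AddMonoidHom.smul_apply, Finsupp.smul_apply, nsmul_eq_mul]
    exact mul_nonneg (Int.natCast_nonneg n) (h.nonneg P Q)
  degree D := by
    rw [AddMonoidHom.smul_apply, map_nsmul, h.degree, nsmul_eq_mul, mul_assoc]

theorem h87_posHom_smul (g : SemilinearAut K F) :
    h87_PosHom (DistribSMul.toAddMonoidHom (Divisor K F) g) 1 where
  nonneg P Q := by
    show 0 ≤ (g • (Finsupp.single P 1 : Divisor K F)) Q
    rw [SemilinearAut.smul_single]
    classical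
    rw [Finsupp.single_apply]
    split_ifs <;> simp
  degree D := by
    show Divisor.degree (g • D) = 1 * Divisor.degree D
    rw [SemilinearAut.degree_smul, one_mul]

theorem h87_posHom_mapDomain (r : Place K F → Place K' F') (hdeg : ∀ P, (r P).deg = P.deg) :
    h87_PosHom (Finsupp.mapDomain.addMonoidHom r : Divisor K F →+ Divisor K' F') 1 where
  nonneg P Q := by
    rw [Finsupp.mapDomain.addMonoidHom_apply, Finsupp.mapDomain_single]
    classical
    rw [Finsupp.single_apply]
    split_ifs <;> simp
  degree D := by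
    rw [one_mul, Finsupp.mapDomain.addMonoidHom_apply]
    induction D using Finsupp.induction with
    | zero => simp
    | single_add P n D _ _ ih =>
      rw [Finsupp.mapDomain_add, map_add, map_add, ih, Finsupp.mapDomain_single,
        Divisor.degree_single, Divisor.degree_single, hdeg]

theorem h87_posHom_pullbackAlong {F₁ : Type*} [Field F₁] [Algebra K F₁]
    [HasPrincipalDivisors K F₁] (φ : F →ₐ[K] F₁) (hφ : φ.toRingHom.IsIntegral)
    (hFI : FundamentalIdentityAlong K φ hφ) :
    h87_PosHom (Divisor.pullbackAlong φ hφ) (finrankAlong K φ) where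
  nonneg P Q := by
    rw [Divisor.pullbackAlong_apply]
    classical
    refine mul_nonneg (Int.natCast_nonneg _) ?_
    rw [Finsupp.single_apply]
    split_ifs <;> simp
  degree D := Divisor.degree_pullbackAlong φ hφ hFI D

theorem h87_posHom_pushforwardAlong {F₁ : Type*} [Field F₁] [Algebra K F₁]
    (φ : F →ₐ[K] F₁) (hφ : φ.toRingHom.IsIntegral) :
    h87_PosHom (Divisor.pushforwardAlong φ hφ) 1 where
  nonneg P Q := by
    rw [Divisor.pushforwardAlong_single]
    classical
    rw [Finsupp.single_apply]
    split_ifs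
    · exact mul_nonneg zero_le_one (Int.natCast_nonneg _)
    · exact le_rfl
  degree D := by
    rw [Divisor.degree_pushforwardAlong, one_mul]

end PosHomAPI

section Gen

variable {K F k Fb : Type*} [Field K] [Field F] [Algebra K F] [Field k] [Field Fb] [Algebra k Fb]

/-- The bounded-homomorphism lemma, with a generating set of principal divisors. -/
theorem h87_bounded_hom_gen [HasPrincipalDivisors K F]
    (hdegF : ∀ P : Place K F, P.deg = 1) (hdegFb : ∀ Q : Place k Fb, Q.deg = 1)
    (heff : ∃ n₀ : ℤ, ∀ D : Divisor K F, n₀ ≤ Divisor.degree D →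
      ∃ f : F, f ≠ 0 ∧ ∀ P : Place K F, 0 ≤ D P + P.ord f)
    (δ₁ δ₂ : Divisor K F →+ Divisor k Fb) (c₁ c₂ : ℤ) (h₁ : h87_PosHom δ₁ c₁)
    (h₂ : h87_PosHom δ₂ c₂) (G : Set (Divisor K F))
    (hgen : Divisor.principal (K := K) (F := F) ≤ AddSubgroup.closure G)
    (hG : ∀ D ∈ G, δ₁ D = δ₂ D)
    (D : Divisor K F) (hD : Divisor.degree D = 0) : δ₁ D = δ₂ D := by
  refine h87_bounded_hom hdegF hdegFb heff δ₁ δ₂ c₁ c₂ h₁ h₂ (fun E hE => ?_) D hD
  have hE' := hgen hE
  clear hE
  induction hE' using AddSubgroup.closure_induction with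
  | mem E hE => exact hG E hE
  | zero => rw [map_zero, map_zero]
  | add E E' _ _ hE hE' => rw [map_add, map_add, hE, hE']
  | neg E _ hE => rw [map_neg, map_neg, hE]

/-- The divisor of `g • f` is `g • div f`. -/
theorem h87_smul_isDiv (g : SemilinearAut K F) {D : Divisor K F} {f : F}
    (hD : ∀ P, D P = P.ord f) (P : Place K F) : (g • D) P = P.ord (g • f) := by
  rw [SemilinearAut.divisor_smul_apply, hD]
  have h := SemilinearAut.ord_smul g (g⁻¹ • P) f
  rw [smul_inv_smul] at h
  exact h.symm

end Gen

section Pull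

variable {K F F' : Type*} [Field K] [Field F] [Field F'] [Algebra K F] [Algebra K F']
  [HasPrincipalDivisors K F'] (φ : F →ₐ[K] F') (hφ : φ.toRingHom.IsIntegral)
  (hFI : FundamentalIdentityAlong K φ hφ)

/-- Pull-back of degree-zero divisors along `φ`. -/
def h87_pullDegZero :
    Divisor.degZero (K := K) (F := F) →+ Divisor.degZero (K := K) (F := F') :=
  ((Divisor.pullbackAlong φ hφ).domRestrict _).codRestrict _
    (fun D => Divisor.pullbackAlong_mem_degZero φ hφ hFI D.2)

@[simp]
theorem h87_coe_pullDegZero (D : Divisor.degZero (K := K) (F := F)) :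
    (h87_pullDegZero φ hφ hFI D : Divisor K F') = Divisor.pullbackAlong φ hφ (D : Divisor K F) :=
  rfl

/-- Pull-back on `Pic⁰` along `φ`. -/
def h87_pullPic0 : Pic0 K F →+ Pic0 K F' :=
  QuotientAddGroup.map _ _ (h87_pullDegZero φ hφ hFI) (by
    rintro ⟨D, hD0⟩ hD
    simp only [AddSubgroup.mem_addSubgroupOf] at hD ⊢
    exact Divisor.isPrincipal_pullbackAlong φ hφ hD)

theorem h87_pullPic0_mk (D : Divisor.degZero (K := K) (F := F)) :
    h87_pullPic0 φ hφ hFI (Pic0.mk D) = Pic0.mk (h87_pullDegZero φ hφ hFI D) :=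
  rfl

/-- The pull-back of the divisor of `f` is the divisor of `φ f`. -/
theorem h87_pullbackAlong_isDiv {D : Divisor K F} {f : F} (hD : ∀ P, D P = P.ord f)
    (W : Place K F') : Divisor.pullbackAlong φ hφ D W = W.ord (φ f) := by
  rw [Divisor.pullbackAlong_apply, hD, Place.ord_restrictAlong φ hφ W f]

end Pull

end Fermat.Agent.S37

end
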