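import Mathlib
import Fermat.Agent.S18
import Fermat.Agent.S37.h60_RedInputs
import Fermat.Agent.S37.h70_LVL
import Fermat.Agent.S37.h87_RhoGen
import Fermat.Agent.S37.h19_DEG
import Fermat.Agent.S37.h88_HICore
import Fermat.Agent.S37.h82_FI

/-!
# S37, row 367 slice (D) (helper60): injectivity of `red = reductionModL ∘ pull-back` on torsion

* `h60_FI_alpha` : the fundamental identity along the inclusion `α_c : F(N) → F(N c)`;
* `h60_pull_nsmul` / `h60_pull_eq_zero` : the pull-back on `Pic⁰` and principal divisors;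
* `h60_red_inj` : for `ℓ ∤ N c`, reduction inputs at level `N c`, `ℓ ∤ m` and `m` prime to the
  degree of `α_c`: an `m`-torsion class `x ∈ J₀(N)` with
  `reductionModL A (N c) (α_c^* x) = 0` vanishes  (S18 at level `N c` + row LVL);
* `h60_lvl N ℓ` : the auxiliary factor `c ∈ {1, 2, 3}` such that level `N c` carries a chart and
  `[F(N c) : F(N)]` is a power of `ℓ`;
* `h60_lvl_redInputs`, `h60_lvl_inj` : the reduction inputs at level `N · h60_lvl N ℓ` and clause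
  (d) of `h87_RedData` for `red := reductionModL A (N c) ∘ h87_pullPic0 α_c`.
-/

set_option autoImplicit false
set_option synthInstance.maxHeartbeats 400000

noncomputable section

open ModularCurve AlgebraicCurve IntermediateField CongruenceSubgroup
open scoped MatrixGroups

namespace Fermat.Agent.S37

open Fermat.Agent.S24 Fermat.Agent.S18

local notation "Qb" => AlgebraicClosure ℚ

/-- The fundamental identity along the inclusion `α_c : F(N) → F(N c)`. -/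
theorem h60_FI_alpha (N c : ℕ) [NeZero N] [NeZero c]
    [HasPrincipalDivisors Qb (modularFunctionFieldBar (N * c))] :
    FundamentalIdentityAlong Qb (heckeAlphaBar Qb N c) (h88_alphaIntegral N c) := by
  let _ := algebraAlong (heckeAlphaBar Qb N c)
  have := isScalarTower_along (heckeAlphaBar Qb N c)
  have : FiniteDimensional (modularFunctionFieldBar N) (modularFunctionFieldBar (N * c)) :=
    h88_finiteAlong_alpha N c
  exact h82_FI (h88_isFF N)

section Inj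

variable (N c : ℕ) [NeZero N] [NeZero c]
  [HasPrincipalDivisors Qb (modularFunctionFieldBar (N * c))]
  (hα : (heckeAlphaBar Qb N c).toRingHom.IsIntegral)
  (hFI : FundamentalIdentityAlong Qb (heckeAlphaBar Qb N c) hα)

/-- **(D)** generic form: injectivity of `reductionModL A (N c) ∘ α_c^*` on `m`-torsion, for
`ℓ ∤ m` and `m` prime to the degree of `α_c`. -/
theorem h60_red_inj {ℓ : ℕ} [Fact ℓ.Prime] (hℓ : ¬ ℓ ∣ N * c)
    (A : ValuationSubring Qb) (hA : A.LiesOverPrime ℓ) (hin : ReductionInputsModL A (N * c))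
    (m : ℕ) (hm : ¬ ℓ ∣ m)
    (hcop : Nat.Coprime m (finrankAlong Qb (heckeAlphaBar Qb N c)))
    (x : JZero N) (hmx : m • x = 0)
    (hx : reductionModL A (N * c) (h87_pullPic0 (heckeAlphaBar Qb N c) hα hFI x) = 0) :
    x = 0 := by
  have hy0 : h87_pullPic0 (heckeAlphaBar Qb N c) hα hFI x = 0 := by
    refine Fermat.Agent.S18.result (N * c) hℓ A hA hin m hm _ ?_ hx
    rw [← map_nsmul, hmx, map_zero]
  obtain ⟨D, rfl⟩ := Pic0.mk_surjective x
  rw [h87_pullPic0_mk] at hy0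
  have hpull : (Divisor.pullbackAlong (heckeAlphaBar Qb N c) hα
      (D : Divisor Qb (modularFunctionFieldBar N))).IsPrincipal := by
    have h1 := (QuotientAddGroup.eq_zero_iff _).mp hy0
    rw [AddSubgroup.mem_addSubgroupOf] at h1
    exact h1
  have hmD : (m • (D : Divisor Qb (modularFunctionFieldBar N))).IsPrincipal := by
    have h1 : Pic0.mk (m • D) = 0 := hmx
    have h2 := (QuotientAddGroup.eq_zero_iff _).mp h1
    rw [AddSubgroup.mem_addSubgroupOf] at h2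
    exact h2
  have hD : (D : Divisor Qb (modularFunctionFieldBar N)).IsPrincipal :=
    h70_LVL N c hα (D : Divisor Qb (modularFunctionFieldBar N)) m hcop hmD hpull
  exact (QuotientAddGroup.eq_zero_iff _).mpr (by
    rw [AddSubgroup.mem_addSubgroupOf]
    exact hD)

end Inj

/-! ## The auxiliary level -/

/-- The degree of `α_1 : F(N) → F(N · 1)` is `1`. -/
theorem h60_finrankAlong_one (N c : ℕ) [NeZero N] [NeZero c] (hc : c = 1) :
    finrankAlong Qb (heckeAlphaBar Qb N c) = 1 := by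
  subst hc
  have h := h19_finrank_tower N 1
  have hc1 : Nat.card (SL(2, ℤ) ⧸ Gamma0 (N * 1)) = Nat.card (SL(2, ℤ) ⧸ Gamma0 N) := by
    rw [mul_one]
  rw [h78_finrank N, h78_finrank (N * 1), hc1] at h
  have hpos : 0 < Nat.card (SL(2, ℤ) ⧸ Gamma0 N) := h54_card_pos N
  exact Nat.eq_of_mul_eq_mul_left hpos (by rw [h, mul_one])

/-- The degree of `α_q : F(N) → F(N q)` is `q + 1` for a prime `q ∤ N`. -/
theorem h60_finrankAlong_prime (N c : ℕ) [NeZero N] [NeZero c] (q : ℕ) (hq : q.Prime)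
    (hqN : ¬ q ∣ N) (hc : c = q) : finrankAlong Qb (heckeAlphaBar Qb N c) = q + 1 := by
  subst hc
  exact h19_DEG N c hq hqN

/-- The auxiliary level factor: `1` if level `N` already carries a chart at `ℓ`
(`ℓ ≥ 5`, or `2 ∣ N`, or `3 ∣ N`), else `2` for `ℓ = 3` and `3` for `ℓ = 2`. -/
def h60_lvl (N ℓ : ℕ) : ℕ := if 5 ≤ ℓ ∨ 2 ∣ N ∨ 3 ∣ N then 1 else if ℓ = 3 then 2 else 3

theorem h60_lvl_pos (N ℓ : ℕ) : 0 < h60_lvl N ℓ := by
  unfold h60_lvl
  split_ifs <;> norm_num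

instance h60_lvl_neZero (N ℓ : ℕ) : NeZero (h60_lvl N ℓ) := ⟨(h60_lvl_pos N ℓ).ne'⟩

theorem h60_lvl_cases (N ℓ : ℕ) [hℓ : Fact ℓ.Prime] (hℓN : ¬ ℓ ∣ N) :
    ((5 ≤ ℓ ∨ 2 ∣ N ∨ 3 ∣ N) ∧ h60_lvl N ℓ = 1) ∨
    (ℓ = 3 ∧ ¬ 2 ∣ N ∧ h60_lvl N ℓ = 2) ∨ (ℓ = 2 ∧ ¬ 3 ∣ N ∧ h60_lvl N ℓ = 3) := by
  unfold h60_lvl
  by_cases h1 : 5 ≤ ℓ ∨ 2 ∣ N ∨ 3 ∣ N
  · exact Or.inl ⟨h1, if_pos h1⟩
  · rw [if_neg h1]
    simp only [not_or, not_le] at h1
    obtain ⟨h5, h2, h3⟩ := h1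
    by_cases h33 : ℓ = 3
    · exact Or.inr (Or.inl ⟨h33, h2, if_pos h33⟩)
    · refine Or.inr (Or.inr ⟨?_, h3, if_neg h33⟩)
      have hp := hℓ.out
      have h2le := hp.two_le
      have h4 : ℓ ≠ 4 := by
        rintro rfl
        exact absurd hp (by decide)
      omega

theorem h60_lvl_not_dvd (N ℓ : ℕ) [hℓ : Fact ℓ.Prime] (hℓN : ¬ ℓ ∣ N) :
    ¬ ℓ ∣ N * h60_lvl N ℓ := by
  rcases h60_lvl_cases N ℓ hℓN with ⟨-, h⟩ | ⟨h3, -, h⟩ | ⟨h2, -, h⟩
  · rw [h, mul_one]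
    exact hℓN
  · rw [h]
    subst h3
    intro hd
    rcases (Nat.Prime.dvd_mul Nat.prime_three).1 hd with h' | h'
    · exact hℓN h'
    · omega
  · rw [h]
    subst h2
    intro hd
    rcases (Nat.Prime.dvd_mul Nat.prime_two).1 hd with h' | h'
    · exact hℓN h'
    · omega

theorem h60_lvl_chart (N ℓ : ℕ) [hℓ : Fact ℓ.Prime] (hℓN : ¬ ℓ ∣ N) :
    5 ≤ ℓ ∨ 2 ∣ N * h60_lvl N ℓ ∨ 3 ∣ N * h60_lvl N ℓ := by
  rcases h60_lvl_cases N ℓ hℓN with ⟨h1, h⟩ | ⟨-, -, h⟩ | ⟨-, -, h⟩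
  · rw [h, mul_one]
    exact h1
  · rw [h]
    exact Or.inr (Or.inl (Dvd.intro_left N rfl))
  · rw [h]
    exact Or.inr (Or.inr (Dvd.intro_left N rfl))

/-- `[F(N c) : F(N)]` is a power of `ℓ` for `c = h60_lvl N ℓ`. -/
theorem h60_lvl_degree (N ℓ : ℕ) [NeZero N] [hℓ : Fact ℓ.Prime] (hℓN : ¬ ℓ ∣ N) :
    ∃ e : ℕ, finrankAlong Qb (heckeAlphaBar Qb N (h60_lvl N ℓ)) = ℓ ^ e := by
  rcases h60_lvl_cases N ℓ hℓN with ⟨-, h⟩ | ⟨h3, h2N, h⟩ | ⟨h2, h3N, h⟩
  · exact ⟨0, by rw [h60_finrankAlong_one N _ h, pow_zero]⟩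
  · exact ⟨1, by rw [h60_finrankAlong_prime N _ 2 Nat.prime_two h2N h, h3]; norm_num⟩
  · exact ⟨2, by rw [h60_finrankAlong_prime N _ 3 Nat.prime_three h3N h, h2]; norm_num⟩

/-- The prelude's reduction inputs hold at level `N · h60_lvl N ℓ`. -/
theorem h60_lvl_redInputs (N : ℕ) [NeZero N] {ℓ : ℕ} [Fact ℓ.Prime] (hℓN : ¬ ℓ ∣ N)
    (A : ValuationSubring Qb) (hA : A.LiesOverPrime ℓ) :
    ReductionInputsModL A (N * h60_lvl N ℓ) :=
  h60_redInputs (N * h60_lvl N ℓ) (h60_lvl_not_dvd N ℓ hℓN) A hA (h60_lvl_chart N ℓ hℓN)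

/-- **(D)** clause (d) of `h87_RedData` for
`red := reductionModL A (N c) ∘ h87_pullPic0 α_c`, `c = h60_lvl N ℓ`: injectivity on `p`-power
torsion for every natural number `p` prime to `ℓ`. -/
theorem h60_lvl_inj (N : ℕ) [NeZero N] {ℓ : ℕ} [hℓ : Fact ℓ.Prime] (hℓN : ¬ ℓ ∣ N)
    (A : ValuationSubring Qb) (hA : A.LiesOverPrime ℓ) (p : ℕ) (hℓp : ¬ ℓ ∣ p)
    [HasPrincipalDivisors Qb (modularFunctionFieldBar (N * h60_lvl N ℓ))]
    (hα : (heckeAlphaBar Qb N (h60_lvl N ℓ)).toRingHom.IsIntegral)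
    (hFI : FundamentalIdentityAlong Qb (heckeAlphaBar Qb N (h60_lvl N ℓ)) hα)
    (x : JZero N) (hx : ∃ n : ℕ, p ^ n • x = 0)
    (hred : reductionModL A (N * h60_lvl N ℓ)
      (h87_pullPic0 (heckeAlphaBar Qb N (h60_lvl N ℓ)) hα hFI x) = 0) : x = 0 := by
  obtain ⟨n, hn⟩ := hx
  obtain ⟨e, he⟩ := h60_lvl_degree N ℓ hℓN
  have hcop : Nat.Coprime p ℓ := ((Nat.Prime.coprime_iff_not_dvd hℓ.out).2 hℓp).symm
  refine h60_red_inj N (h60_lvl N ℓ) hα hFI (h60_lvl_not_dvd N ℓ hℓN) A hA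
    (h60_lvl_redInputs N hℓN A hA) (p ^ n) (fun hd => hℓp (hℓ.out.dvd_of_dvd_pow hd)) ?_ x hn hred
  rw [he]
  exact Nat.Coprime.pow n e hcop

end Fermat.Agent.S37

end
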