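import Mathlib
import Fermat.Prelude.Def_FLTPrelim_Ramification
import Fermat.Prelude.Def_EllipticCurve_FrobeniusTrace

/-!
# S37: inertia and Frobenius elements on a valuation ring and its residue field; roots of unity

* `h87_inertia_lift` : an element of the inertia group preserves `A` and acts trivially on the
  residue field;
* `h87_frobenius_lift` : a Frobenius element preserves `A` and acts as `x ↦ x ^ ℓ` on the residue
  field;
* `h87_exists_zeta` : a primitive `ℓ`-th root of unity of `ℚ̄` is a unit of `A`.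
-/

set_option autoImplicit false

noncomputable section

namespace Fermat.Agent.S37

local notation "Qb" => AlgebraicClosure ℚ

variable (A : ValuationSubring Qb)

theorem h87_inertia_lift (σ : Qb ≃ₐ[ℚ] Qb) (hσ : σ ∈ A.inertiaSubgroupIn ℚ) :
    ∃ sA : A →+* A, (∀ a : A, A.subtype (sA a) = σ (A.subtype a)) ∧
      ∀ a : A, IsLocalRing.residue A (sA a) = IsLocalRing.residue A a := by
  obtain ⟨g, hg, rfl⟩ := hσ
  refine ⟨MulSemiringAction.toRingHom (A.decompositionSubgroup ℚ) A g, fun a => rfl, fun a => ?_⟩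
  have h1 : MulSemiringAction.toRingAut (A.decompositionSubgroup ℚ)
      (IsLocalRing.ResidueField A) g = 1 := MonoidHom.mem_ker.mp hg
  exact RingEquiv.congr_fun h1 (IsLocalRing.residue A a)

theorem h87_frobenius_lift (ℓ : ℕ) (σ : Qb ≃ₐ[ℚ] Qb) (hσ : A.IsFrobeniusAt σ ℓ) :
    ∃ sA : A →+* A, (∀ a : A, A.subtype (sA a) = σ (A.subtype a)) ∧
      ∀ a : A, IsLocalRing.residue A (sA a) = IsLocalRing.residue A a ^ ℓ := by
  obtain ⟨hmem, h⟩ := hσ
  exact ⟨MulSemiringAction.toRingHom (A.decompositionSubgroup ℚ) A ⟨σ, hmem⟩, fun a => rfl,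
    fun a => h (IsLocalRing.residue A a)⟩

theorem h87_exists_zeta (ℓ : ℕ) [NeZero ℓ] :
    ∃ ζ : Aˣ, ζ ^ ℓ = 1 ∧
      IsPrimitiveRoot (Units.map ((A.subtype : A →+* Qb) : A →* Qb) ζ) ℓ := by
  obtain ⟨ζ₀, hζ₀⟩ := HasEnoughRootsOfUnity.exists_primitiveRoot Qb ℓ
  have hu : IsUnit ζ₀ := hζ₀.isUnit (NeZero.ne ℓ)
  have hval : A.valuation ζ₀ = 1 := by
    have h1 : A.valuation ζ₀ ^ ℓ = 1 := by
      rw [← map_pow, hζ₀.pow_eq_one, map_one]
    exact (pow_eq_one_iff_of_nonneg zero_le (NeZero.ne ℓ)).mp h1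
  have hmem : hu.unit ∈ A.unitGroup := by
    rw [ValuationSubring.mem_unitGroup_iff]
    exact hval
  set ζ : Aˣ := A.unitGroupMulEquiv ⟨hu.unit, hmem⟩ with hζdef
  have hcoe : ((ζ : A) : Qb) = ζ₀ := by
    rw [hζdef, ValuationSubring.coe_unitGroupMulEquiv_apply]
    rfl
  have hmap : Units.map ((A.subtype : A →+* Qb) : A →* Qb) ζ = hu.unit := by
    apply Units.ext
    rw [Units.coe_map]
    exact hcoe
  refine ⟨ζ, ?_, ?_⟩
  · apply Units.ext
    apply Subtype.ext
    rw [Units.val_pow_eq_pow_val, SubmonoidClass.coe_pow, hcoe, hζ₀.pow_eq_one]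
    rfl
  · rw [hmap]
    exact IsPrimitiveRoot.coe_units_iff.mp (by rw [IsUnit.unit_spec]; exact hζ₀)

end Fermat.Agent.S37

end
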