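import Mathlib
import Fermat.Prelude.Def_ModularCurve_X0ModL
import Fermat.Prelude.Def_AlgebraicCurve_BaseChangeGalois

/-!
# S37: coefficient automorphisms of the reduced modular function field, Frobenius

* `h87_pow_char` : in characteristic `ℓ`, `f ^ ℓ = (Frob f)(q^ℓ)` for Laurent series;
* `h87_coeffAut N τ : SemilinearAut k (modularFunctionFieldFullC k N)`, the coefficientwise action
  of a ring automorphism `τ` of `k`; it is a group homomorphism in `τ`.
-/

set_option autoImplicit false

noncomputable section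

open ModularCurve HahnSeries AlgebraicCurve IntermediateField

namespace Fermat.Agent.S37

section Expand

variable {R : Type*} [CommRing R]

theorem h87_qExpand_ofPowerSeries (n : ℕ) [NeZero n] (p : PowerSeries R) :
    qExpand R n (HahnSeries.ofPowerSeries ℤ R p)
      = HahnSeries.ofPowerSeries ℤ R (PowerSeries.expand n (NeZero.ne n) p) := by
  have hn : (0 : ℤ) < n := by exact_mod_cast Nat.pos_of_ne_zero (NeZero.ne n)
  ext m
  by_cases hm : (n : ℤ) ∣ m
  · obtain ⟨j, rfl⟩ := hm
    rw [qExpand_coeff_mul]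
    rcases le_or_gt 0 j with hj | hj
    · lift j to ℕ using hj
      rw [HahnSeries.ofPowerSeries_apply_coeff, ← Nat.cast_mul,
        HahnSeries.ofPowerSeries_apply_coeff, PowerSeries.coeff_expand_mul]
    · rw [ofPowerSeries_coeff_of_neg _ hj, ofPowerSeries_coeff_of_neg _ (by nlinarith)]
  · rw [qExpand_coeff_of_not_dvd n _ hm]
    rcases le_or_gt 0 m with hm0 | hm0
    · lift m to ℕ using hm0
      rw [HahnSeries.ofPowerSeries_apply_coeff, PowerSeries.coeff_expand_of_not_dvd]
      exact fun h => hm (by exact_mod_cast h)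
    · rw [ofPowerSeries_coeff_of_neg _ hm0]

end Expand

section Frobenius

variable (k : Type*) [Field k] (ℓ : ℕ) [Fact ℓ.Prime] [CharP k ℓ]

/-- In characteristic `ℓ`: `f ^ ℓ = (Frob f)(q^ℓ)`. -/
theorem h87_pow_char (f : LaurentSeries k) :
    haveI : NeZero ℓ := ⟨(Fact.out : ℓ.Prime).ne_zero⟩
    f ^ ℓ = qExpand k ℓ (coeffMap (frobenius k ℓ) f) := by
  haveI : NeZero ℓ := ⟨(Fact.out : ℓ.Prime).ne_zero⟩
  show f ^ ℓ = qExpand k ℓ (coeffMap (frobenius k ℓ) f)
  conv_lhs => rw [← f.single_order_mul_powerSeriesPart]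
  conv_rhs => rw [← f.single_order_mul_powerSeriesPart]
  have hs : (HahnSeries.single f.order (1 : k)) ^ ℓ = HahnSeries.single ((ℓ : ℤ) * f.order) 1 := by
    rw [HahnSeries.single_pow, one_pow, nsmul_eq_mul]
  have hs2 : qExpand k ℓ (coeffMap (frobenius k ℓ) (HahnSeries.single f.order (1 : k)))
      = HahnSeries.single ((ℓ : ℤ) * f.order) 1 := by
    rw [coeffMap_single, qExpand_single, map_one]
  rw [mul_pow, map_mul, map_mul, hs, hs2]
  congr 1
  have h1 : (HahnSeries.ofPowerSeries ℤ k f.powerSeriesPart) ^ ℓ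
      = HahnSeries.ofPowerSeries ℤ k (f.powerSeriesPart ^ ℓ) := (map_pow _ _ _).symm
  have h2 : f.powerSeriesPart ^ ℓ
      = PowerSeries.map (frobenius k ℓ)
          (PowerSeries.expand ℓ (NeZero.ne ℓ) f.powerSeriesPart) :=
    (MvPowerSeries.map_frobenius_expand (σ := Unit) (R := k) ℓ (NeZero.ne ℓ)
      (f := f.powerSeriesPart)).symm
  show (HahnSeries.ofPowerSeries ℤ k f.powerSeriesPart) ^ ℓ = _
  rw [h1, h2, coeffMap_ofPowerSeries, h87_qExpand_ofPowerSeries, PowerSeries.map_expand]

end Frobenius

section CoeffAut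

variable {k : Type*} [Field k] (N : ℕ) [NeZero N]

omit [NeZero N] in
theorem h87_coeffMap_mem_fullC (τ : k →+* k) {x : LaurentSeries k}
    (hx : x ∈ modularFunctionFieldFullC k N) : coeffMap τ x ∈ modularFunctionFieldFullC k N := by
  rw [modularFunctionFieldFullC] at hx
  induction hx using IntermediateField.adjoin_induction with
  | mem y hy =>
      obtain ⟨d, hne, hdvd, rfl⟩ := hy
      haveI := hne
      rw [coeffMap_qExpand, coeffMap_jqModC]
      exact jqModCd_mem_full k N hdvd
  | algebraMap c =>
      rw [coeffMap_algebraMap]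
      exact (modularFunctionFieldFullC k N).algebraMap_mem _
  | add y z _ _ hy hz => rw [map_add]; exact add_mem hy hz
  | inv y _ hy => rw [map_inv₀]; exact inv_mem hy
  | mul y z _ _ hy hz => rw [map_mul]; exact mul_mem hy hz

/-- The coefficientwise action of `τ : k ≃+* k` on the reduced modular function field. -/
def h87_coeffRingAut (τ : k ≃+* k) :
    (modularFunctionFieldFullC k N) ≃+* (modularFunctionFieldFullC k N) where
  toFun x := ⟨coeffMap (τ : k →+* k) (x : LaurentSeries k), h87_coeffMap_mem_fullC N _ x.2⟩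
  invFun x := ⟨coeffMap (τ.symm : k →+* k) (x : LaurentSeries k),
    h87_coeffMap_mem_fullC N _ x.2⟩
  left_inv x := Subtype.ext <| by
    show coeffMap (τ.symm : k →+* k) (coeffMap (τ : k →+* k) (x : LaurentSeries k))
      = (x : LaurentSeries k)
    rw [coeffMap_coeffMap,
      coeffMap_congr (g := RingHom.id k) (RingHom.ext fun a => τ.symm_apply_apply a)
        (x : LaurentSeries k),
      coeffMap_id]
  right_inv x := Subtype.ext <| by
    show coeffMap (τ : k →+* k) (coeffMap (τ.symm : k →+* k) (x : LaurentSeries k))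
      = (x : LaurentSeries k)
    rw [coeffMap_coeffMap,
      coeffMap_congr (g := RingHom.id k) (RingHom.ext fun a => τ.apply_symm_apply a)
        (x : LaurentSeries k),
      coeffMap_id]
  map_mul' x y :=
    Subtype.ext (map_mul (coeffMap (τ : k →+* k)) (x : LaurentSeries k) (y : LaurentSeries k))
  map_add' x y :=
    Subtype.ext (map_add (coeffMap (τ : k →+* k)) (x : LaurentSeries k) (y : LaurentSeries k))

@[simp]
theorem h87_coe_coeffRingAut_apply (τ : k ≃+* k) (x : modularFunctionFieldFullC k N) :
    (h87_coeffRingAut N τ x : LaurentSeries k) = coeffMap (τ : k →+* k) (x : LaurentSeries k) :=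
  rfl

theorem h87_coeffRingAut_algebraMap (τ : k ≃+* k) (a : k) :
    h87_coeffRingAut N τ (algebraMap k (modularFunctionFieldFullC k N) a)
      = algebraMap k (modularFunctionFieldFullC k N) (τ a) :=
  Subtype.ext (coeffMap_algebraMap (τ : k →+* k) a)

/-- The coefficientwise action as a homomorphism into semilinear automorphisms. -/
def h87_coeffAut : (k ≃+* k) →* SemilinearAut k (modularFunctionFieldFullC k N) where
  toFun τ := ⟨(h87_coeffRingAut N τ, τ), fun a => h87_coeffRingAut_algebraMap N τ a⟩
  map_one' := by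
    refine Subtype.ext (Prod.ext (RingEquiv.ext fun x => Subtype.ext ?_) rfl)
    show coeffMap ((1 : k ≃+* k) : k →+* k) (x : LaurentSeries k) = (x : LaurentSeries k)
    rw [show ((1 : k ≃+* k) : k →+* k) = RingHom.id k from RingHom.ext fun _ => rfl,
      coeffMap_id]
  map_mul' σ τ := by
    refine Subtype.ext (Prod.ext (RingEquiv.ext fun x => Subtype.ext ?_) rfl)
    show coeffMap ((σ * τ : k ≃+* k) : k →+* k) (x : LaurentSeries k)
      = coeffMap (σ : k →+* k) (coeffMap (τ : k →+* k) (x : LaurentSeries k))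
    rw [coeffMap_coeffMap]
    exact coeffMap_congr (RingHom.ext fun _ => rfl) _

theorem h87_coe_coeffAut_smul (τ : k ≃+* k) (x : modularFunctionFieldFullC k N) :
    ((h87_coeffAut N τ • x : modularFunctionFieldFullC k N) : LaurentSeries k)
      = coeffMap (τ : k →+* k) (x : LaurentSeries k) :=
  rfl

end CoeffAut

end Fermat.Agent.S37

end
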