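import Mathlib
import Fermat.Agent.S37.h87_Twist
import Fermat.Agent.S37.h87_Frob

/-!
# S37: the Kronecker congruence, lifted form

If `z(q^ℓ) = y(q^(ℓ²)) ∏_{b<ℓ} y(ζ^b q)` for an integral series `y` (coefficients in `A ⊆ B`),
then `z` is integral and its reduction modulo a prime above `ℓ` is `ȳ(q^ℓ) · Frob(ȳ)`.
-/

set_option autoImplicit false

noncomputable section

open ModularCurve HahnSeries

namespace Fermat.Agent.S37

/-- A Laurent series whose coefficients vanish outside the multiples of `ℓ` is a series in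
`q^ℓ`. -/
theorem h87_exists_qExpand_of_coeff {R : Type*} [CommRing R] (ℓ : ℕ) [NeZero ℓ]
    (f : LaurentSeries R) (hzero : ∀ n : ℤ, ¬ (ℓ : ℤ) ∣ n → f.coeff n = 0) :
    ∃ g : LaurentSeries R, qExpand R ℓ g = f := by
  have hℓ : (0 : ℤ) < ℓ := by exact_mod_cast Nat.pos_of_ne_zero (NeZero.ne ℓ)
  let g : LaurentSeries R :=
    { coeff := fun m => f.coeff ((ℓ : ℤ) * m)
      isPWO_support' := by
        have hbdd : BddBelow (Function.support fun m : ℤ => f.coeff ((ℓ : ℤ) * m)) := by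
          refine ⟨f.order / (ℓ : ℤ) - 1, fun m hm => ?_⟩
          have h1 : f.order ≤ (ℓ : ℤ) * m := HahnSeries.order_le_of_coeff_ne_zero hm
          set b := f.order with hb
          have h2 : b / (ℓ : ℤ) ≤ m := by
            have := Int.ediv_le_ediv hℓ h1
            rwa [Int.mul_ediv_cancel_left _ hℓ.ne'] at this
          omega
        exact hbdd.isWF.isPWO }
  refine ⟨g, ?_⟩
  ext n
  by_cases hn : (ℓ : ℤ) ∣ n
  · obtain ⟨m, rfl⟩ := hn
    rw [qExpand_coeff_mul]
  · rw [qExpand_coeff_of_not_dvd ℓ _ hn, hzero n hn]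

/-- **Kronecker congruence, lifted form.** -/
theorem h87_kronecker_lift {A B k : Type*} [CommRing A] [CommRing B] [Field k]
    (ι : A →+* B) (hι : Function.Injective ι) (π : A →+* k) (ℓ : ℕ) [Fact ℓ.Prime] [NeZero ℓ]
    [CharP k ℓ] (ζ : Aˣ) (hζ : ζ ^ ℓ = 1) (y : LaurentSeries A) (z : LaurentSeries B)
    (hz : qExpand B ℓ z = qExpand B ℓ (qExpand B ℓ (coeffMap ι y)) *
      ∏ b ∈ Finset.range ℓ, h87_twist ((Units.map (ι : A →* B) ζ) ^ b) (coeffMap ι y)) :
    ∃ zA : LaurentSeries A, coeffMap ι zA = z ∧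
      coeffMap π zA = qExpand k ℓ (coeffMap π y) * coeffMap (frobenius k ℓ) (coeffMap π y) := by
  set W : LaurentSeries A := qExpand A ℓ (qExpand A ℓ y) *
    ∏ b ∈ Finset.range ℓ, h87_twist (ζ ^ b) y with hWdef
  have hW : coeffMap ι W = qExpand B ℓ z := by
    rw [hz, hWdef, map_mul, coeffMap_qExpand, coeffMap_qExpand, map_prod]
    congr 1
    refine Finset.prod_congr rfl fun b _ => ?_
    rw [h87_coeffMap_twist, map_pow]
  have hzero : ∀ n : ℤ, ¬ (ℓ : ℤ) ∣ n → W.coeff n = 0 := by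
    intro n hn
    apply hι
    rw [map_zero, ← coeffMap_coeff, hW, qExpand_coeff_of_not_dvd ℓ _ hn]
  obtain ⟨zA, hzA⟩ := h87_exists_qExpand_of_coeff ℓ W hzero
  refine ⟨zA, ?_, ?_⟩
  · apply qExpand_injective (R := B) ℓ
    rw [← coeffMap_qExpand, hzA, hW]
  · apply qExpand_injective (R := k) ℓ
    rw [← coeffMap_qExpand, hzA, hWdef, map_mul (coeffMap π), coeffMap_qExpand, coeffMap_qExpand,
      h87_coeffMap_prod_twist π ℓ ζ hζ y, h87_pow_char k ℓ, map_mul]

end Fermat.Agent.S37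

end
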