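import Mathlib
import Fermat.Prelude.Def_ModularCurve_ReductionModL
import Fermat.Prelude.Def_ModularCurve_HeckeModule
import Fermat.Agent.S37.h87_RhoGen
import Fermat.Agent.S37.h87_Kron

/-!
# S37: the reduction map `ρ = r_* ∘ α_c^*` on divisors and its compatibilities

`N` the level, `N * c` the auxiliary level carrying the place reduction `r`, `A` a valuation ring
of `ℚ̄`, `π : A → k` a ring homomorphism to a field (in the application: the residue map).

* `h87_rho` : `Div F(N) → Div F̄(N c)`;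
* `h87_rho_int` : on the divisor of an `A`-integral `q`-series `y` with `ȳ ≠ 0`, `ρ` is the
  divisor of `ȳ`;
* `h87_rho_galois` : `ρ (σ D) = τ (ρ D)` on divisors of degree `0`, for an automorphism `σ` of
  `ℚ̄` preserving `A` and inducing `τ` on `k`;
* `h87_rho_hecke` : `ρ (T_ℓ D) = Φ (ρ D) + ℓ Φ⁻¹ (ρ D)` on divisors of degree `0`
  (Eichler–Shimura congruence on divisors).
-/

set_option autoImplicit false
set_option synthInstance.maxHeartbeats 400000
set_option linter.style.haveILetI false

noncomputable section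

open ModularCurve AlgebraicCurve IntermediateField HahnSeries

namespace Fermat.Agent.S37

local notation "Qb" => AlgebraicClosure ℚ

section Inj

variable {R S : Type*} [CommRing R] [CommRing S]

theorem h87_coeffMap_injective (f : R →+* S) (hf : Function.Injective f) :
    Function.Injective (coeffMap f) := by
  intro x y h
  ext n
  apply hf
  rw [← coeffMap_coeff, ← coeffMap_coeff, h]

theorem h87_coeffMap_ne_zero (f : R →+* S) (hf : Function.Injective f) {x : LaurentSeries R}
    (hx : x ≠ 0) : coeffMap f x ≠ 0 := fun h =>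
  hx (h87_coeffMap_injective f hf (by rw [h, map_zero]))

end Inj

section CorrGen

variable {K F F' : Type*} [Field K] [Field F] [Field F'] [Algebra K F] [Algebra K F']
  [HasPrincipalDivisors K F']

/-- The correspondence `ψ_* φ^*` sends the divisor of `f` to the divisor of the norm (along `ψ`)
of `φ f`. -/
theorem h87_correspondence_isDiv (φ ψ : F →ₐ[K] F') (hφ : φ.toRingHom.IsIntegral)
    (hψ : ψ.toRingHom.IsIntegral) (hfin : FiniteAlong K ψ) (hN : NormFormulaAlong K ψ hfin)
    {E : Divisor K F} {f : F} (hf : f ≠ 0) (hE : ∀ P, E P = P.ord f) (v : Place K F) :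
    Divisor.correspondence φ ψ hφ hψ E v
      = v.ord (letI := algebraAlong ψ; Algebra.norm F (φ f)) := by
  rw [Divisor.correspondence_apply]
  letI := algebraAlong ψ
  haveI := isScalarTower_along ψ
  haveI := isIntegral_along ψ hψ
  haveI : Module.Finite F F' := hfin
  exact hN (φ f) ((map_ne_zero φ).2 hf) _ (fun W => h87_pullbackAlong_isDiv φ hφ hE W) v

end CorrGen

section Rho

variable (N : ℕ) [NeZero N] (c : ℕ) [NeZero c]
  [HasPrincipalDivisors Qb (modularFunctionFieldBar (N * c))]
  (hαc : (heckeAlphaBar Qb N c).toRingHom.IsIntegral)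
  {k : Type*} [Field k]
  (r : Place Qb (modularFunctionFieldBar (N * c)) →
    Place k (modularFunctionFieldFullC k (N * c)))

/-- The reduction map on divisors: pull back to level `N c`, then reduce the places. -/
def h87_rho : Divisor Qb (modularFunctionFieldBar N) →+
    Divisor k (modularFunctionFieldFullC k (N * c)) :=
  (Finsupp.mapDomain.addMonoidHom r).comp (Divisor.pullbackAlong (heckeAlphaBar Qb N c) hαc)

theorem h87_rho_apply (D : Divisor Qb (modularFunctionFieldBar N)) :
    h87_rho N c hαc r D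
      = Finsupp.mapDomain r (Divisor.pullbackAlong (heckeAlphaBar Qb N c) hαc D) := rfl

theorem h87_rho_posHom (hFIc : FundamentalIdentityAlong Qb (heckeAlphaBar Qb N c) hαc)
    (hdeg : ∀ P, (r P).deg = P.deg) :
    h87_PosHom (h87_rho N c hαc r) (1 * (finrankAlong Qb (heckeAlphaBar Qb N c) : ℤ)) :=
  (h87_posHom_pullbackAlong (heckeAlphaBar Qb N c) hαc hFIc).comp (h87_posHom_mapDomain r hdeg)

variable (A : ValuationSubring Qb) (π : A →+* k)

/-- On the divisor of an integral `q`-series with nonzero reduction, `ρ` is the divisor of the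
reduction. -/
theorem h87_rho_int (hr : IsPlaceReductionAlong A π (N * c) r) (y : LaurentSeries A)
    (hy : coeffMap A.subtype y ∈ modularFunctionFieldBar N)
    (hyk : coeffMap π y ∈ modularFunctionFieldFullC k (N * c))
    (hne : coeffMap π y ≠ 0)
    (D : Divisor Qb (modularFunctionFieldBar N))
    (hD : ∀ P, D P = P.ord (⟨coeffMap A.subtype y, hy⟩ : modularFunctionFieldBar N))
    (Q : Place k (modularFunctionFieldFullC k (N * c))) :
    h87_rho N c hαc r D Q
      = Q.ord (⟨coeffMap π y, hyk⟩ : modularFunctionFieldFullC k (N * c)) := by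
  have hy' : coeffMap A.subtype y ∈ modularFunctionFieldBar (N * c) := by
    have h := (heckeAlphaBar Qb N c ⟨coeffMap A.subtype y, hy⟩).2
    rwa [coe_heckeAlphaBar] at h
  have hE : ∀ W, Divisor.pullbackAlong (heckeAlphaBar Qb N c) hαc D W
      = W.ord (⟨coeffMap A.subtype y, hy'⟩ : modularFunctionFieldBar (N * c)) := by
    intro W
    rw [h87_pullbackAlong_isDiv (heckeAlphaBar Qb N c) hαc hD W]
    congr 1
  rw [h87_rho_apply]
  exact hr.2 y hy' hyk hne _ hE Q

/-- `ρ` on the divisor of an integral `q`-series of level `N` whose reduction lies in `F̄(N)`. -/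
theorem h87_rho_int' (hr : IsPlaceReductionAlong A π (N * c) r) (y : LaurentSeries A)
    (hy : coeffMap A.subtype y ∈ modularFunctionFieldBar N)
    (hyk : coeffMap π y ∈ modularFunctionFieldFullC k N)
    (hne : coeffMap π y ≠ 0)
    (D : Divisor Qb (modularFunctionFieldBar N))
    (hD : ∀ P, D P = P.ord (⟨coeffMap A.subtype y, hy⟩ : modularFunctionFieldBar N))
    (Q : Place k (modularFunctionFieldFullC k (N * c))) :
    h87_rho N c hαc r D Q
      = Q.ord (⟨coeffMap π y, full_degeneracyC_le (K := k) (dvd_mul_right N c) hyk⟩ :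
          modularFunctionFieldFullC k (N * c)) :=
  h87_rho_int N c hαc r A π hr y hy _ hne D hD Q

/-- **Galois compatibility of `ρ`** on divisors of degree `0`: if `σ` preserves `A` (acting on
it by `sA`) and induces `τ` on `k`, then `ρ (σ D) = τ (ρ D)`. -/
theorem h87_rho_galois (hr : IsPlaceReductionAlong A π (N * c) r)
    (hFIc : FundamentalIdentityAlong Qb (heckeAlphaBar Qb N c) hαc)
    [HasPrincipalDivisors Qb (modularFunctionFieldBar N)]
    (hdegF : ∀ P : Place Qb (modularFunctionFieldBar N), P.deg = 1)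
    (hdegFb : ∀ Q : Place k (modularFunctionFieldFullC k (N * c)), Q.deg = 1)
    (heff : ∃ n₀ : ℤ, ∀ D : Divisor Qb (modularFunctionFieldBar N), n₀ ≤ Divisor.degree D →
      ∃ f : modularFunctionFieldBar N, f ≠ 0 ∧
        ∀ P : Place Qb (modularFunctionFieldBar N), 0 ≤ D P + P.ord f)
    (hgen : PrincipalGeneratedByIntegral A π N)
    (σ : Qb ≃ₐ[ℚ] Qb) (sA : A →+* A) (τ : k ≃+* k)
    (hσ : ∀ a : A, A.subtype (sA a) = σ (A.subtype a)) (hτ : ∀ a : A, π (sA a) = τ (π a))
    (D : Divisor Qb (modularFunctionFieldBar N)) (hD : Divisor.degree D = 0) :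
    h87_rho N c hαc r (arithmeticGalois (modularFunctionFieldFull N) σ • D)
      = h87_coeffAut (N * c) τ • h87_rho N c hαc r D := by
  have hρ := h87_rho_posHom N c hαc r hFIc hr.1
  have h₁ := (h87_posHom_smul (arithmeticGalois (modularFunctionFieldFull N) σ)).comp hρ
  have h₂ := hρ.comp (h87_posHom_smul (h87_coeffAut (k := k) (N * c) τ))
  refine h87_bounded_hom_gen hdegF hdegFb heff _ _ _ _ h₁ h₂
    (integralPrincipalDivisors A π N) hgen ?_ D hD
  rintro E ⟨y, hy, hyk, hne, hE⟩
  ext Q
  have e1 : coeffMap A.subtype (coeffMap sA y)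
      = coeffMap (σ : Qb →+* Qb) (coeffMap A.subtype y) := by
    rw [coeffMap_coeffMap, coeffMap_coeffMap]
    exact coeffMap_congr (RingHom.ext fun a => hσ a) y
  have e2 : coeffMap π (coeffMap sA y) = coeffMap (τ : k →+* k) (coeffMap π y) := by
    rw [coeffMap_coeffMap, coeffMap_coeffMap]
    exact coeffMap_congr (RingHom.ext fun a => hτ a) y
  have hy' : coeffMap A.subtype (coeffMap sA y) ∈ modularFunctionFieldBar N := by
    rw [e1]
    exact coeffMap_mem_laurentBaseChange _ hy
  have hyk' : coeffMap π (coeffMap sA y) ∈ modularFunctionFieldFullC k N := by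
    rw [e2]
    exact h87_coeffMap_mem_fullC N _ hyk
  have hne' : coeffMap π (coeffMap sA y) ≠ 0 := by
    rw [e2]
    exact h87_coeffMap_ne_zero _ τ.injective hne
  have hE' : ∀ P, (arithmeticGalois (modularFunctionFieldFull N) σ • E) P
      = P.ord (⟨coeffMap A.subtype (coeffMap sA y), hy'⟩ : modularFunctionFieldBar N) := by
    intro P
    rw [h87_smul_isDiv _ hE P]
    congr 1
    apply Subtype.ext
    rw [coe_arithmeticGalois_smul]
    exact e1.symm
  have h1 := h87_rho_int' N c hαc r A π hr _ hy' hyk' hne' _ hE' Q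
  have h2 := fun Q => h87_rho_int' N c hαc r A π hr y hy hyk hne E hE Q
  have h3 := h87_smul_isDiv (h87_coeffAut (k := k) (N * c) τ) h2 Q
  refine h1.trans (Eq.trans ?_ h3.symm)
  congr 1
  apply Subtype.ext
  rw [h87_coe_coeffAut_smul]
  exact e2

/-- The group inverse of the coefficient action of `τ` is the coefficient action of
`τ.symm`. -/
theorem h87_coeffAut_symm (M : ℕ) [NeZero M] (τ : k ≃+* k) :
    h87_coeffAut (k := k) M τ.symm = (h87_coeffAut (k := k) M τ)⁻¹ :=
  map_inv (h87_coeffAut (k := k) M) τ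

set_option maxHeartbeats 1000000 in
/-- **Eichler–Shimura congruence on divisors**: `ρ (T_ℓ D) = Φ (ρ D) + ℓ Φ⁻¹ (ρ D)` for `D` of
degree `0`, where `Φ` is the coefficientwise Frobenius. -/
theorem h87_rho_hecke (ℓ : ℕ) [Fact ℓ.Prime] [NeZero ℓ] [CharP k ℓ] [PerfectRing k ℓ]
    (hr : IsPlaceReductionAlong A π (N * c) r)
    (hFIc : FundamentalIdentityAlong Qb (heckeAlphaBar Qb N c) hαc)
    [HasPrincipalDivisors Qb (modularFunctionFieldBar N)]
    [HasPrincipalDivisors Qb (modularFunctionFieldBar (N * ℓ))]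
    (hdegF : ∀ P : Place Qb (modularFunctionFieldBar N), P.deg = 1)
    (hdegFb : ∀ Q : Place k (modularFunctionFieldFullC k (N * c)), Q.deg = 1)
    (heff : ∃ n₀ : ℤ, ∀ D : Divisor Qb (modularFunctionFieldBar N), n₀ ≤ Divisor.degree D →
      ∃ f : modularFunctionFieldBar N, f ≠ 0 ∧
        ∀ P : Place Qb (modularFunctionFieldBar N), 0 ≤ D P + P.ord f)
    (hgen : PrincipalGeneratedByIntegral A π N)
    (hα : (heckeAlphaBar Qb N ℓ).toRingHom.IsIntegral)
    (hβ : (heckeBetaBar Qb N ℓ).toRingHom.IsIntegral)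
    (hFI : FundamentalIdentityAlong Qb (heckeBetaBar Qb N ℓ) hβ)
    (hfin : FiniteAlong Qb (heckeAlphaBar Qb N ℓ))
    (hN : NormFormulaAlong Qb (heckeAlphaBar Qb N ℓ) hfin)
    (ζ : Aˣ) (hζ : ζ ^ ℓ = 1)
    (hK1 : ∀ y : modularFunctionFieldBar N,
      letI := algebraAlong (heckeAlphaBar Qb N ℓ)
      qExpand Qb ℓ
          ((Algebra.norm (modularFunctionFieldBar N) (heckeBetaBar Qb N ℓ y) :
            modularFunctionFieldBar N) : LaurentSeries Qb)
        = qExpand Qb ℓ (qExpand Qb ℓ (y : LaurentSeries Qb)) *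
            ∏ b ∈ Finset.range ℓ,
              h87_twist ((Units.map ((A.subtype : A →+* Qb) : A →* Qb) ζ) ^ b)
                (y : LaurentSeries Qb))
    (D : Divisor Qb (modularFunctionFieldBar N)) (hD : Divisor.degree D = 0) :
    h87_rho N c hαc r
        (Divisor.correspondence (heckeBetaBar Qb N ℓ) (heckeAlphaBar Qb N ℓ) hβ hα D)
      = h87_coeffAut (N * c) (frobeniusEquiv k ℓ) • h87_rho N c hαc r D
        + ℓ • (h87_coeffAut (N * c) (frobeniusEquiv k ℓ).symm • h87_rho N c hαc r D) := by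
  have hρ := h87_rho_posHom N c hαc r hFIc hr.1
  have h₁ := ((h87_posHom_pullbackAlong (heckeBetaBar Qb N ℓ) hβ hFI).comp
    (h87_posHom_pushforwardAlong (heckeAlphaBar Qb N ℓ) hα)).comp hρ
  have h₂ := (hρ.comp (h87_posHom_smul (h87_coeffAut (k := k) (N * c) (frobeniusEquiv k ℓ)))).add
    ((hρ.comp (h87_posHom_smul
      (h87_coeffAut (k := k) (N * c) (frobeniusEquiv k ℓ).symm))).nsmul ℓ)
  refine h87_bounded_hom_gen hdegF hdegFb heff
    ((h87_rho N c hαc r).comp
      (Divisor.correspondence (heckeBetaBar Qb N ℓ) (heckeAlphaBar Qb N ℓ) hβ hα))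
    _ _ _ h₁ h₂ (integralPrincipalDivisors A π N) hgen ?_ D hD
  rintro E ⟨y, hy, hyk, hne, hE⟩
  ext Q
  -- the function `f = y` and the norm `w` of `β f`
  have hy0 : y ≠ 0 := by
    rintro rfl
    exact hne (map_zero _)
  have hf0 : (⟨coeffMap A.subtype y, hy⟩ : modularFunctionFieldBar N) ≠ 0 := by
    intro h
    exact h87_coeffMap_ne_zero A.subtype Subtype.val_injective hy0 (congrArg Subtype.val h)
  obtain ⟨w, hw⟩ : ∃ w : modularFunctionFieldBar N,
      w = (letI := algebraAlong (heckeAlphaBar Qb N ℓ)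
        Algebra.norm (modularFunctionFieldBar N)
          (heckeBetaBar Qb N ℓ ⟨coeffMap A.subtype y, hy⟩)) := ⟨_, rfl⟩
  have hT : ∀ v, Divisor.correspondence (heckeBetaBar Qb N ℓ) (heckeAlphaBar Qb N ℓ) hβ hα E v
      = v.ord w := by
    intro v
    rw [hw]
    exact h87_correspondence_isDiv (heckeBetaBar Qb N ℓ) (heckeAlphaBar Qb N ℓ) hβ hα hfin hN
      hf0 hE v
  -- the Kronecker congruence
  have hK := hK1 ⟨coeffMap A.subtype y, hy⟩
  rw [← hw] at hK
  obtain ⟨zA, hzA, hzk⟩ := h87_kronecker_lift (A.subtype : A →+* Qb) Subtype.val_injective π ℓ ζ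
    hζ y (w : LaurentSeries Qb) hK
  -- the reduction of `z` is `(Φ⁻¹ ȳ)^ℓ * Φ ȳ`
  have eΦ : coeffMap (frobenius k ℓ) (coeffMap π y)
      = coeffMap ((frobeniusEquiv k ℓ : k ≃+* k) : k →+* k) (coeffMap π y) :=
    coeffMap_congr (RingHom.ext fun _ => rfl) _
  have eΨ : qExpand k ℓ (coeffMap π y)
      = coeffMap (((frobeniusEquiv k ℓ).symm : k ≃+* k) : k →+* k) (coeffMap π y) ^ ℓ := by
    rw [h87_pow_char k ℓ, coeffMap_coeffMap]
    congr 1
    rw [coeffMap_congr (g := RingHom.id k)
      (RingHom.ext fun a => frobenius_apply_frobeniusEquiv_symm k ℓ a), coeffMap_id]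
  rw [eΦ, eΨ] at hzk
  have hu : coeffMap (((frobeniusEquiv k ℓ).symm : k ≃+* k) : k →+* k) (coeffMap π y) ∈
      modularFunctionFieldFullC k N := h87_coeffMap_mem_fullC N _ hyk
  have hv : coeffMap ((frobeniusEquiv k ℓ : k ≃+* k) : k →+* k) (coeffMap π y) ∈
      modularFunctionFieldFullC k N := h87_coeffMap_mem_fullC N _ hyk
  have hu0 : coeffMap (((frobeniusEquiv k ℓ).symm : k ≃+* k) : k →+* k) (coeffMap π y) ≠ 0 :=
    h87_coeffMap_ne_zero _ (frobeniusEquiv k ℓ).symm.injective hne
  have hv0 : coeffMap ((frobeniusEquiv k ℓ : k ≃+* k) : k →+* k) (coeffMap π y) ≠ 0 :=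
    h87_coeffMap_ne_zero _ (frobeniusEquiv k ℓ).injective hne
  have hzmem : coeffMap π zA ∈ modularFunctionFieldFullC k N := by
    rw [hzk]
    exact mul_mem (pow_mem hu ℓ) hv
  have hzne : coeffMap π zA ≠ 0 := by
    rw [hzk]
    exact mul_ne_zero (pow_ne_zero ℓ hu0) hv0
  have hzA' : coeffMap A.subtype zA ∈ modularFunctionFieldBar N := by
    rw [hzA]
    exact w.2
  have hT' : ∀ v, Divisor.correspondence (heckeBetaBar Qb N ℓ) (heckeAlphaBar Qb N ℓ) hβ hα E v
      = v.ord (⟨coeffMap A.subtype zA, hzA'⟩ : modularFunctionFieldBar N) := by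
    intro v
    rw [hT v]
    congr 1
    exact Subtype.ext hzA.symm
  have h1 := h87_rho_int' N c hαc r A π hr zA hzA' hzmem hzne _ hT' Q
  have h2 := fun Q => h87_rho_int' N c hαc r A π hr y hy hyk hne E hE Q
  have h3 := h87_smul_isDiv (h87_coeffAut (k := k) (N * c) (frobeniusEquiv k ℓ)) h2 Q
  have h4 := h87_smul_isDiv (h87_coeffAut (k := k) (N * c) (frobeniusEquiv k ℓ).symm) h2 Q
  have hle := full_degeneracyC_le (K := k) (dvd_mul_right N c)
  -- the element `ȳ` at level `N c` and its two transforms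
  have hprod : (⟨coeffMap π zA, hle hzmem⟩ : modularFunctionFieldFullC k (N * c))
      = (h87_coeffAut (k := k) (N * c) (frobeniusEquiv k ℓ).symm •
          (⟨coeffMap π y, hle hyk⟩ : modularFunctionFieldFullC k (N * c))) ^ ℓ *
        (h87_coeffAut (k := k) (N * c) (frobeniusEquiv k ℓ) •
          (⟨coeffMap π y, hle hyk⟩ : modularFunctionFieldFullC k (N * c))) := by
    apply Subtype.ext
    rw [MulMemClass.coe_mul, SubmonoidClass.coe_pow, h87_coe_coeffAut_smul,
      h87_coe_coeffAut_smul]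
    exact hzk
  have hne1 : (h87_coeffAut (k := k) (N * c) (frobeniusEquiv k ℓ).symm •
      (⟨coeffMap π y, hle hyk⟩ : modularFunctionFieldFullC k (N * c))) ≠ 0 := by
    intro h
    apply hu0
    have h' := congrArg Subtype.val h
    rwa [h87_coe_coeffAut_smul] at h'
  have hne2 : (h87_coeffAut (k := k) (N * c) (frobeniusEquiv k ℓ) •
      (⟨coeffMap π y, hle hyk⟩ : modularFunctionFieldFullC k (N * c))) ≠ 0 := by
    intro h
    apply hv0
    have h' := congrArg Subtype.val h
    rwa [h87_coe_coeffAut_smul] at h'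
  show h87_rho N c hαc r
      (Divisor.correspondence (heckeBetaBar Qb N ℓ) (heckeAlphaBar Qb N ℓ) hβ hα E) Q
    = (h87_coeffAut (N * c) (frobeniusEquiv k ℓ) • h87_rho N c hαc r E) Q
      + (ℓ • (h87_coeffAut (N * c) (frobeniusEquiv k ℓ).symm • h87_rho N c hαc r E)) Q
  rw [h1, Finsupp.smul_apply, h3, h4, hprod, Place.ord_mul _ (pow_ne_zero ℓ hne1) hne2,
    ← zpow_natCast, Place.ord_zpow, nsmul_eq_mul, add_comm]

end Rho

end Fermat.Agent.S37

end
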