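import Mathlib
import Fermat.Agent.S37.h87_Red
import Fermat.Agent.S37.h70_LVL

/-!
# S37: the reduction homomorphism on `J₀(N)` and its compatibilities

`h87_red : J₀(N) → Pic⁰(F̄(N c))` is the pull-back to level `N c` followed by the prelude's
reduction map.  Its compatibilities with Galois (`h87_red_galois`), with the Hecke correspondence
(`h87_red_hecke`) and its injectivity on torsion prime to the degree (`h87_red_inj`) are deduced
from the divisor-level statements of `h87_Red.lean`.
-/

set_option autoImplicit false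
set_option synthInstance.maxHeartbeats 400000

noncomputable section

open ModularCurve AlgebraicCurve IntermediateField HahnSeries

namespace Fermat.Agent.S37

local notation "Qb" => AlgebraicClosure ℚ

section PicGen

variable {K F : Type*} [Field K] [Field F] [Algebra K F]

theorem h87_mk_eq_zero_iff (D : Divisor.degZero (K := K) (F := F)) :
    Pic0.mk D = 0 ↔ (D : Divisor K F).IsPrincipal := by
  rw [Pic0.mk, QuotientAddGroup.eq_zero_iff, AddSubgroup.mem_addSubgroupOf]
  rfl

theorem h87_mk_congr {D E : Divisor.degZero (K := K) (F := F)}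
    (h : (D : Divisor K F) = (E : Divisor K F)) : Pic0.mk D = Pic0.mk E :=
  congrArg Pic0.mk (Subtype.ext h)

theorem h87_mk_nsmul (n : ℕ) (D : Divisor.degZero (K := K) (F := F)) :
    Pic0.mk (n • D) = n • Pic0.mk D :=
  QuotientAddGroup.mk_nsmul _ D n

end PicGen

section Red

variable (N : ℕ) [NeZero N] (c : ℕ) [NeZero c]
  [HasPrincipalDivisors Qb (modularFunctionFieldBar (N * c))]
  (hαc : (heckeAlphaBar Qb N c).toRingHom.IsIntegral)
  (hFIc : FundamentalIdentityAlong Qb (heckeAlphaBar Qb N c) hαc)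
  {k : Type*} [Field k] (A : ValuationSubring Qb) (π : A →+* k)

/-- The reduction homomorphism `J₀(N) → Pic⁰(F̄(N c))`. -/
def h87_red : JZero N →+ JZeroC k (N * c) :=
  (reductionAlong A π (N * c)).comp (h87_pullPic0 (heckeAlphaBar Qb N c) hαc hFIc)

theorem h87_red_apply (x : JZero N) :
    h87_red N c hαc hFIc A π x
      = reductionAlong A π (N * c) (h87_pullPic0 (heckeAlphaBar Qb N c) hαc hFIc x) := rfl

variable {A π} in
theorem h87_red_mk (h : ReductionInputsAlong A π (N * c))
    (D : Divisor.degZero (K := Qb) (F := modularFunctionFieldBar N))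
    (E : Divisor.degZero (K := k) (F := modularFunctionFieldFullC k (N * c)))
    (hE : (E : Divisor k (modularFunctionFieldFullC k (N * c)))
      = h87_rho N c hαc h.choose (D : Divisor Qb (modularFunctionFieldBar N))) :
    h87_red N c hαc hFIc A π (Pic0.mk D) = Pic0.mk E := by
  rw [h87_red_apply, h87_pullPic0_mk, reductionAlong_mk h]
  exact h87_mk_congr hE.symm

variable {A π} in
/-- **Galois compatibility of the reduction map.** -/
theorem h87_red_galois (h : ReductionInputsAlong A π (N * c))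
    [HasPrincipalDivisors Qb (modularFunctionFieldBar N)]
    (hdegF : ∀ P : Place Qb (modularFunctionFieldBar N), P.deg = 1)
    (hdegFb : ∀ Q : Place k (modularFunctionFieldFullC k (N * c)), Q.deg = 1)
    (heff : ∃ n₀ : ℤ, ∀ D : Divisor Qb (modularFunctionFieldBar N), n₀ ≤ Divisor.degree D →
      ∃ f : modularFunctionFieldBar N, f ≠ 0 ∧
        ∀ P : Place Qb (modularFunctionFieldBar N), 0 ≤ D P + P.ord f)
    (hgen : PrincipalGeneratedByIntegral A π N)
    (σ : Qb ≃ₐ[ℚ] Qb) (sA : A →+* A) (τ : k ≃+* k)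
    (hσ : ∀ a : A, A.subtype (sA a) = σ (A.subtype a)) (hτ : ∀ a : A, π (sA a) = τ (π a))
    (x : JZero N) :
    h87_red N c hαc hFIc A π (σ • x)
      = h87_coeffAut (N * c) τ • h87_red N c hαc hFIc A π x := by
  obtain ⟨D, rfl⟩ := Pic0.mk_surjective x
  have hdeg0 := Divisor.mem_degZero.mp D.2
  have key := h87_rho_galois N c hαc h.choose A π h.choose_spec.1 hFIc hdegF hdegFb heff hgen
    σ sA τ hσ hτ (D : Divisor Qb (modularFunctionFieldBar N)) hdeg0
  have hE : Divisor.degree (h87_rho N c hαc h.choose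
      (D : Divisor Qb (modularFunctionFieldBar N))) = 0 := by
    rw [(h87_rho_posHom N c hαc h.choose hFIc h.choose_spec.1.1).degree, hdeg0, mul_zero]
  rw [galois_smul_pic0_def, SemilinearAut.pic0_smul_mk,
    h87_red_mk N c hαc hFIc h D ⟨_, Divisor.mem_degZero.mpr hE⟩ rfl,
    SemilinearAut.pic0_smul_mk]
  refine h87_red_mk N c hαc hFIc h _ _ ?_
  rw [SemilinearAut.coe_degZeroSMulHom, SemilinearAut.coe_degZeroSMulHom]
  exact key.symm

set_option maxHeartbeats 1000000 in
variable {A π} in
/-- **Hecke compatibility of the reduction map** (Eichler–Shimura congruence). -/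
theorem h87_red_hecke (ℓ : ℕ) [Fact ℓ.Prime] [NeZero ℓ] [CharP k ℓ] [PerfectRing k ℓ]
    (h : ReductionInputsAlong A π (N * c))
    [HasPrincipalDivisors Qb (modularFunctionFieldBar N)]
    [HasPrincipalDivisors Qb (modularFunctionFieldBar (N * ℓ))]
    (hdegF : ∀ P : Place Qb (modularFunctionFieldBar N), P.deg = 1)
    (hdegFb : ∀ Q : Place k (modularFunctionFieldFullC k (N * c)), Q.deg = 1)
    (heff : ∃ n₀ : ℤ, ∀ D : Divisor Qb (modularFunctionFieldBar N), n₀ ≤ Divisor.degree D →
      ∃ f : modularFunctionFieldBar N, f ≠ 0 ∧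
        ∀ P : Place Qb (modularFunctionFieldBar N), 0 ≤ D P + P.ord f)
    (hgen : PrincipalGeneratedByIntegral A π N)
    (hα : (heckeAlphaBar Qb N ℓ).toRingHom.IsIntegral)
    (hβ : (heckeBetaBar Qb N ℓ).toRingHom.IsIntegral)
    (hFI : FundamentalIdentityAlong Qb (heckeBetaBar Qb N ℓ) hβ)
    (hfin : FiniteAlong Qb (heckeAlphaBar Qb N ℓ))
    (hN : NormFormulaAlong Qb (heckeAlphaBar Qb N ℓ) hfin)
    (ζ : Aˣ) (hζ : ζ ^ ℓ = 1)
    (hK1 : ∀ y : modularFunctionFieldBar N,
      letI := algebraAlong (heckeAlphaBar Qb N ℓ)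
      qExpand Qb ℓ
          ((Algebra.norm (modularFunctionFieldBar N) (heckeBetaBar Qb N ℓ y) :
            modularFunctionFieldBar N) : LaurentSeries Qb)
        = qExpand Qb ℓ (qExpand Qb ℓ (y : LaurentSeries Qb)) *
            ∏ b ∈ Finset.range ℓ,
              h87_twist ((Units.map ((A.subtype : A →+* Qb) : A →* Qb) ζ) ^ b)
                (y : LaurentSeries Qb))
    (x : JZero N) :
    h87_red N c hαc hFIc A π
        (Pic0.correspondence (heckeBetaBar Qb N ℓ) (heckeAlphaBar Qb N ℓ) hβ hα hFI hfin hN x)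
      = h87_coeffAut (N * c) (frobeniusEquiv k ℓ) • h87_red N c hαc hFIc A π x
        + ℓ • (h87_coeffAut (N * c) (frobeniusEquiv k ℓ).symm • h87_red N c hαc hFIc A π x) := by
  obtain ⟨D, rfl⟩ := Pic0.mk_surjective x
  have hdeg0 := Divisor.mem_degZero.mp D.2
  have key := h87_rho_hecke N c hαc h.choose A π ℓ h.choose_spec.1 hFIc hdegF hdegFb heff hgen
    hα hβ hFI hfin hN ζ hζ hK1 (D : Divisor Qb (modularFunctionFieldBar N)) hdeg0
  have hE : Divisor.degree (h87_rho N c hαc h.choose
      (D : Divisor Qb (modularFunctionFieldBar N))) = 0 := by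
    rw [(h87_rho_posHom N c hαc h.choose hFIc h.choose_spec.1.1).degree, hdeg0, mul_zero]
  rw [Pic0.correspondence_mk, h87_red_mk N c hαc hFIc h D ⟨_, Divisor.mem_degZero.mpr hE⟩ rfl,
    SemilinearAut.pic0_smul_mk, SemilinearAut.pic0_smul_mk, ← h87_mk_nsmul,
    ← Pic0.mk_add]
  refine h87_red_mk N c hαc hFIc h _ _ ?_
  rw [Pic0.coe_degZeroCorrespondence, AddSubgroup.coe_add, AddSubgroup.coe_nsmul,
    SemilinearAut.coe_degZeroSMulHom, SemilinearAut.coe_degZeroSMulHom]
  exact key.symm

/-- **Injectivity of the reduction map on torsion prime to the degree**, from the corresponding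
statement at level `N c`. -/
theorem h87_red_inj (m : ℕ)
    (hcop : Nat.Coprime m (finrankAlong Qb (heckeAlphaBar Qb N c)))
    (hS18 : ∀ z : JZero (N * c), m • z = 0 → reductionAlong A π (N * c) z = 0 → z = 0)
    (x : JZero N) (hx : m • x = 0) (hred : h87_red N c hαc hFIc A π x = 0) : x = 0 := by
  have hy := hS18 (h87_pullPic0 (heckeAlphaBar Qb N c) hαc hFIc x)
    (by rw [← map_nsmul, hx, map_zero]) hred
  obtain ⟨D, rfl⟩ := Pic0.mk_surjective x
  rw [h87_pullPic0_mk, h87_mk_eq_zero_iff] at hy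
  rw [← h87_mk_nsmul, h87_mk_eq_zero_iff] at hx
  rw [h87_mk_eq_zero_iff]
  exact h70_LVL N c hαc (D : Divisor Qb (modularFunctionFieldBar N)) m hcop hx hy

end Red

end Fermat.Agent.S37

end
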