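import Fermat.Agent.S37.h89_EFFCore
import Fermat.Agent.S18.RR_Riemann

/-!
# S37 / row EFF: the weak Riemann inequality

Divisors of large degree on a function field over an algebraically closed field of
characteristic `0` are linearly equivalent to effective ones (from S18 RR-B6 `h75_riemann`).
-/

set_option autoImplicit false

noncomputable section

open AlgebraicCurve IntermediateField

namespace Fermat.Agent.S37

open Fermat.Agent.S24 Fermat.Agent.S18

section Generic

variable {K F : Type*} [Field K] [Field F] [Algebra K F] [IsAlgClosed K] [CharZero K]

/-- [EFF] weak Riemann inequality: divisors of large degree are linearly equivalent to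
effective ones. -/
theorem h89_EFF (hF : h73_IsFF K F) :
    ∃ n₀ : ℤ, ∀ D : Divisor K F, n₀ ≤ Divisor.degree D →
      ∃ f : F, f ≠ 0 ∧ ∀ P : Place K F, 0 ≤ D P + P.ord f :=
  h89_EFF_of_riemann (fun _ hx D => h75_riemann hx D) hF

end Generic

end Fermat.Agent.S37

end
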