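import Mathlib
import Fermat.Agent.S37.h87_RedPic
import Fermat.Agent.S37.h87_Assembly
import Fermat.Agent.S37.h88_HICore
import Fermat.Agent.S37.h82_FI
import Fermat.Agent.S37.h85_NormFormula
import Fermat.Agent.S37.h89_EFF
import Fermat.Agent.S37.h87_Decomp
import Fermat.Agent.S18.h19_ResField

/-!
# S37: the reduction interface `h87_RedData` from the inputs at an auxiliary level

`h87_redData_gen` : the four clauses of `h87_RedData N p ℓ hℓ A` for a field `k` of characteristic
`ℓ` with a ring homomorphism `π : A → k`, from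

* reduction inputs at an auxiliary level `N c` (`hRI`) and the injectivity of the reduction map
  on prime-to-`ℓ` torsion at that level (`hS18`);
* `p` prime to the degree `[F(N c) : F(N)]` (`hcop`);
* all places of `F̄(N c)` have degree one (`hdegFb`);
* principal divisors of `F(N)` are generated by integral ones (`hgen`);
* the norm `q`-expansion formula (`hK1`) for an `ℓ`-th root of unity `ζ ∈ A`;
* the description of inertia and Frobenius elements on `A` and `k` (`hin`, `hfr`).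
-/

set_option autoImplicit false
set_option synthInstance.maxHeartbeats 400000
set_option linter.style.haveILetI false

noncomputable section

open ModularCurve AlgebraicCurve IntermediateField HahnSeries

namespace Fermat.Agent.S37

open Fermat.Agent.S24

local notation "Qb" => AlgebraicClosure ℚ

section Along

variable (N : ℕ) [NeZero N] (ℓ : ℕ) [NeZero ℓ]

/-- The fundamental identity along the inclusion `F(N) → F(N ℓ)`. -/
theorem h87_FI_alpha [HasPrincipalDivisors Qb (modularFunctionFieldBar (N * ℓ))] :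
    FundamentalIdentityAlong Qb (heckeAlphaBar Qb N ℓ) (h88_alphaIntegral N ℓ) := by
  letI := algebraAlong (heckeAlphaBar Qb N ℓ)
  haveI := isScalarTower_along (heckeAlphaBar Qb N ℓ)
  haveI : FiniteDimensional (modularFunctionFieldBar N) (modularFunctionFieldBar (N * ℓ)) :=
    h88_finiteAlong_alpha N ℓ
  exact h82_FI (h88_isFF N)

/-- The fundamental identity along `β : q ↦ q^ℓ`. -/
theorem h87_FI_beta [HasPrincipalDivisors Qb (modularFunctionFieldBar (N * ℓ))] :
    FundamentalIdentityAlong Qb (heckeBetaBar Qb N ℓ) (h88_betaIntegral N ℓ) := by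
  letI := algebraAlong (heckeBetaBar Qb N ℓ)
  haveI := isScalarTower_along (heckeBetaBar Qb N ℓ)
  haveI : FiniteDimensional (modularFunctionFieldBar N) (modularFunctionFieldBar (N * ℓ)) :=
    h88_finiteAlong_beta N ℓ
  exact h82_FI (h88_isFF N)

/-- The norm formula along the inclusion `F(N) → F(N ℓ)`. -/
theorem h87_NF_alpha :
    NormFormulaAlong Qb (heckeAlphaBar Qb N ℓ) (h88_finiteAlong_alpha N ℓ) := by
  letI := algebraAlong (heckeAlphaBar Qb N ℓ)
  haveI := isScalarTower_along (heckeAlphaBar Qb N ℓ)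
  haveI : FiniteDimensional (modularFunctionFieldBar N) (modularFunctionFieldBar (N * ℓ)) :=
    h88_finiteAlong_alpha N ℓ
  exact h85_NF (h88_isFF N)

/-- **Row HI**: the Hecke inputs hold at every level. -/
theorem h87_HI : HeckeInputsAlong Qb N ℓ := by
  haveI := h88_hasPrincipalDivisors (N * ℓ)
  exact heckeInputsAlong_intro (h88_alphaIntegral N ℓ) (h88_betaIntegral N ℓ)
    (h87_FI_beta N ℓ) (h88_finiteAlong_alpha N ℓ) (h87_NF_alpha N ℓ)

end Along

section Gen

set_option maxHeartbeats 1000000 in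
/-- **The reduction interface from inputs at the auxiliary level `N c`**, for an arbitrary
residue homomorphism `π : A → k`. -/
theorem h87_redData_gen (N p : ℕ) [NeZero N] (c : ℕ) [NeZero c] (ℓ : ℕ) [Fact ℓ.Prime]
    [NeZero ℓ] (hℓ : ℓ.Prime) {k : Type} [Field k] [CharP k ℓ] [PerfectRing k ℓ]
    (A : ValuationSubring Qb) (π : A →+* k) (hℓp : ¬ ℓ ∣ p)
    (hRI : ReductionInputsAlong A π (N * c))
    (hS18 : ∀ m : ℕ, ¬ ℓ ∣ m → ∀ z : JZero (N * c), m • z = 0 →
      reductionAlong A π (N * c) z = 0 → z = 0)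
    (hcop : Nat.Coprime p (finrankAlong Qb (heckeAlphaBar Qb N c)))
    (hdegFb : ∀ Q : Place k (modularFunctionFieldFullC k (N * c)), Q.deg = 1)
    (hgen : PrincipalGeneratedByIntegral A π N)
    (ζ : Aˣ) (hζ : ζ ^ ℓ = 1)
    (hK1 : ∀ y : modularFunctionFieldBar N,
      letI := algebraAlong (heckeAlphaBar Qb N ℓ)
      qExpand Qb ℓ
          ((Algebra.norm (modularFunctionFieldBar N) (heckeBetaBar Qb N ℓ y) :
            modularFunctionFieldBar N) : LaurentSeries Qb)
        = qExpand Qb ℓ (qExpand Qb ℓ (y : LaurentSeries Qb)) *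
            ∏ b ∈ Finset.range ℓ,
              h87_twist ((Units.map ((A.subtype : A →+* Qb) : A →* Qb) ζ) ^ b)
                (y : LaurentSeries Qb))
    (hin : ∀ σ ∈ A.inertiaSubgroupIn ℚ, ∃ sA : A →+* A,
      (∀ a : A, A.subtype (sA a) = σ (A.subtype a)) ∧ ∀ a : A, π (sA a) = π a)
    (hfr : ∀ σ : Qb ≃ₐ[ℚ] Qb, A.IsFrobeniusAt σ ℓ → ∃ sA : A →+* A,
      (∀ a : A, A.subtype (sA a) = σ (A.subtype a)) ∧ ∀ a : A, π (sA a) = π a ^ ℓ) :
    ∃ (Jbar : Type) (_ : AddCommGroup Jbar) (red : JZero N →+ Jbar) (φ : Jbar ≃+ Jbar),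
      (∀ σ ∈ A.inertiaSubgroupIn ℚ, ∀ x : JZero N, red (σ • x) = red x) ∧
      (∀ σ : Qb ≃ₐ[ℚ] Qb, A.IsFrobeniusAt σ ℓ → ∀ x : JZero N, red (σ • x) = φ (red x)) ∧
      (∀ x : JZero N, red (heckeOperatorBar N ⟨ℓ, hℓ⟩ x) = φ (red x) + ℓ • φ.symm (red x)) ∧
      (∀ x : JZero N, (∃ n : ℕ, p ^ n • x = 0) → red x = 0 → x = 0) := by
  haveI := h88_hasPrincipalDivisors (N * c)
  haveI := h88_hasPrincipalDivisors N
  haveI := h88_hasPrincipalDivisors (N * ℓ)
  have hαc := h88_alphaIntegral N c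
  have hFIc := h87_FI_alpha N c
  have hdegF := h73_deg_eq_one (h88_isFF N)
  have heff := h89_EFF (h88_isFF N)
  refine ⟨JZeroC k (N * c), inferInstance, h87_red N c hαc hFIc A π,
    DistribMulAction.toAddEquiv (JZeroC k (N * c))
      (h87_coeffAut (k := k) (N * c) (frobeniusEquiv k ℓ)), ?_, ?_, ?_, ?_⟩
  · intro σ hσ x
    obtain ⟨sA, h1, h2⟩ := hin σ hσ
    have key := h87_red_galois N c hαc hFIc hRI hdegF hdegFb heff hgen σ sA (1 : k ≃+* k) h1 h2 x
    rw [key, map_one, one_smul]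
  · intro σ hσ x
    obtain ⟨sA, h1, h2⟩ := hfr σ hσ
    exact h87_red_galois N c hαc hFIc hRI hdegF hdegFb heff hgen σ sA (frobeniusEquiv k ℓ) h1 h2 x
  · intro x
    have key := h87_red_hecke N c hαc hFIc ℓ hRI hdegF hdegFb heff hgen (h88_alphaIntegral N ℓ)
      (h88_betaIntegral N ℓ) (h87_FI_beta N ℓ) (h88_finiteAlong_alpha N ℓ) (h87_NF_alpha N ℓ)
      ζ hζ hK1 x
    have hT : heckeOperatorBar N ⟨ℓ, hℓ⟩ x
        = Pic0.correspondence (heckeBetaBar Qb N ℓ) (heckeAlphaBar Qb N ℓ) (h88_betaIntegral N ℓ)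
            (h88_alphaIntegral N ℓ) (h87_FI_beta N ℓ) (h88_finiteAlong_alpha N ℓ)
            (h87_NF_alpha N ℓ) x := by
      refine (heckeOperatorBar_apply N ⟨ℓ, hℓ⟩ x).trans ?_
      exact congrFun (congrArg DFunLike.coe (heckeOperatorAlong_eq (h88_alphaIntegral N ℓ)
        (h88_betaIntegral N ℓ) (h87_FI_beta N ℓ) (h88_finiteAlong_alpha N ℓ)
        (h87_NF_alpha N ℓ))) x
    rw [hT, key, h87_coeffAut_symm]
    rfl
  · rintro x ⟨n, hn⟩ hred
    exact h87_red_inj N c hαc hFIc A π (p ^ n) (Nat.Coprime.pow_left n hcop)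
      (hS18 (p ^ n) (fun h => hℓp (hℓ.dvd_of_dvd_pow h))) x hn hred

end Gen

section ModL

open Fermat.Agent.S18

set_option maxHeartbeats 1000000 in
/-- **The reduction interface `h87_RedData` at a prime `ℓ ∤ p`** from: reduction inputs at an
auxiliary level `N c` and injectivity of the reduction on prime-to-`ℓ` torsion there (S18),
`p` prime to `[F(N c) : F(N)]`, places of degree one on `F̄(N c)`, row [PGI] at level `N` and
row [K1]. -/
theorem h87_redData_of (N p : ℕ) [NeZero N] (c : ℕ) [NeZero c] (ℓ : ℕ) (hℓ : ℓ.Prime)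
    (A : ValuationSubring Qb) (hA : A.LiesOverPrime ℓ) (hℓp : ¬ ℓ ∣ p)
    (hRI : ReductionInputsModL A (N * c))
    (hS18 : ∀ m : ℕ, ¬ ℓ ∣ m → ∀ z : JZero (N * c), m • z = 0 →
      reductionModL A (N * c) z = 0 → z = 0)
    (hcop : Nat.Coprime p (finrankAlong Qb (heckeAlphaBar Qb N c)))
    (hdegFb : ∀ Q : Place (IsLocalRing.ResidueField A)
      (modularFunctionFieldFullC (IsLocalRing.ResidueField A) (N * c)), Q.deg = 1)
    (hgen : PrincipalGeneratedByIntegral A (IsLocalRing.residue A) N)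
    (hK1 : haveI : NeZero ℓ := ⟨hℓ.ne_zero⟩
      ∀ (ζ : Qbˣ), IsPrimitiveRoot ζ ℓ → ∀ y : modularFunctionFieldBar N,
      letI := algebraAlong (heckeAlphaBar Qb N ℓ)
      qExpand Qb ℓ
          ((Algebra.norm (modularFunctionFieldBar N) (heckeBetaBar Qb N ℓ y) :
            modularFunctionFieldBar N) : LaurentSeries Qb)
        = qExpand Qb ℓ (qExpand Qb ℓ (y : LaurentSeries Qb)) *
            ∏ b ∈ Finset.range ℓ, h87_twist (ζ ^ b) (y : LaurentSeries Qb)) :
    h87_RedData N p ℓ hℓ A := by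
  haveI : Fact ℓ.Prime := ⟨hℓ⟩
  haveI : NeZero ℓ := ⟨hℓ.ne_zero⟩
  haveI := h19_residueField_charP A ℓ hA
  haveI := h19_residueField_isAlgClosed A
  obtain ⟨ζ, hζ1, hζ⟩ := h87_exists_zeta A ℓ
  exact h87_redData_gen N p c ℓ hℓ A (IsLocalRing.residue A) hℓp hRI hS18 hcop hdegFb hgen ζ hζ1
    (hK1 _ hζ) (h87_inertia_lift A) (h87_frobenius_lift A ℓ)

end ModL

end Fermat.Agent.S37

end
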