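import Mathlib
import Fermat.Agent.S18
import Fermat.Agent.S37.h87_RedData
import Fermat.Agent.S37.h60_RedInj
import Fermat.Agent.S37.h39_RedInputs
import Fermat.Agent.S37.h49_K1Final
import Fermat.Agent.S37.h62_PGI

/-!
# S37: the reduction interface `h87_RedData` at every prime `ℓ ∤ N p` (helper60)

Instantiation of helper87's `h87_redData_of` at the auxiliary level `N · h60_lvl N ℓ`:
reduction inputs (`h60_lvl_redInputs`), S18 at that level (`Fermat.Agent.S18.result`), degree of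
the level change a power of `ℓ` (`h60_lvl_degree`), degree-one places (`h39_level_facts`), row
PGI (`h62_PGI`) and row K1 (`h49_K1`).
-/

set_option autoImplicit false
set_option synthInstance.maxHeartbeats 400000

noncomputable section

open ModularCurve AlgebraicCurve IntermediateField

namespace Fermat.Agent.S37

open Fermat.Agent.S24 Fermat.Agent.S18

local notation "Qb" => AlgebraicClosure ℚ

/-- **The reduction interface at every prime `ℓ ∤ N p`.** -/
theorem h60_redData (N p : ℕ) [NeZero N] (ℓ : ℕ) (hℓ : ℓ.Prime) (hℓNp : ¬ ℓ ∣ N * p)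
    (A : ValuationSubring Qb) (hA : A.LiesOverPrime ℓ) : h87_RedData N p ℓ hℓ A := by
  have : Fact ℓ.Prime := ⟨hℓ⟩
  have : NeZero ℓ := ⟨hℓ.ne_zero⟩
  have hℓN : ¬ ℓ ∣ N := fun h => hℓNp (Dvd.dvd.mul_right h p)
  have hℓp : ¬ ℓ ∣ p := fun h => hℓNp (Dvd.dvd.mul_left h N)
  have hℓM : ¬ ℓ ∣ N * h60_lvl N ℓ := h60_lvl_not_dvd N ℓ hℓN
  have hRI : ReductionInputsModL A (N * h60_lvl N ℓ) := h60_lvl_redInputs N hℓN A hA
  obtain ⟨e, he⟩ := h60_lvl_degree N ℓ hℓN
  have hcop : Nat.Coprime p (finrankAlong Qb (heckeAlphaBar Qb N (h60_lvl N ℓ))) := by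
    rw [he]
    exact Nat.Coprime.pow_right e ((Nat.Prime.coprime_iff_not_dvd hℓ).2 hℓp).symm
  exact h87_redData_of N p (h60_lvl N ℓ) ℓ hℓ A hA hℓp hRI
    (fun m hm z hmz hz => Fermat.Agent.S18.result (N * h60_lvl N ℓ) hℓM A hA hRI m hm z hmz hz)
    hcop (h39_level_facts (N * h60_lvl N ℓ) hℓM A hA).2.2 (h62_PGI N hℓN A hA)
    (fun ζ hζ y => h49_K1 N ℓ hℓ hℓN ζ hζ y)

end Fermat.Agent.S37

end
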