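import Mathlib
import Fermat.Prelude.Def_ModularCurve_LaurentCoeff
import Fermat.Prelude.Def_FLTPrelim_Ramification
import Fermat.Prelude.Def_EllipticCurve_FrobeniusTrace

/-!
# S37: transfer of `A`-integral Laurent series under the decomposition group (helper24)

For a valuation subring `A` of `L` and `σ` in the decomposition group of `A` over `K`:
the coefficientwise image `σ(y)` of an `A`-integral Laurent series `y` is `A`-integral, and its
reduction is the coefficientwise image of the reduction of `y` under the automorphism `σ̄` of the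
residue field induced by `σ`.  For `σ` in the inertia group `σ̄ = id`; for a Frobenius element at
`ℓ`, `σ̄ = (x ↦ x ^ ℓ)`.
-/

set_option autoImplicit false

noncomputable section

open ModularCurve HahnSeries

namespace Fermat.Agent.S37

variable {K L : Type*} [Field K] [Field L] [Algebra K L]

/-- The ring automorphism of `A` induced by an element of the decomposition group. -/
def h24_decAut (A : ValuationSubring L) (g : A.decompositionSubgroup K) : A ≃+* A :=
  MulSemiringAction.toRingAut (A.decompositionSubgroup K) A g

/-- The ring automorphism of the residue field of `A` induced by an element of the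
decomposition group (the action used by `ValuationSubring.IsFrobeniusAt` and by the inertia
group). -/
def h24_resAut (A : ValuationSubring L) (g : A.decompositionSubgroup K) :
    IsLocalRing.ResidueField A ≃+* IsLocalRing.ResidueField A :=
  MulSemiringAction.toRingAut (A.decompositionSubgroup K) (IsLocalRing.ResidueField A) g

theorem h24_decAut_coe (A : ValuationSubring L) (g : A.decompositionSubgroup K) (a : A) :
    ((h24_decAut A g a : A) : L) = (g : L ≃ₐ[K] L) (a : L) :=
  rfl

theorem h24_resAut_apply (A : ValuationSubring L) (g : A.decompositionSubgroup K)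
    (x : IsLocalRing.ResidueField A) : h24_resAut A g x = g • x :=
  rfl

theorem h24_resAut_residue (A : ValuationSubring L) (g : A.decompositionSubgroup K) (a : A) :
    h24_resAut A g (IsLocalRing.residue A a) = IsLocalRing.residue A (h24_decAut A g a) :=
  (IsLocalRing.ResidueField.residue_smul (A.decompositionSubgroup K) g a).symm

/-- The coefficientwise image of an `A`-integral Laurent series under an element of the
decomposition group. -/
def h24_decSeries (A : ValuationSubring L) (g : A.decompositionSubgroup K)
    (y : LaurentSeries A) : LaurentSeries A :=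
  coeffMap (h24_decAut A g : A →+* A) y

theorem h24_coeffMap_subtype_decSeries (A : ValuationSubring L)
    (g : A.decompositionSubgroup K) (y : LaurentSeries A) :
    coeffMap A.subtype (h24_decSeries A g y)
      = coeffMap (((g : L ≃ₐ[K] L) : L ≃+* L) : L →+* L) (coeffMap A.subtype y) := by
  rw [h24_decSeries, coeffMap_coeffMap, coeffMap_coeffMap]
  exact coeffMap_congr (RingHom.ext fun a => rfl) y

theorem h24_coeffMap_residue_decSeries (A : ValuationSubring L)
    (g : A.decompositionSubgroup K) (y : LaurentSeries A) :
    coeffMap (IsLocalRing.residue A) (h24_decSeries A g y)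
      = coeffMap (h24_resAut A g : IsLocalRing.ResidueField A →+* IsLocalRing.ResidueField A)
          (coeffMap (IsLocalRing.residue A) y) := by
  rw [h24_decSeries, coeffMap_coeffMap, coeffMap_coeffMap]
  exact coeffMap_congr (RingHom.ext fun a => (h24_resAut_residue A g a).symm) y

/-- **Decomposition-group transfer**: `σ(y)` is `A`-integral with reduction `σ̄(ȳ)`. -/
theorem h24_decomp_transfer (A : ValuationSubring L) (σ : L ≃ₐ[K] L)
    (hσ : σ ∈ A.decompositionSubgroup K) (y : LaurentSeries A) :
    ∃ y' : LaurentSeries A,
      coeffMap A.subtype y' = coeffMap ((σ : L ≃+* L) : L →+* L) (coeffMap A.subtype y) ∧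
      coeffMap (IsLocalRing.residue A) y'
        = coeffMap (h24_resAut A ⟨σ, hσ⟩ :
            IsLocalRing.ResidueField A →+* IsLocalRing.ResidueField A)
          (coeffMap (IsLocalRing.residue A) y) :=
  ⟨h24_decSeries A ⟨σ, hσ⟩ y, h24_coeffMap_subtype_decSeries A ⟨σ, hσ⟩ y,
    h24_coeffMap_residue_decSeries A ⟨σ, hσ⟩ y⟩

/-- Elements of the inertia group lie in the decomposition group and act trivially on the
residue field. -/
theorem h24_resAut_of_mem_inertia (A : ValuationSubring L) (σ : L ≃ₐ[K] L)
    (hσ : σ ∈ A.inertiaSubgroupIn K) :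
    ∃ hd : σ ∈ A.decompositionSubgroup K, h24_resAut A ⟨σ, hd⟩ = RingEquiv.refl _ := by
  obtain ⟨g, hg, rfl⟩ := hσ
  exact ⟨g.2, hg⟩

/-- **Inertia transfer**: `σ(y)` is `A`-integral with the same reduction as `y`. -/
theorem h24_transfer_inertia (A : ValuationSubring L) (σ : L ≃ₐ[K] L)
    (hσ : σ ∈ A.inertiaSubgroupIn K) (y : LaurentSeries A) :
    ∃ y' : LaurentSeries A,
      coeffMap A.subtype y' = coeffMap ((σ : L ≃+* L) : L →+* L) (coeffMap A.subtype y) ∧
      coeffMap (IsLocalRing.residue A) y' = coeffMap (IsLocalRing.residue A) y := by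
  obtain ⟨hd, hres⟩ := h24_resAut_of_mem_inertia A σ hσ
  obtain ⟨y', h1, h2⟩ := h24_decomp_transfer A σ hd y
  refine ⟨y', h1, ?_⟩
  rw [h2, hres]
  exact coeffMap_id _

/-- A Frobenius element at `ℓ` acts on the residue field by `x ↦ x ^ ℓ`. -/
theorem h24_resAut_of_isFrobeniusAt (A : ValuationSubring L) (σ : L ≃ₐ[K] L) (ℓ : ℕ)
    (h : A.IsFrobeniusAt σ ℓ) (x : IsLocalRing.ResidueField A) :
    h24_resAut A ⟨σ, h.mem_decompositionSubgroup⟩ x = x ^ ℓ :=
  h.smul_residue_eq x

/-- **Frobenius transfer**: for a Frobenius element `σ` at `ℓ`, `σ(y)` is `A`-integral and its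
reduction is the coefficientwise Frobenius of the reduction of `y`. -/
theorem h24_transfer_frob (A : ValuationSubring L) (σ : L ≃ₐ[K] L) (ℓ : ℕ) [Fact ℓ.Prime]
    [CharP (IsLocalRing.ResidueField A) ℓ] (h : A.IsFrobeniusAt σ ℓ) (y : LaurentSeries A) :
    ∃ y' : LaurentSeries A,
      coeffMap A.subtype y' = coeffMap ((σ : L ≃+* L) : L →+* L) (coeffMap A.subtype y) ∧
      coeffMap (IsLocalRing.residue A) y'
        = coeffMap (frobenius (IsLocalRing.ResidueField A) ℓ)
            (coeffMap (IsLocalRing.residue A) y) := by
  obtain ⟨y', h1, h2⟩ := h24_decomp_transfer A σ h.mem_decompositionSubgroup y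
  refine ⟨y', h1, ?_⟩
  rw [h2]
  exact coeffMap_congr (RingHom.ext fun x => h24_resAut_of_isFrobeniusAt A σ ℓ h x) _

/-- The residue automorphism of a Frobenius element is a ring automorphism whose underlying
map is the `ℓ`-power map; in particular the `ℓ`-power map of the residue field is bijective
as soon as a Frobenius element exists. -/
theorem h24_resAut_frob_coe (A : ValuationSubring L) (σ : L ≃ₐ[K] L) (ℓ : ℕ) [Fact ℓ.Prime]
    [CharP (IsLocalRing.ResidueField A) ℓ] (h : A.IsFrobeniusAt σ ℓ) :
    (h24_resAut A ⟨σ, h.mem_decompositionSubgroup⟩ :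
        IsLocalRing.ResidueField A →+* IsLocalRing.ResidueField A)
      = frobenius (IsLocalRing.ResidueField A) ℓ :=
  RingHom.ext fun x => h24_resAut_of_isFrobeniusAt A σ ℓ h x

end Fermat.Agent.S37

end
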