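import Mathlib
import Fermat.Prelude.Def_AlgebraicCurve_Repartitions
import Fermat.Agent.S24.h73_Diff
import Fermat.Agent.S18.h75_RRDefs

/-!
# S37 / row EFF, core: the weak Riemann inequality from Riemann's inequality on a chart

For a function field `F / K` (`K` algebraically closed of characteristic `0`): every divisor of
large degree is linearly equivalent to an effective one.  The input is Riemann's inequality
`deg D + 1 - g ≤ dim L(D)` for a chart `x` (S18 RR-B6 `h75_riemann`), taken here as a hypothesis.
-/

set_option autoImplicit false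

noncomputable section

open AlgebraicCurve IntermediateField

namespace Fermat.Agent.S37

open Fermat.Agent.S24 Fermat.Agent.S18

variable {K F : Type*} [Field K] [Field F] [Algebra K F] [IsAlgClosed K] [CharZero K]

omit [CharZero K] in
/-- If `F` is algebraic over the algebraically closed field `K`, there are no places. -/
theorem h89_no_place_of_algebraic (h : ∀ x : F, IsAlgebraic K x) (P : Place K F) : False := by
  apply P.ne_top'
  refine SetLike.ext fun f => ⟨fun _ => ValuationSubring.mem_top f, fun _ => ?_⟩
  obtain ⟨a, rfl⟩ := h73_mem_range_of_isAlgebraic (h f)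
  exact P.algebraMap_mem' a

omit [IsAlgClosed K] in
/-- A transcendental element of a function field over a field of characteristic zero is a
chart. -/
theorem h89_isChart_of_transcendental (hF : h73_IsFF K F) {x : F} (hx : Transcendental K x) :
    h75_IsChart K x := by
  have hfin : FiniteDimensional K⟮x⟯ F := h73_finite_of_transcendental hF hx
  have : CharZero K⟮x⟯ := charZero_of_injective_algebraMap (algebraMap K K⟮x⟯).injective
  exact ⟨hx, hfin, inferInstance⟩

/-- [EFF] from Riemann's inequality on charts. -/
theorem h89_EFF_of_riemann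
    (hRiem : ∀ x : F, h75_IsChart K x → ∀ D : Divisor K F,
      Module.Finite K ↥(riemannRochSpace D) ∧
        Divisor.degree D + 1 - (h75_genus K x : ℤ) ≤
          (Module.finrank K ↥(riemannRochSpace D) : ℤ))
    (hF : h73_IsFF K F) :
    ∃ n₀ : ℤ, ∀ D : Divisor K F, n₀ ≤ Divisor.degree D →
      ∃ f : F, f ≠ 0 ∧ ∀ P : Place K F, 0 ≤ D P + P.ord f := by
  by_cases htr : ∃ x : F, Transcendental K x
  · obtain ⟨x, hx⟩ := htr
    have hchart : h75_IsChart K x := h89_isChart_of_transcendental hF hx
    refine ⟨(h75_genus K x : ℤ), fun D hD => ?_⟩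
    obtain ⟨hfinD, hineq⟩ := hRiem x hchart D
    have hpos : 0 < Module.finrank K ↥(riemannRochSpace D) := by omega
    obtain ⟨⟨f, hfmem⟩, hf0⟩ := Module.finrank_pos_iff_exists_ne_zero.mp hpos
    have hf0' : f ≠ 0 := fun h0 => hf0 (Subtype.ext h0)
    refine ⟨f, hf0', fun P => ?_⟩
    rcases (mem_riemannRochSpace_iff.mp hfmem) P with h | h
    · exact absurd h hf0'
    · omega
  · have halg : ∀ x : F, IsAlgebraic K x := by
      intro x
      by_contra hx
      exact htr ⟨x, hx⟩
    exact ⟨0, fun D _ => ⟨1, one_ne_zero, fun P => (h89_no_place_of_algebraic halg P).elim⟩⟩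

end Fermat.Agent.S37

end
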