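import Mathlib
import Fermat.Prelude.Def_ModularCurve_ReductionModL
import Fermat.Prelude.Def_ModularCurve_HeckeModule
import Fermat.Agent.S24.h78_Fibres
import Fermat.Agent.S24.h85_Galois
import Fermat.Agent.S37.h87_Twist
import Fermat.Agent.S37.h19_DEG
import Fermat.Agent.S37.h88_HICore

/-!
# S37 row [K1], steps (2) and (3): the norm formula from the swap (helper76)

Given a ring endomorphism `w` of `F(N ℓ)` exchanging the two degeneracy maps
`α : f ↦ f` and `β : f ↦ f(q^ℓ)`, the `ℓ + 1` ring homomorphisms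
`σ_∞ f = f(q^ℓ)`, `σ_b f = (w f)(ζ^b q)` of `F(N ℓ)` into the Laurent series agree on
`α F(N)` and are pairwise distinct, hence compute the norm:
`N(y(q^ℓ))(q^ℓ) = y(q^(ℓ²)) ∏_{b<ℓ} y(ζ^b q)`.
-/

set_option autoImplicit false
set_option synthInstance.maxHeartbeats 400000

noncomputable section

open ModularCurve AlgebraicCurve IntermediateField

namespace Fermat.Agent.S37

open Fermat.Agent.S24

local notation "Qb" => AlgebraicClosure ℚ

/-- A twist by an `ℓ`-th root of unity fixes the series in `q^ℓ`. -/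
theorem h76_twist_qExpand {R : Type*} [CommRing R] (ℓ : ℕ) [NeZero ℓ] (c : Rˣ) (hc : c ^ ℓ = 1)
    (f : LaurentSeries R) : h87_twist c (qExpand R ℓ f) = qExpand R ℓ f := by
  ext n
  rw [h87_twist_coeff]
  by_cases hn : (ℓ : ℤ) ∣ n
  · obtain ⟨m, rfl⟩ := hn
    have h1 : c ^ ((ℓ : ℤ) * m) = 1 := by
      rw [zpow_mul, zpow_natCast, hc, one_zpow]
    rw [h1, Units.val_one, one_mul]
  · rw [qExpand_coeff_of_not_dvd ℓ f hn, mul_zero]

/-- The family of `ℓ + 1` embeddings of `F(N ℓ)` into the Laurent series. -/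
def h76_sigma (N ℓ : ℕ) [NeZero N] [NeZero ℓ]
    (w : ↥(modularFunctionFieldBar (N * ℓ)) →+* ↥(modularFunctionFieldBar (N * ℓ))) (ζ : Qbˣ) :
    Option (Fin ℓ) → ↥(modularFunctionFieldBar (N * ℓ)) →+* LaurentSeries Qb
  | none => (qExpand Qb ℓ).comp (modularFunctionFieldBar (N * ℓ)).val.toRingHom
  | some b => ((h87_twist (ζ ^ (b : ℕ))).comp
      (modularFunctionFieldBar (N * ℓ)).val.toRingHom).comp w

theorem h76_sigma_none (N ℓ : ℕ) [NeZero N] [NeZero ℓ]
    (w : ↥(modularFunctionFieldBar (N * ℓ)) →+* ↥(modularFunctionFieldBar (N * ℓ))) (ζ : Qbˣ)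
    (f : ↥(modularFunctionFieldBar (N * ℓ))) :
    h76_sigma N ℓ w ζ none f = qExpand Qb ℓ (f : LaurentSeries Qb) := rfl

theorem h76_sigma_some (N ℓ : ℕ) [NeZero N] [NeZero ℓ]
    (w : ↥(modularFunctionFieldBar (N * ℓ)) →+* ↥(modularFunctionFieldBar (N * ℓ))) (ζ : Qbˣ)
    (b : Fin ℓ) (f : ↥(modularFunctionFieldBar (N * ℓ))) :
    h76_sigma N ℓ w ζ (some b) f = h87_twist (ζ ^ (b : ℕ)) ((w f : ↥(modularFunctionFieldBar (N * ℓ))) : LaurentSeries Qb) := rfl

/-- The coefficient of `q⁻¹` in `j`. -/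
theorem h76_coeff_jbar (M : ℕ) [NeZero M] :
    ((h59_jbar M : ↥(modularFunctionFieldBar M)) : LaurentSeries Qb).coeff (-1) = 1 := by
  rw [h59_coe_jbar, coeffEmb_coeff, coeff_jq_neg_one, map_one]

/-- **K1 from the swap.** -/
theorem h76_K1_of_swap (N : ℕ) [NeZero N] (ℓ : ℕ) [NeZero ℓ] (hℓ : ℓ.Prime) (hℓN : ¬ ℓ ∣ N)
    (w : ↥(modularFunctionFieldBar (N * ℓ)) →+* ↥(modularFunctionFieldBar (N * ℓ)))
    (hwα : ∀ y : ↥(modularFunctionFieldBar N),
      w (heckeAlphaBar Qb N ℓ y) = heckeBetaBar Qb N ℓ y)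
    (hwβ : ∀ y : ↥(modularFunctionFieldBar N),
      w (heckeBetaBar Qb N ℓ y) = heckeAlphaBar Qb N ℓ y)
    (ζ : Qbˣ) (hζ : IsPrimitiveRoot ζ ℓ) (y : ↥(modularFunctionFieldBar N)) :
    letI := algebraAlong (heckeAlphaBar Qb N ℓ)
    qExpand Qb ℓ ((Algebra.norm ↥(modularFunctionFieldBar N) (heckeBetaBar Qb N ℓ y) :
        ↥(modularFunctionFieldBar N)) : LaurentSeries Qb)
      = qExpand Qb ℓ (qExpand Qb ℓ (y : LaurentSeries Qb)) *
        ∏ b ∈ Finset.range ℓ, h87_twist (ζ ^ b) (y : LaurentSeries Qb) := by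
  letI := algebraAlong (heckeAlphaBar Qb N ℓ)
  haveI hfin : Module.Finite ↥(modularFunctionFieldBar N) ↥(modularFunctionFieldBar (N * ℓ)) :=
    h88_finiteAlong_alpha N ℓ
  haveI : Algebra.IsSeparable ↥(modularFunctionFieldBar N) ↥(modularFunctionFieldBar (N * ℓ)) :=
    Algebra.IsAlgebraic.isSeparable_of_perfectField
  have hℓ2 : 2 ≤ ℓ := hℓ.two_le
  have hamap : ∀ e : ↥(modularFunctionFieldBar N),
      algebraMap ↥(modularFunctionFieldBar N) ↥(modularFunctionFieldBar (N * ℓ)) e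
        = heckeAlphaBar Qb N ℓ e := fun e => rfl
  -- agreement on the base field
  have hbase : ∀ (x : Option (Fin ℓ)) (e : ↥(modularFunctionFieldBar N)),
      h76_sigma N ℓ w ζ x (heckeAlphaBar Qb N ℓ e) = qExpand Qb ℓ (e : LaurentSeries Qb) := by
    intro x e
    cases x with
    | none => rw [h76_sigma_none, coe_heckeAlphaBar]
    | some b =>
      rw [h76_sigma_some, hwα, coe_heckeBetaBar]
      exact h76_twist_qExpand ℓ _ (by rw [← pow_mul, mul_comm, pow_mul, hζ.pow_eq_one, one_pow]) _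
  -- values on `β y`
  have hβnone : ∀ e : ↥(modularFunctionFieldBar N),
      h76_sigma N ℓ w ζ none (heckeBetaBar Qb N ℓ e)
        = qExpand Qb ℓ (qExpand Qb ℓ (e : LaurentSeries Qb)) := by
    intro e
    rw [h76_sigma_none, coe_heckeBetaBar]
  have hβsome : ∀ (b : Fin ℓ) (e : ↥(modularFunctionFieldBar N)),
      h76_sigma N ℓ w ζ (some b) (heckeBetaBar Qb N ℓ e)
        = h87_twist (ζ ^ (b : ℕ)) (e : LaurentSeries Qb) := by
    intro b e
    rw [h76_sigma_some, hwβ, coe_heckeAlphaBar]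
  -- injectivity
  have hinj : Function.Injective (h76_sigma N ℓ w ζ) := by
    intro x x' hxx
    have h1 := congrArg (fun σ : ↥(modularFunctionFieldBar (N * ℓ)) →+* LaurentSeries Qb =>
      (σ (heckeBetaBar Qb N ℓ (h59_jbar N))).coeff (-1)) hxx
    beta_reduce at h1
    have hnone : (h76_sigma N ℓ w ζ none (heckeBetaBar Qb N ℓ (h59_jbar N))).coeff (-1) = 0 := by
      rw [hβnone]
      apply qExpand_coeff_of_not_dvd
      rintro ⟨c, hc⟩
      have h2 : (ℓ : ℤ) ∣ 1 := ⟨-c, by linarith⟩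
      have h3 : (ℓ : ℤ) ≤ 1 := Int.le_of_dvd one_pos h2
      omega
    have hsome : ∀ b : Fin ℓ,
        (h76_sigma N ℓ w ζ (some b) (heckeBetaBar Qb N ℓ (h59_jbar N))).coeff (-1)
          = (((ζ ^ (b : ℕ)) ^ (-1 : ℤ) : Qbˣ) : Qb) := by
      intro b
      rw [hβsome, h87_twist_coeff, h76_coeff_jbar, mul_one]
    cases x with
    | none =>
      cases x' with
      | none => rfl
      | some b' =>
        rw [hnone, hsome] at h1
        exact absurd h1.symm (Units.ne_zero _)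
    | some b =>
      cases x' with
      | none =>
        rw [hnone, hsome] at h1
        exact absurd h1 (Units.ne_zero _)
      | some b' =>
        rw [hsome, hsome] at h1
        have h2 : (ζ ^ (b : ℕ)) ^ (-1 : ℤ) = (ζ ^ (b' : ℕ)) ^ (-1 : ℤ) := Units.ext h1
        have h3 : ζ ^ (b : ℕ) = ζ ^ (b' : ℕ) := by
          have := congrArg (fun u : Qbˣ => u⁻¹) h2
          simpa using this
        have h4 : (b : ℕ) = (b' : ℕ) := hζ.pow_inj b.2 b'.2 h3
        exact congrArg some (Fin.ext h4)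
  have hE : ∀ (x x' : Option (Fin ℓ)) (e : ↥(modularFunctionFieldBar N)),
      h76_sigma N ℓ w ζ x (algebraMap ↥(modularFunctionFieldBar N)
          ↥(modularFunctionFieldBar (N * ℓ)) e)
        = h76_sigma N ℓ w ζ x' (algebraMap ↥(modularFunctionFieldBar N)
          ↥(modularFunctionFieldBar (N * ℓ)) e) := by
    intro x x' e
    rw [hamap, hbase, hbase]
  have hcard : Fintype.card (Option (Fin ℓ))
      = Module.finrank ↥(modularFunctionFieldBar N) ↥(modularFunctionFieldBar (N * ℓ)) := by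
    rw [Fintype.card_option, Fintype.card_fin]
    exact (h19_DEG N ℓ hℓ hℓN).symm
  have key := (h85_norm_of_embeddings (h76_sigma N ℓ w ζ) hinj hE).2 hcard none
    (heckeBetaBar Qb N ℓ y)
  rw [hamap, hbase, Fintype.prod_option, hβnone] at key
  rw [key]
  congr 1
  rw [← Fin.prod_univ_eq_prod_range (fun b => h87_twist (ζ ^ b) (y : LaurentSeries Qb)) ℓ]
  exact Finset.prod_congr rfl fun b _ => hβsome b y

end Fermat.Agent.S37

end
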